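/-
Good reduction criterion and injectivity of reduction on prime-to-residue-characteristic torsion,
in pure commutative algebra.  Interface definitions.  Owner: helper160.

Setting: `O` a discrete valuation ring with uniformiser `ϖ`, `K = Frac O`, `E = K(x)` a rational
function field, `F / E` a finite extension ("function field of a curve over `K`", the curve being
presented as a covering of the `x`-line).
-/
import Mathlib

set_option autoImplicit false

namespace Fermat.Agent.GoodRed

open Polynomial

section Defs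

variable (O K : Type*) {E F : Type*} [CommRing O] [Field K] [Algebra O K]
  [Field E] [Algebra K E] [Algebra O E] [Field F] [Algebra E F]

/-- `y ∈ F` is integral over `O[x]` (`x ∈ E`). -/
def IntO (x : E) (y : F) : Prop :=
  ((algebraMap E F).comp ((aeval x : O[X] →ₐ[O] E) : O[X] →+* E)).IsIntegralElem y

/-- `y ∈ F` is integral over `K[x]` (`x ∈ E`). -/
def IntK (x : E) (y : F) : Prop :=
  ((algebraMap E F).comp ((aeval x : K[X] →ₐ[K] E) : K[X] →+* E)).IsIntegralElem y

variable {O}

/-- A polynomial over `O` which is nonzero modulo `ϖ`. -/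
def IsPrim (ϖ : O) (p : O[X]) : Prop := ∃ i, ¬ ϖ ∣ p.coeff i

variable (O)

/-- `𝒟` is "the" extension to `F` of the Gauss valuation ring of `E = K(x)` attached to `(O, ϖ, x)`:
it is a valuation ring of `F` with maximal ideal `ϖ 𝒟`, in which every polynomial in `x` which is
nonzero mod `ϖ` is a unit, which is integral over the Gauss valuation ring (i.e. it is the only
extension), and such that the residue extension is separable (the trace form is nondegenerate
modulo `ϖ`). -/
structure GaussData (ϖ : O) (𝒟 : ValuationSubring F) (x : E) : Prop where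
  algebraMap_mem : ∀ a : O, algebraMap E F (algebraMap O E a) ∈ 𝒟
  inv_unif_notMem : (algebraMap E F (algebraMap O E ϖ))⁻¹ ∉ 𝒟
  unif : ∀ y ∈ 𝒟, y⁻¹ ∉ 𝒟 → ∃ z ∈ 𝒟, y = algebraMap E F (algebraMap O E ϖ) * z
  gauss : ∀ p : O[X], IsPrim ϖ p →
    algebraMap E F (aeval x p) ∈ 𝒟 ∧ (algebraMap E F (aeval x p))⁻¹ ∈ 𝒟
  integral : ∀ y ∈ 𝒟, ∃ s : O[X], IsPrim ϖ s ∧ IntO O x (algebraMap E F (aeval x s) * y)
  sep : ∀ y ∈ 𝒟,
    (∀ z ∈ 𝒟, ∃ w ∈ 𝒟, algebraMap E F (Algebra.trace E F (y * z)) =
      algebraMap E F (algebraMap O E ϖ) * w) →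
    ∃ w ∈ 𝒟, y = algebraMap E F (algebraMap O E ϖ) * w

variable {O} (E)

/-- `V` is a valuation ring of `F` containing the constants `K` (a "place or the trivial place"). -/
def ContainsConst (V : ValuationSubring F) : Prop :=
  ∀ a : K, algebraMap E F (algebraMap K E a) ∈ V

/-- `c ∈ F` is a constant: it is algebraic over `K`. -/
def IsConst (c : F) : Prop := ((algebraMap E F).comp (algebraMap K E)).IsIntegralElem c

variable {E} (F)

/-- The covering `F / K(x)` is unramified at all places of `F` at which `x` is finite and `g(x)` is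
a unit: at such a place some polynomial in `x` is a uniformiser. -/
def UnramOutside (x : E) (g : K[X]) : Prop :=
  ∀ V : ValuationSubring F, ContainsConst K E V → V ≠ ⊤ → algebraMap E F x ∈ V →
    (algebraMap E F (aeval x g))⁻¹ ∈ V →
    ∃ p : K[X], algebraMap E F (aeval x p) ∈ V ∧ (algebraMap E F (aeval x p))⁻¹ ∉ V ∧
      ∀ y ∈ V, y⁻¹ ∉ V → y / algebraMap E F (aeval x p) ∈ V

variable (E) {F}

/-- The divisor of `h` is divisible by `m`: at every place, `h` is a unit times an `m`-th power. -/
def DivisibleDiv (m : ℕ) (h : F) : Prop :=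
  ∀ V : ValuationSubring F, ContainsConst K E V →
    ∃ t : F, t ≠ 0 ∧ h * t ^ m ∈ V ∧ (h * t ^ m)⁻¹ ∈ V

variable {K E}

/-- `y ≡ z mod ϖ ^ n 𝒟`. -/
def CongrMod {O : Type*} [CommRing O] [Algebra O E] (ϖ : O) (𝒟 : ValuationSubring F) (n : ℕ)
    (y z : F) : Prop :=
  ∃ w ∈ 𝒟, y - z = algebraMap E F (algebraMap O E ϖ) ^ n * w

end Defs

end Fermat.Agent.GoodRed
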