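import Fermat.Agent.Lib.GoodRed.Tame
set_option autoImplicit false
namespace Fermat.Agent.GoodRed
open Polynomial nonZeroDivisors Module
attribute [local instance] FractionRing.liftAlgebra FractionRing.isScalarTower_liftAlgebra Ideal.Quotient.field
variable (A K : Type*) {L B : Type*} [CommRing A] [Field K] [CommRing B] [Field L]
  [Algebra A K] [Algebra B L] [Algebra A B] [Algebra K L] [Algebra A L]
  [IsScalarTower A K L] [IsScalarTower A B L]
  [IsDedekindDomain A] [IsFractionRing A K] [IsDedekindDomain B] [IsFractionRing B L]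
  [FiniteDimensional K L] [Algebra.IsSeparable K L] [IsIntegralClosure B A L]

namespace TameDual

open UniqueFactorizationMonoid in
/-- divisibility of nonzero ideals can be checked on multiplicities. -/
theorem dvd_of_count_le {T : Type*} [CommRing T] [IsDedekindDomain T] {I J : Ideal T}
    (hI : I ≠ ⊥) (hJ : J ≠ ⊥)
    (h : ∀ P : Ideal T, P.IsPrime → P ≠ ⊥ →
      Multiset.count P (normalizedFactors I) ≤ Multiset.count P (normalizedFactors J)) :
    I ∣ J := by
  classical
  rw [dvd_iff_normalizedFactors_le_normalizedFactors hI hJ, Multiset.le_iff_count]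
  intro P
  by_cases hP : P ∈ normalizedFactors I
  · have hprime := prime_of_normalized_factor P hP
    exact h P (Ideal.isPrime_of_prime hprime) hprime.ne_zero
  · rw [Multiset.count_eq_zero_of_notMem hP]
    exact Nat.zero_le _

open UniqueFactorizationMonoid in
theorem pow_dvd_iff_le_count {T : Type*} [CommRing T] [IsDedekindDomain T] {I P : Ideal T}
    (hI : I ≠ ⊥) (hP : P.IsPrime) (hP0 : P ≠ ⊥) (k : ℕ) :
    P ^ k ∣ I ↔ k ≤ Multiset.count P (normalizedFactors I) := by
  classical
  have hirr : Irreducible P := (Ideal.prime_of_isPrime hP0 hP).irreducible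
  rw [dvd_iff_normalizedFactors_le_normalizedFactors (pow_ne_zero _ hP0) hI, normalizedFactors_pow,
    normalizedFactors_irreducible hirr, normalize_eq, Multiset.nsmul_singleton,
    Multiset.le_count_iff_replicate_le]

theorem arith {n c e cg : ℕ} (h1 : c < e) (h2 : e ≤ cg) (h3 : e ≤ n) :
    n * c ≤ (n - 1) * cg := by
  obtain ⟨m, rfl⟩ : ∃ m, n = m + 1 := ⟨n - 1, by omega⟩
  have h4 : c ≤ m := by omega
  calc (m + 1) * c = m * c + c := by ring
    _ ≤ m * c + m := by omega
    _ = m * (c + 1) := by ring
    _ ≤ m * cg := Nat.mul_le_mul_left m (by omega)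
    _ = (m + 1 - 1) * cg := by simp

set_option linter.deprecated false in
open UniqueFactorizationMonoid in
include K L in
omit [FiniteDimensional K L] [Algebra.IsSeparable K L] in
theorem differentIdeal_pow_dvd [IsTorsionFree A B] [Module.Finite A B]
    (hchar : ∀ p : Ideal A, p.IsMaximal → CharZero (A ⧸ p)) (g : A) (hg : g ≠ 0)
    (hunr : ∀ P : Ideal B, P.IsPrime → P ≠ ⊥ → algebraMap A B g ∉ P →
      ¬ P ^ 2 ∣ (P.under A).map (algebraMap A B)) (hD : differentIdeal A B ≠ ⊥) :
    differentIdeal A B ^ finrank K L ∣ Ideal.span {algebraMap A B g} ^ (finrank K L - 1) := by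
  classical
  have hint : Algebra.IsIntegral A B := IsIntegralClosure.isIntegral_algebra A L
  have hgB : algebraMap A B g ≠ 0 := by
    intro h0
    exact hg (FaithfulSMul.algebraMap_injective A B (by rw [h0, map_zero]))
  have hspan : Ideal.span {algebraMap A B g} ≠ ⊥ := by
    rw [Ne, Ideal.span_singleton_eq_bot]
    exact hgB
  refine dvd_of_count_le (pow_ne_zero _ hD) (pow_ne_zero _ hspan) fun P hP hP0 ↦ ?_
  rw [normalizedFactors_pow, normalizedFactors_pow, Multiset.count_nsmul, Multiset.count_nsmul]
  have := hP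
  have hPmax : P.IsMaximal := hP.isMaximal hP0
  set p := P.under A with hp
  have hp0 : p ≠ ⊥ := Ideal.under_ne_bot A hP0
  have hpmax : p.IsMaximal := Ideal.IsPrime.isMaximal inferInstance hp0
  have := hchar p hpmax
  have hpB : p.map (algebraMap A B) ≠ ⊥ := Ideal.map_ne_bot_of_ne_bot hp0
  obtain ⟨Q, hPQ, hfac⟩ := Ideal.eq_prime_pow_mul_coprime hpB P
  set e := Multiset.count P (normalizedFactors (p.map (algebraMap A B))) with he
  have hle : p.map (algebraMap A B) ≤ P := Ideal.map_comap_le
  have he0 : e ≠ 0 := by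
    intro h0
    have h1 : 1 ≤ e := (pow_dvd_iff_le_count hpB hP hP0 1).mp (by
      rw [pow_one]; exact Ideal.dvd_iff_le.mpr hle)
    omega
  have hcop : IsCoprime (P ^ e) Q := (Ideal.isCoprime_iff_sup_eq.mpr hPQ).pow_left
  have htame := not_pow_dvd_differentIdeal_of_tame A p P Q e he0 hcop hfac.symm
  have hc : Multiset.count P (normalizedFactors (differentIdeal A B)) < e := by
    by_contra hcon
    exact htame ((pow_dvd_iff_le_count hD hP hP0 e).mpr (not_lt.mp hcon))
  by_cases hgP : algebraMap A B g ∈ P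
  · have hgp : g ∈ p := hgP
    have h1 : Ideal.span {algebraMap A B g} ≤ p.map (algebraMap A B) := by
      rw [Ideal.span_singleton_le_iff_mem]
      exact Ideal.mem_map_of_mem _ hgp
    have h2 : P ^ e ∣ Ideal.span {algebraMap A B g} :=
      ((pow_dvd_iff_le_count hpB hP hP0 e).mpr le_rfl).trans (Ideal.dvd_iff_le.mpr h1)
    have h3 : e ≤ Multiset.count P (normalizedFactors (Ideal.span {algebraMap A B g})) :=
      (pow_dvd_iff_le_count hspan hP hP0 e).mp h2
    have h4 : e ≤ finrank K L := by
      have : P.LiesOver p := ⟨rfl⟩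
      have : NoZeroSMulDivisors A B := ⟨fun {c x} h ↦ by
        rw [Algebra.smul_def, mul_eq_zero] at h
        rcases h with h | h
        · left
          exact FaithfulSMul.algebraMap_injective A B (by rw [h, map_zero])
        · exact Or.inr h⟩
      have := Ideal.ramificationIdx_le_finrank B K L (p := p) P
      rwa [Ideal.IsDedekindDomain.ramificationIdx'_eq_normalizedFactors_count hpB hP hP0] at this
    exact arith hc h3 h4
  · have h1 := hunr P hP hP0 hgP
    have h2 : ¬ 2 ≤ e := fun h ↦ h1 ((pow_dvd_iff_le_count hpB hP hP0 2).mpr h)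
    have h3 : Multiset.count P (normalizedFactors (differentIdeal A B)) = 0 := by omega
    rw [h3, mul_zero]
    exact Nat.zero_le _

end TameDual

open TameDual in
theorem isIntegral_pow_mul_pow_of_mem_traceDual
    (hchar : ∀ p : Ideal A, p.IsMaximal → CharZero (A ⧸ p)) (g : A) (hg : g ≠ 0)
    (hunr : ∀ P : Ideal B, P.IsPrime → P ≠ ⊥ → algebraMap A B g ∉ P →
      ¬ P ^ 2 ∣ (P.under A).map (algebraMap A B))
    (y : L) (hy : y ∈ Submodule.traceDual A K (1 : Submodule B L)) :
    IsIntegral A (y ^ finrank K L * algebraMap A L g ^ (finrank K L - 1)) := by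
  have : Module.Finite A B := IsIntegralClosure.finite A K L B
  have hinj : Function.Injective (algebraMap A L) := by
    rw [IsScalarTower.algebraMap_eq A K L]
    exact (algebraMap K L).injective.comp (IsFractionRing.injective A K)
  have : IsTorsionFree A L := by
    have : FaithfulSMul A L := (faithfulSMul_iff_algebraMap_injective A L).mpr hinj
    infer_instance
  have : IsTorsionFree A B := IsIntegralClosure.isTorsionFree A L
  set n := finrank K L with hn
  set D : FractionalIdeal B⁰ L := FractionalIdeal.dual A K (1 : FractionalIdeal B⁰ L) with hDdef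
  have hD0 : D ≠ 0 := FractionalIdeal.dual_ne_zero A K one_ne_zero
  have hcoe : ((differentIdeal A B : Ideal B) : FractionalIdeal B⁰ L) = D⁻¹ :=
    coeIdeal_differentIdeal A K L B
  have hDf : differentIdeal A B ≠ ⊥ := by
    intro h0
    rw [h0] at hcoe
    simp only [FractionalIdeal.coeIdeal_bot] at hcoe
    exact hD0 (inv_eq_zero.mp hcoe.symm)
  have hdvd := differentIdeal_pow_dvd A K (L := L) hchar g hg hunr hDf
  have hyD : y ∈ D := by
    rw [← FractionalIdeal.mem_coe, hDdef, FractionalIdeal.coe_dual_one]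
    exact hy
  have hyn : y ^ n ∈ D ^ n := by
    rw [← FractionalIdeal.mem_coe, FractionalIdeal.coe_pow]
    exact Submodule.pow_mem_pow _ hyD n
  have hgmem : algebraMap A B g ^ (n - 1) ∈ differentIdeal A B ^ n :=
    Ideal.le_of_dvd hdvd (Ideal.pow_mem_pow (Ideal.mem_span_singleton_self _) _)
  have hgL : algebraMap A L g ^ (n - 1) ∈ (D⁻¹) ^ n := by
    rw [← hcoe, ← FractionalIdeal.coeIdeal_pow, FractionalIdeal.mem_coeIdeal]
    refine ⟨_, hgmem, ?_⟩
    rw [map_pow, ← IsScalarTower.algebraMap_apply]
  have hmem : y ^ n * algebraMap A L g ^ (n - 1) ∈ (1 : FractionalIdeal B⁰ L) := by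
    have h1 := FractionalIdeal.mul_mem_mul hyn hgL
    rwa [← mul_pow, mul_inv_cancel₀ hD0, one_pow] at h1
  obtain ⟨b, hb⟩ := (FractionalIdeal.mem_one_iff B⁰).mp hmem
  rw [← hb]
  exact (IsIntegralClosure.isIntegral_iff (A := B)).mpr ⟨b, rfl⟩

end Fermat.Agent.GoodRed
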