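/-
Charts of the normal model: `chart O x` is the integral closure of `O[x]` in `F`.
Owner: helper160.
-/
import Fermat.Agent.Lib.GoodRed.Defs

set_option autoImplicit false

namespace Fermat.Agent.GoodRed

open Polynomial

variable (O : Type*) {E : Type*} (F : Type*) [CommRing O] [Field E] [Algebra O E]
  [Field F] [Algebra E F]

/-- `O[x]` as a subalgebra of `E`. -/
abbrev polyRing (x : E) : Subalgebra O E := Algebra.adjoin O {x}

/-- The integral closure of `O[x]` in `F`. -/
abbrev chart (x : E) : Subalgebra (polyRing O x) F := integralClosure (polyRing O x) F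

/-- The integral closure of `O[x, x⁻¹]` in `F`. -/
abbrev chartMid (x : E) : Subalgebra (Algebra.adjoin O {x, x⁻¹} : Subalgebra O E) F :=
  integralClosure (Algebra.adjoin O {x, x⁻¹} : Subalgebra O E) F

/-- `p ↦ p(x)`, as a map `O[X] → O[x]`. -/
noncomputable def toPoly (x : E) : O[X] →ₐ[O] polyRing O x :=
  (aeval x : O[X] →ₐ[O] E).codRestrict (polyRing O x)
    (fun p => Polynomial.aeval_mem_adjoin_singleton O x)

@[simp] theorem coe_toPoly (x : E) (p : O[X]) : (toPoly O x p : E) = aeval x p := rfl

/-- The uniformiser, as an element of `O[x]`. -/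
def unifPoly (ϖ : O) (x : E) : polyRing O x := algebraMap O (polyRing O x) ϖ

/-- The uniformiser, as an element of the chart. -/
def unifChart (ϖ : O) (x : E) : chart O F x := algebraMap (polyRing O x) (chart O F x) (unifPoly O ϖ x)

end Fermat.Agent.GoodRed
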