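/-
Base facts on `O[x]`.  Task GR-P (architect helper160).  Proofs: helper171.
-/
import Fermat.Agent.Lib.GoodRed.Chart

set_option autoImplicit false
set_option linter.unusedSectionVars false

namespace Fermat.Agent.GoodRed
open Polynomial

variable {O K E F : Type*} [CommRing O] [IsDomain O] [IsDiscreteValuationRing O]
  [Field K] [CharZero K] [Algebra O K] [IsFractionRing O K]
  [Field E] [Algebra K E] [Algebra O E] [IsScalarTower O K E]
  [Field F] [Algebra E F] [FiniteDimensional E F]

section PolyRing
variable (K) (ϖ : O) (hϖ : Irreducible ϖ) (x : E) (hx : Transcendental K x)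
  (hgen : IntermediateField.adjoin K {x} = ⊤)

include K hx in
/-- evaluation at `x` is injective on `O[X]` -/
theorem aeval_injective_of_transcendental : Function.Injective (aeval x : O[X] →ₐ[O] E) := by
  intro p q hpq
  have h1 : aeval x (p.map (algebraMap O K)) = aeval x (q.map (algebraMap O K)) := by
    rw [aeval_map_algebraMap, aeval_map_algebraMap]
    exact hpq
  exact Polynomial.map_injective _ (IsFractionRing.injective O K)
    (transcendental_iff_injective.mp hx h1)

include K hx in
theorem toPoly_bijective : Function.Bijective (toPoly O x) := by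
  constructor
  · intro p q hpq
    exact aeval_injective_of_transcendental K x hx (congrArg Subtype.val hpq)
  · rintro ⟨y, hy⟩
    have hy' : y ∈ (aeval x : O[X] →ₐ[O] E).range := by
      rw [← Algebra.adjoin_singleton_eq_range_aeval]
      exact hy
    obtain ⟨p, rfl⟩ := hy'
    exact ⟨p, rfl⟩

/-- `O[X] ≃ O[x]` -/
noncomputable def polyEquiv : O[X] ≃ₐ[O] polyRing O x :=
  AlgEquiv.ofBijective (toPoly O x) (toPoly_bijective K x hx)

theorem polyEquiv_apply (p : O[X]) : polyEquiv K x hx p = toPoly O x p := rfl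

theorem polyEquiv_C (a : O) : polyEquiv K x hx (C a) = algebraMap O (polyRing O x) a :=
  (polyEquiv K x hx).commutes a

include K hx in
theorem isNoetherianRing_polyRing : IsNoetherianRing (polyRing O x) :=
  isNoetherianRing_of_ringEquiv O[X] (polyEquiv K x hx).toRingEquiv

include K hx in
theorem isIntegrallyClosed_polyRing : IsIntegrallyClosed (polyRing O x) :=
  IsIntegrallyClosed.of_equiv (polyEquiv K x hx).toRingEquiv

include K hx hgen in
theorem isFractionRing_polyRing : IsFractionRing (polyRing O x) E := by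
  have key : ∀ r : K[X], ∃ (b : O) (r0 : O[X]), b ≠ 0 ∧
      aeval x r0 = algebraMap O E b * aeval x r := by
    intro r
    obtain ⟨b, hb, h⟩ := IsLocalization.integerNormalization_spec (nonZeroDivisors O) r
    refine ⟨b, IsLocalization.integerNormalization (nonZeroDivisors O) r,
      nonZeroDivisors.ne_zero hb, ?_⟩
    have h2 : b • r = C (algebraMap O K b) * r := by
      rw [← algebraMap_smul K b r, smul_eq_C_mul]
    rw [← aeval_map_algebraMap K, h, h2, map_mul, aeval_C, ← IsScalarTower.algebraMap_apply]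
  refine IsFractionRing.of_field (polyRing O x) E fun z => ?_
  have hz : z ∈ IntermediateField.adjoin K {x} := hgen ▸ IntermediateField.mem_top
  obtain ⟨r, s, rfl⟩ := (IntermediateField.mem_adjoin_simple_iff K z).mp hz
  obtain ⟨b, r0, hb, hr⟩ := key r
  obtain ⟨c, s0, hc, hs⟩ := key s
  have hb' : algebraMap O E b ≠ 0 := by
    rw [IsScalarTower.algebraMap_apply O K E]
    exact (_root_.map_ne_zero _).mpr ((map_ne_zero_iff _ (IsFractionRing.injective O K)).mpr hb)
  have hc' : algebraMap O E c ≠ 0 := by
    rw [IsScalarTower.algebraMap_apply O K E]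
    exact (_root_.map_ne_zero _).mpr ((map_ne_zero_iff _ (IsFractionRing.injective O K)).mpr hc)
  refine ⟨toPoly O x (C c * r0), toPoly O x (C b * s0), ?_⟩
  show _ = aeval x (C c * r0) / aeval x (C b * s0)
  rw [map_mul, map_mul, aeval_C, aeval_C, hr, hs]
  by_cases hs0 : aeval x s = 0
  · simp [hs0]
  · field_simp

include K hx hϖ in
theorem prime_unifPoly : Prime (unifPoly O ϖ x) := by
  have h : unifPoly O ϖ x = polyEquiv K x hx (C ϖ) := (polyEquiv_C K x hx ϖ).symm
  rw [h, MulEquiv.prime_iff, Polynomial.prime_C_iff]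
  exact hϖ.prime

/-- reduction of polynomials modulo the maximal ideal, on `O[x]` -/
noncomputable def redPoly : polyRing O x →+* (IsLocalRing.ResidueField O)[X] :=
  (mapRingHom (IsLocalRing.residue O)).comp (polyEquiv (O := O) K x hx).symm.toRingEquiv.toRingHom

theorem redPoly_toPoly (g : O[X]) :
    redPoly K x hx (toPoly O x g) = g.map (IsLocalRing.residue O) := by
  show mapRingHom _ ((polyEquiv K x hx).symm (polyEquiv K x hx g)) = _
  rw [AlgEquiv.symm_apply_apply, coe_mapRingHom]

include hϖ in
theorem ker_mapRingHom_residue :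
    RingHom.ker (mapRingHom (IsLocalRing.residue O)) = Ideal.span {C ϖ} := by
  rw [Polynomial.ker_mapRingHom, IsLocalRing.ker_residue, hϖ.maximalIdeal_eq, Ideal.map_span,
    Set.image_singleton]

include hϖ in
theorem ker_redPoly : RingHom.ker (redPoly K x hx) = Ideal.span {unifPoly O ϖ x} := by
  ext a
  obtain ⟨g, rfl⟩ := (polyEquiv K x hx).surjective a
  rw [RingHom.mem_ker, polyEquiv_apply, redPoly_toPoly, ← coe_mapRingHom, ← RingHom.mem_ker,
    ker_mapRingHom_residue ϖ hϖ, Ideal.mem_span_singleton, Ideal.mem_span_singleton,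
    ← polyEquiv_apply K x hx, show unifPoly O ϖ x = polyEquiv K x hx (C ϖ) from
      (polyEquiv_C K x hx ϖ).symm]
  exact (map_dvd_iff (polyEquiv K x hx)).symm

theorem redPoly_surjective : Function.Surjective (redPoly (O := O) K x hx) := by
  intro q
  obtain ⟨g, hg⟩ := Polynomial.map_surjective _ IsLocalRing.residue_surjective q
  exact ⟨toPoly O x g, by rw [redPoly_toPoly, hg]⟩

/-- `O[x]/ϖ ≃ k[X]` -/
noncomputable def quotEquiv :
    (polyRing O x ⧸ Ideal.span {unifPoly O ϖ x}) ≃+* (IsLocalRing.ResidueField O)[X] :=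
  (Ideal.quotEquivOfEq (ker_redPoly K ϖ hϖ x hx).symm).trans
    (RingHom.quotientKerEquivOfSurjective (redPoly_surjective K x hx))

theorem quotEquiv_mk (a : polyRing O x) :
    quotEquiv K ϖ hϖ x hx (Ideal.Quotient.mk _ a) = redPoly K x hx a := rfl

include K hx hϖ in
theorem isPrincipalIdealRing_polyRing_quotient :
    IsPrincipalIdealRing (polyRing O x ⧸ Ideal.span {unifPoly O ϖ x}) :=
  IsPrincipalIdealRing.of_surjective (quotEquiv K ϖ hϖ x hx).symm.toRingHom
    (quotEquiv K ϖ hϖ x hx).symm.surjective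

include hϖ in
/-- `K = O[1/ϖ]` -/
theorem isLocalization_away_unif : IsLocalization.Away ϖ K where
  map_units := by
    rintro ⟨_, n, rfl⟩
    apply IsUnit.mk0
    exact (map_ne_zero_iff _ (IsFractionRing.injective O K)).mpr (pow_ne_zero _ hϖ.ne_zero)
  surj := by
    intro z
    obtain ⟨a, b, hb, rfl⟩ := IsFractionRing.div_surjective (A := O) z
    have hb0 : b ≠ 0 := nonZeroDivisors.ne_zero hb
    obtain ⟨n, u, hu⟩ := IsDiscreteValuationRing.associated_pow_irreducible hb0 hϖ
    -- `b * u = ϖ ^ n`
    refine ⟨(a * u, ⟨ϖ ^ n, n, rfl⟩), ?_⟩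
    have hb' : algebraMap O K b ≠ 0 :=
      (map_ne_zero_iff _ (IsFractionRing.injective O K)).mpr hb0
    show algebraMap O K a / algebraMap O K b * algebraMap O K (ϖ ^ n) = algebraMap O K (a * u)
    rw [← hu, map_mul, map_mul]
    field_simp
  exists_of_eq := by
    intro a b hab
    exact ⟨1, by rw [IsFractionRing.injective O K hab]⟩

include K hx hϖ in
theorem isDedekindDomain_polyRing_away :
    IsDedekindDomain (Localization.Away (unifPoly O ϖ x)) := by
  let _ : Algebra O[X] K[X] := Polynomial.algebra O K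
  have : IsLocalization.Away ϖ K := isLocalization_away_unif K ϖ hϖ
  have h1 : IsLocalization ((Submonoid.powers ϖ).map (C : O →+* O[X])) K[X] :=
    Polynomial.isLocalization (Submonoid.powers ϖ) K
  have H : (Submonoid.powers (unifPoly O ϖ x)).map
      ((polyEquiv K x hx).symm.toRingEquiv).toMonoidHom
        = (Submonoid.powers ϖ).map (C : O →+* O[X]) := by
    rw [Submonoid.map_powers, Submonoid.map_powers]
    congr 1
    show (polyEquiv K x hx).symm (unifPoly O ϖ x) = C ϖ
    rw [AlgEquiv.symm_apply_eq, polyEquiv_C]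
    rfl
  let e : Localization.Away (unifPoly O ϖ x) ≃+* K[X] :=
    IsLocalization.ringEquivOfRingEquiv (Localization.Away (unifPoly O ϖ x)) K[X]
      ((polyEquiv K x hx).symm.toRingEquiv) H
  have : IsDomain (Localization.Away (unifPoly O ϖ x)) := e.toMulEquiv.isDomain K[X]
  have : IsPrincipalIdealRing (Localization.Away (unifPoly O ϖ x)) :=
    IsPrincipalIdealRing.of_surjective (e.symm : K[X] →+* _) e.symm.surjective
  infer_instance

include K hϖ in
theorem natCast_dvd_unifPoly_pow (n : ℕ) (hn : n ≠ 0) :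
    ∃ k : ℕ, (n : polyRing O x) ∣ unifPoly O ϖ x ^ k := by
  have hn0 : (n : O) ≠ 0 := by
    intro h
    have h2 : algebraMap O K (n : O) = 0 := by rw [h, map_zero]
    rw [map_natCast] at h2
    exact hn (Nat.cast_eq_zero.mp h2)
  obtain ⟨k, hk⟩ := IsDiscreteValuationRing.associated_pow_irreducible hn0 hϖ
  refine ⟨k, ?_⟩
  have h3 := map_dvd (algebraMap O (polyRing O x)) hk.dvd
  rwa [map_natCast, map_pow] at h3

include K hx hϖ in
/-- squarefreeness transfers from `k[X]` to `O[x]/ϖ`. -/
theorem squarefree_mk_toPoly (g : O[X]) (hg : Squarefree (g.map (IsLocalRing.residue O))) :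
    Squarefree (Ideal.Quotient.mk (Ideal.span {unifPoly O ϖ x}) (toPoly O x g)) := by
  intro a ha
  have h1 := map_dvd (quotEquiv K ϖ hϖ x hx) ha
  rw [map_mul, quotEquiv_mk, redPoly_toPoly] at h1
  have h2 := hg _ h1
  exact (isUnit_map_iff (quotEquiv K ϖ hϖ x hx) a).mp h2

include K hx hϖ in
/-- Gauss lemma: `K[x] ∩ (Gauss valuation ring) = O[x]`. -/
theorem mem_polyRing_of_isPrim_mul (s : O[X]) (hs : IsPrim ϖ s) (c : K[X])
    (h : aeval x s * aeval x c ∈ polyRing O x) : aeval x c ∈ polyRing O x := by
  have hinj : Function.Injective (Polynomial.map (algebraMap O K)) :=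
    Polynomial.map_injective _ (IsFractionRing.injective O K)
  obtain ⟨t, ht⟩ := (toPoly_bijective K x hx).2 ⟨_, h⟩
  have ht' : aeval x t = aeval x s * aeval x c := congrArg Subtype.val ht
  have h1 : t.map (algebraMap O K) = s.map (algebraMap O K) * c := by
    apply transcendental_iff_injective.mp hx
    rw [map_mul, aeval_map_algebraMap, aeval_map_algebraMap]
    exact ht'
  have : IsLocalization.Away ϖ K := isLocalization_away_unif K ϖ hϖ
  obtain ⟨b, ⟨k, rfl⟩, hc0⟩ := IsLocalization.integerNormalization_spec (Submonoid.powers ϖ) c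
  set c0 := IsLocalization.integerNormalization (Submonoid.powers ϖ) c with hc0def
  have h2 : c0.map (algebraMap O K) = (C ϖ ^ k : O[X]).map (algebraMap O K) * c := by
    rw [hc0, ← algebraMap_smul K (ϖ ^ k) c, smul_eq_C_mul, Polynomial.map_pow, map_C, map_pow,
      C_pow]
  have h3 : C ϖ ^ k * t = s * c0 := by
    apply hinj
    rw [Polynomial.map_mul, Polynomial.map_mul, h1, h2]
    ring
  have hprime : Prime (C ϖ : O[X]) := Polynomial.prime_C_iff.mpr hϖ.prime
  have hnd : ¬ (C ϖ : O[X]) ∣ s := by
    obtain ⟨i, hi⟩ := hs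
    intro hd
    exact hi (Polynomial.C_dvd_iff_dvd_coeff _ _ |>.mp hd i)
  obtain ⟨c1, hc1⟩ := hprime.pow_dvd_of_dvd_mul_left k hnd ⟨t, h3.symm⟩
  have h4 : c = c1.map (algebraMap O K) := by
    have hne : (C ϖ ^ k : O[X]).map (algebraMap O K) ≠ 0 := by
      rw [Ne, Polynomial.map_eq_zero_iff (IsFractionRing.injective O K)]
      exact pow_ne_zero _ hprime.ne_zero
    apply mul_left_cancel₀ hne
    rw [← h2, hc1, Polynomial.map_mul]
  rw [h4, aeval_map_algebraMap]
  exact (toPoly O x c1).2

end PolyRing

end Fermat.Agent.GoodRed
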