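/-
Base facts on the chart `chart O F x` (integral closure of `O[x]` in `F`): finiteness,
noetherianity, `chart ⊆ 𝒟`, saturation `chart = (K-integral) ∩ 𝒟`, `ϖ` is prime in the chart,
`Frac chart = F`.  Task GR-C1.
-/
import Fermat.Agent.Lib.GoodRed.PolyRing

set_option autoImplicit false
namespace Fermat.Agent.GoodRed
open Polynomial

variable {O K E F : Type*} [CommRing O] [IsDomain O] [IsDiscreteValuationRing O]
  [Field K] [CharZero K] [Algebra O K] [IsFractionRing O K]
  [Field E] [Algebra K E] [Algebra O E] [IsScalarTower O K E]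
  [Field F] [Algebra E F] [FiniteDimensional E F]

section ChartBase
variable (K) (ϖ : O) (hϖ : Irreducible ϖ) (x : E) (hx : Transcendental K x)
  (hgen : IntermediateField.adjoin K {x} = ⊤) (𝒟 : ValuationSubring F) (hG : GaussData O ϖ 𝒟 x)

omit [IsDomain O] [IsDiscreteValuationRing O] in
theorem ChartBase.toPoly_surjective : Function.Surjective (toPoly O x) := by
  rintro ⟨r, hr⟩
  have hr' : r ∈ (aeval x : O[X] →ₐ[O] E).range := by
    rw [← Algebra.adjoin_singleton_eq_range_aeval]; exact hr
  obtain ⟨p, rfl⟩ := hr'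
  exact ⟨p, rfl⟩

omit [IsDomain O] [IsDiscreteValuationRing O] [FiniteDimensional E F] in
theorem intO_iff_mem_chart (y : F) : IntO O x y ↔ y ∈ chart O F x := by
  have hcomp : (algebraMap E F).comp ((aeval x : O[X] →ₐ[O] E) : O[X] →+* E) =
      (algebraMap (polyRing O x) F).comp ((toPoly O x : O[X] →ₐ[O] polyRing O x) : O[X] →+* _) := by
    ext <;> rfl
  constructor
  · rintro ⟨p, hp, h0⟩
    refine ⟨p.map ((toPoly O x : O[X] →ₐ[O] polyRing O x) : O[X] →+* _), hp.map _, ?_⟩
    rw [eval₂_map, ← hcomp]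
    exact h0
  · rintro ⟨q, hq, h0⟩
    have hl : q ∈ lifts ((toPoly O x : O[X] →ₐ[O] polyRing O x) : O[X] →+* _) := by
      rw [mem_lifts]
      exact map_surjective _ (ChartBase.toPoly_surjective x) q
    obtain ⟨p, hp, -, hpm⟩ := lifts_and_degree_eq_and_monic hl hq
    refine ⟨p, hpm, ?_⟩
    rw [hcomp, ← eval₂_map, hp]
    exact h0

include K hx hgen in
theorem finite_chart : Module.Finite (polyRing O x) (chart O F x) := by
  have := isNoetherianRing_polyRing (O := O) K x hx
  have := isIntegrallyClosed_polyRing (O := O) K x hx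
  have := isFractionRing_polyRing (O := O) K x hx hgen
  have : CharZero E := charZero_of_injective_algebraMap (algebraMap K E).injective
  exact IsIntegralClosure.finite (polyRing O x) E F (chart O F x)

include K hx hgen in
theorem isNoetherianRing_chart : IsNoetherianRing (chart O F x) := by
  have := isNoetherianRing_polyRing (O := O) K x hx
  have := isIntegrallyClosed_polyRing (O := O) K x hx
  have := isFractionRing_polyRing (O := O) K x hx hgen
  have : CharZero E := charZero_of_injective_algebraMap (algebraMap K E).injective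
  exact IsIntegralClosure.isNoetherianRing (polyRing O x) E F (chart O F x)

omit [IsDomain O] [IsDiscreteValuationRing O] [FiniteDimensional E F] in
include hG in
theorem ChartBase.not_unif_dvd_one : ¬ ϖ ∣ 1 := by
  rintro ⟨b, hb⟩
  apply hG.inv_unif_notMem
  have h1 : algebraMap E F (algebraMap O E ϖ) * algebraMap E F (algebraMap O E b) = 1 := by
    rw [← map_mul, ← map_mul, ← hb, map_one, map_one]
  rw [inv_eq_of_mul_eq_one_right h1]
  exact hG.algebraMap_mem b

omit [IsDomain O] [IsDiscreteValuationRing O] [FiniteDimensional E F] in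
include hG in
theorem ChartBase.algebraMap_polyRing_mem (r : polyRing O x) : algebraMap E F (r : E) ∈ 𝒟 := by
  obtain ⟨r, hr⟩ := r
  induction hr using Algebra.adjoin_induction with
  | mem z hz =>
    rw [Set.mem_singleton_iff] at hz
    subst hz
    have hX : IsPrim ϖ (X : O[X]) := ⟨1, by
      rw [coeff_X_one]; exact ChartBase.not_unif_dvd_one ϖ z 𝒟 hG⟩
    have := (hG.gauss X hX).1
    rwa [aeval_X] at this
  | algebraMap a => exact hG.algebraMap_mem a
  | add a b _ _ ha hb => simpa only [map_add] using 𝒟.add_mem _ _ ha hb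
  | mul a b _ _ ha hb => simpa only [map_mul] using 𝒟.mul_mem _ _ ha hb

include hG in
theorem mem_of_mem_chart {y : F} (hy : y ∈ chart O F x) : y ∈ 𝒟 := by
  obtain ⟨p, hp, h0⟩ := hy
  let f : polyRing O x →+* 𝒟 :=
    (algebraMap (polyRing O x) F).codRestrict 𝒟.toSubring
      (fun r => ChartBase.algebraMap_polyRing_mem ϖ x 𝒟 hG r)
  have hf : (algebraMap 𝒟 F).comp f = algebraMap (polyRing O x) F := by
    ext r; rfl
  have hint : IsIntegral 𝒟 y := by
    refine ⟨p.map f, hp.map _, ?_⟩
    rw [eval₂_map, hf]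
    exact h0
  obtain ⟨z, rfl⟩ := IsIntegrallyClosed.isIntegral_iff.mp hint
  exact z.2

omit [IsDomain O] [IsDiscreteValuationRing O] in
theorem ChartBase.isPrim_iff (p : O[X]) : IsPrim ϖ p ↔ ¬ C ϖ ∣ p := by
  rw [C_dvd_iff_dvd_coeff]
  unfold IsPrim
  exact not_forall.symm

include hϖ in
theorem ChartBase.isPrim_pow {s : O[X]} (hs : IsPrim ϖ s) (n : ℕ) : IsPrim ϖ (s ^ n) := by
  rw [ChartBase.isPrim_iff] at *
  have hp : Prime (C ϖ) := prime_C_iff.mpr hϖ.prime
  intro h
  exact hs (hp.dvd_of_dvd_pow h)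

include K hx hgen in
theorem ChartBase.coeff_minpoly_mem {u : F} (hu : u ∈ chart O F x) (i : ℕ) :
    (minpoly E u).coeff i ∈ polyRing O x := by
  have := isIntegrallyClosed_polyRing (O := O) K x hx
  have := isFractionRing_polyRing (O := O) K x hx hgen
  rw [minpoly.isIntegrallyClosed_eq_field_fractions' E hu, coeff_map]
  exact ((minpoly (polyRing O x) u).coeff i).2

omit [IsDomain O] [IsDiscreteValuationRing O] in
theorem ChartBase.mem_chart_of_coeff_minpoly_mem {y : F}
    (h : ∀ i, (minpoly E y).coeff i ∈ polyRing O x) : y ∈ chart O F x := by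
  have hl : minpoly E y ∈ lifts (algebraMap (polyRing O x) E) := by
    rw [lifts_iff_coeff_lifts]
    intro i
    exact ⟨⟨_, h i⟩, rfl⟩
  obtain ⟨q, hq, -, hqm⟩ :=
    lifts_and_degree_eq_and_monic hl (minpoly.monic (IsIntegral.of_finite E y))
  refine ⟨q, hqm, ?_⟩
  have h0 : eval₂ (algebraMap E F) y (q.map (algebraMap (polyRing O x) E)) = 0 := by
    rw [hq]; exact minpoly.aeval E y
  rwa [eval₂_map, ← IsScalarTower.algebraMap_eq] at h0

include K hx hgen hϖ hG in
/-- saturation: `chart = (integral closure of K[x]) ∩ 𝒟`. -/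
theorem mem_chart_of_unif_pow_mul_mem {y : F} (hy : y ∈ 𝒟) (k : ℕ)
    (h : algebraMap E F (algebraMap O E ϖ) ^ k * y ∈ chart O F x) : y ∈ chart O F x := by
  obtain ⟨s, hs, hsy⟩ := hG.integral y hy
  rw [intO_iff_mem_chart] at hsy
  apply ChartBase.mem_chart_of_coeff_minpoly_mem
  intro i
  have hyint : IsIntegral E y := IsIntegral.of_finite E y
  have hϖK : algebraMap O K ϖ ≠ 0 := by
    rw [Ne, map_eq_zero_iff _ (IsFractionRing.injective O K)]
    exact hϖ.ne_zero
  have hϖE : algebraMap O E ϖ ≠ 0 := by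
    rw [IsScalarTower.algebraMap_apply O K E, Ne, map_eq_zero]
    exact hϖK
  have hsE : aeval x s ≠ 0 := by
    intro h0
    have hs0 : toPoly O x s = 0 := Subtype.ext h0
    have : s = 0 := (toPoly_bijective (O := O) K x hx).1 (by rw [hs0, map_zero])
    obtain ⟨j, hj⟩ := hs
    rw [this, coeff_zero] at hj
    exact hj (dvd_zero _)
  have h1 := ChartBase.coeff_minpoly_mem K x hx hgen h i
  have e1 : algebraMap E F (algebraMap O E ϖ) ^ k * y = ((algebraMap O E ϖ) ^ k) • y := by
    rw [Algebra.smul_def, map_pow]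
  rw [e1, IsIntegrallyClosed.minpoly_smul (pow_ne_zero _ hϖE) hyint, coeff_scaleRoots] at h1
  have h2 := ChartBase.coeff_minpoly_mem K x hx hgen hsy i
  have e2 : algebraMap E F (aeval x s) * y = (aeval x s : E) • y := by
    rw [Algebra.smul_def]
  rw [e2, IsIntegrallyClosed.minpoly_smul hsE hyint, coeff_scaleRoots] at h2
  set d := (minpoly E y).natDegree - i with hd
  obtain ⟨r0, hr0⟩ := ChartBase.toPoly_surjective x ⟨_, h1⟩
  have hr0' : aeval x r0 = (minpoly E y).coeff i * (algebraMap O E ϖ ^ k) ^ d :=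
    congrArg Subtype.val hr0
  have hc' : aeval x (C (((algebraMap O K ϖ) ^ k) ^ d)⁻¹ * r0.map (algebraMap O K)) =
      (minpoly E y).coeff i := by
    rw [map_mul, aeval_C, aeval_map_algebraMap, hr0', map_inv₀, map_pow, map_pow,
      ← IsScalarTower.algebraMap_apply O K E]
    field_simp
  rw [← hc']
  apply mem_polyRing_of_isPrim_mul K ϖ hϖ x hx (s ^ d) (ChartBase.isPrim_pow ϖ hϖ hs d)
  rw [hc', map_pow, mul_comm]
  exact h2

omit [IsDomain O] [IsDiscreteValuationRing O] [FiniteDimensional E F] in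
theorem ChartBase.coe_unifChart :
    ((unifChart O F ϖ x : chart O F x) : F) = algebraMap E F (algebraMap O E ϖ) := rfl

include K hx hgen hϖ hG in
theorem prime_unifChart : Prime (unifChart O F ϖ x) := by
  have hne : algebraMap E F (algebraMap O E ϖ) ≠ 0 := by
    intro h0
    apply hG.inv_unif_notMem
    rw [h0, inv_zero]
    exact 𝒟.zero_mem
  -- divisibility criterion
  have key : ∀ a : chart O F x, (a : F)⁻¹ ∉ 𝒟 → unifChart O F ϖ x ∣ a := by
    intro a ha
    obtain ⟨z, hz, haz⟩ := hG.unif a (mem_of_mem_chart ϖ x 𝒟 hG a.2) ha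
    have hz' : z ∈ chart O F x := by
      apply mem_chart_of_unif_pow_mul_mem K ϖ hϖ x hx hgen 𝒟 hG hz 1
      rw [pow_one, ← haz]
      exact a.2
    exact ⟨⟨z, hz'⟩, Subtype.ext haz⟩
  refine ⟨?_, ?_, ?_⟩
  · intro h0
    exact hne (congrArg Subtype.val h0)
  · intro hu
    obtain ⟨b, hb⟩ := hu.exists_right_inv
    apply hG.inv_unif_notMem
    have hb' : algebraMap E F (algebraMap O E ϖ) * (b : F) = 1 := congrArg Subtype.val hb
    rw [inv_eq_of_mul_eq_one_right hb']
    exact mem_of_mem_chart ϖ x 𝒟 hG b.2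
  · rintro a b ⟨c, hc⟩
    by_cases ha : (a : F)⁻¹ ∈ 𝒟
    · by_cases hb : (b : F)⁻¹ ∈ 𝒟
      · by_cases hc0 : c = 0
        · rw [hc0, mul_zero] at hc
          rcases mul_eq_zero.mp hc with h | h
          · left; rw [h]; exact dvd_zero _
          · right; rw [h]; exact dvd_zero _
        · exfalso
          apply hG.inv_unif_notMem
          have hc' : (a : F) * (b : F) = algebraMap E F (algebraMap O E ϖ) * (c : F) :=
            congrArg Subtype.val hc
          have hcF : (c : F) ≠ 0 := fun h => hc0 (Subtype.ext h)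
          have e : (algebraMap E F (algebraMap O E ϖ))⁻¹ = (c : F) * ((a : F)⁻¹ * (b : F)⁻¹) := by
            rw [← mul_inv, hc', mul_inv]
            field_simp
          rw [e]
          exact 𝒟.mul_mem _ _ (mem_of_mem_chart ϖ x 𝒟 hG c.2) (𝒟.mul_mem _ _ ha hb)
      · right; exact key b hb
    · left; exact key a ha

include K hx hgen in
/-- `F` is the fraction field of the chart. -/
theorem isFractionRing_chart : IsFractionRing (chart O F x) F := by
  have := isFractionRing_polyRing (O := O) K x hx hgen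
  exact integralClosure.isFractionRing_of_finite_extension E F

end ChartBase
end Fermat.Agent.GoodRed
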