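/-
Verification of the hypotheses of the abstract good reduction criterion for `A = O[x]`,
`B = chart`.  The facts on the chart which are proved in sibling files (`ChartBase`, `ChartVal`)
enter as hypotheses here; the assembly is in `ChartGRC.lean`.
-/
import Fermat.Agent.Lib.GoodRed.PolyRing

set_option autoImplicit false

namespace Fermat.Agent.GoodRed

open Polynomial

/-- If `B` is integral over `A`, `π` is prime in `A` and in `B`, and `A / π` is a principal ideal
ring, then `B / π` has dimension at most one. -/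
theorem dimensionLEOne_quotient_span_of_isIntegral {A B : Type*} [CommRing A] [CommRing B]
    [Algebra A B] [Algebra.IsIntegral A B] (π : A) (hπ : Prime π)
    (hPID : IsPrincipalIdealRing (A ⧸ Ideal.span {π})) (hπB : Prime (algebraMap A B π)) :
    Ring.DimensionLEOne (B ⧸ Ideal.span {algebraMap A B π}) := by
  have hA : (Ideal.span {π}).IsPrime := (Ideal.span_singleton_prime hπ.ne_zero).mpr hπ
  have hB : (Ideal.span {algebraMap A B π}).IsPrime :=
    (Ideal.span_singleton_prime hπB.ne_zero).mpr hπB
  have hle : Ideal.span {π} ≤ (Ideal.span {algebraMap A B π}).comap (algebraMap A B) := by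
    rw [Ideal.span_singleton_le_iff_mem, Ideal.mem_comap]
    exact Ideal.mem_span_singleton_self _
  let f : (A ⧸ Ideal.span {π}) →+* (B ⧸ Ideal.span {algebraMap A B π}) :=
    Ideal.quotientMap _ (algebraMap A B) hle
  let _ : Algebra (A ⧸ Ideal.span {π}) (B ⧸ Ideal.span {algebraMap A B π}) := f.toAlgebra
  have _ : IsScalarTower A (A ⧸ Ideal.span {π}) (B ⧸ Ideal.span {algebraMap A B π}) :=
    IsScalarTower.of_algebraMap_eq (fun a => rfl)
  refine ⟨fun {p} hp0 hp => ?_⟩
  obtain ⟨s, hs, hs0⟩ := Submodule.exists_mem_ne_zero_of_ne_bot hp0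
  have hsint : IsIntegral (A ⧸ Ideal.span {π}) s :=
    (Algebra.IsIntegral.isIntegral (R := A) s).tower_top
  have h1 : p.comap (algebraMap (A ⧸ Ideal.span {π}) (B ⧸ Ideal.span {algebraMap A B π})) ≠ ⊥ :=
    Ideal.comap_ne_bot_of_integral_mem hs0 hs hsint
  have h2 : (p.comap (algebraMap (A ⧸ Ideal.span {π})
      (B ⧸ Ideal.span {algebraMap A B π}))).IsPrime := Ideal.comap_isPrime _ _
  have h3 : (p.comap (algebraMap (A ⧸ Ideal.span {π})
      (B ⧸ Ideal.span {algebraMap A B π}))).IsMaximal := h2.isMaximal h1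
  have _ : Algebra.IsIntegral (A ⧸ Ideal.span {π}) (B ⧸ Ideal.span {algebraMap A B π}) :=
    ⟨fun s => (Algebra.IsIntegral.isIntegral (R := A) s).tower_top⟩
  exact Ideal.isMaximal_of_isIntegral_of_isMaximal_comap p h3

variable {O K E F : Type*} [CommRing O] [IsDomain O] [IsDiscreteValuationRing O]
  [Field K] [CharZero K] [Algebra O K] [IsFractionRing O K]
  [Field E] [Algebra K E] [Algebra O E] [IsScalarTower O K E]
  [Field F] [Algebra E F] [FiniteDimensional E F]

section ChartGRCAux
variable (K) (ϖ : O) (hϖ : Irreducible ϖ) (x : E) (hx : Transcendental K x)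
  (hgen : IntermediateField.adjoin K {x} = ⊤) (𝒟 : ValuationSubring F) (hG : GaussData O ϖ 𝒟 x)

omit [FiniteDimensional E F] in
include K hx hG in
/-- nondegeneracy of the trace form modulo `ϖ` on the chart. -/
theorem chart_sep_of
    (hint : ∀ y : F, IntO O x y → y ∈ chart O F x)
    (hmem : ∀ y : F, y ∈ chart O F x → y ∈ 𝒟)
    (hsat : ∀ y : F, y ∈ 𝒟 → algebraMap E F (algebraMap O E ϖ) * y ∈ chart O F x →
      y ∈ chart O F x)
    (y : chart O F x)
    (h : ∀ z : chart O F x, ∃ a : polyRing O x,
      Algebra.trace E F (algebraMap (chart O F x) F (y * z)) =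
        algebraMap (polyRing O x) E (unifPoly O ϖ x * a)) :
    algebraMap (polyRing O x) (chart O F x) (unifPoly O ϖ x) ∣ y := by
  have hy𝒟 : (y : F) ∈ 𝒟 := hmem _ y.2
  obtain ⟨w, hw, hyw⟩ := hG.sep (y : F) hy𝒟 (by
    intro z' hz'
    obtain ⟨s, hs, hint'⟩ := hG.integral z' hz'
    obtain ⟨a, ha⟩ := h ⟨algebraMap E F (aeval x s) * z', hint _ hint'⟩
    have hs0 : aeval x s ≠ 0 := by
      intro h0
      have h1 : toPoly O x s = 0 := Subtype.ext h0
      have h2 : s = 0 := (toPoly_bijective K x hx).1 (by rw [h1, map_zero])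
      obtain ⟨i, hi⟩ := hs
      exact hi (by rw [h2, coeff_zero]; exact dvd_zero _)
    have h1 : algebraMap (chart O F x) F
        (y * ⟨algebraMap E F (aeval x s) * z', hint _ hint'⟩) =
        (aeval x s : E) • ((y : F) * z') := by
      rw [Algebra.smul_def]
      change (y : F) * (algebraMap E F (aeval x s) * z') = _
      ring
    rw [h1, map_smul, smul_eq_mul] at ha
    have h2 : algebraMap (polyRing O x) E (unifPoly O ϖ x * a) = algebraMap O E ϖ * (a : E) := rfl
    rw [h2] at ha
    refine ⟨algebraMap E F (a : E) * (algebraMap E F (aeval x s))⁻¹,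
      𝒟.mul_mem _ _ (hmem _ ((chart O F x).algebraMap_mem a))
        (hG.gauss s hs).2, ?_⟩
    have h3 : Algebra.trace E F ((y : F) * z') = algebraMap O E ϖ * (a : E) * (aeval x s)⁻¹ := by
      rw [← ha]
      field_simp
    rw [h3, map_mul, map_mul, map_inv₀, mul_assoc])
  have hwc : w ∈ chart O F x :=
    hsat w hw (by rw [← hyw]; exact y.2)
  exact ⟨⟨w, hwc⟩, Subtype.ext hyw⟩

omit [IsDiscreteValuationRing O] [CharZero K] [FiniteDimensional E F] in
/-- at a prime of the chart whose localisation is a valuation ring containing `K` and which does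
not contain `g(x)`, some element of `O[x]` is a uniformiser. -/
theorem chart_unr_of (g : O[X]) (hU : UnramOutside K F x (g.map (algebraMap O K)))
    (P : Ideal (chart O F x)) (hP : P.IsPrime)
    (hval : ∃ V : ValuationSubring F, ContainsConst K E V ∧ V ≠ ⊤ ∧
      ∀ y : F, y ∈ V ↔ ∃ a b : chart O F x, b ∉ P ∧ y * (b : F) = (a : F))
    (hgP : algebraMap (polyRing O x) (chart O F x) (toPoly O x g) ∉ P) :
    ∃ a : polyRing O x, algebraMap (polyRing O x) (chart O F x) a ∈ P ∧
      ∀ y ∈ P, ∃ s : chart O F x, s ∉ P ∧ algebraMap (polyRing O x) (chart O F x) a ∣ s * y := by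
  obtain ⟨V, hVK, hVtop, hV⟩ := hval
  -- the chart lies in `V`, the elements outside `P` are units of `V`
  have hBV : ∀ b : chart O F x, (b : F) ∈ V := fun b =>
    (hV b).mpr ⟨b, 1, fun h1 => hP.ne_top ((Ideal.eq_top_iff_one P).mpr h1), by simp⟩
  have hinv : ∀ b : chart O F x, b ∉ P → (b : F)⁻¹ ∈ V := by
    intro b hb
    have hb0 : (b : F) ≠ 0 := by
      intro h0
      exact hb (by rw [show b = 0 from Subtype.ext h0]; exact P.zero_mem)
    exact (hV _).mpr ⟨1, b, hb, by simp [hb0]⟩
  have hninv : ∀ b : chart O F x, b ∈ P → b ≠ 0 → (b : F)⁻¹ ∉ V := by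
    intro b hb hb0 hbV
    have hb0' : (b : F) ≠ 0 := fun h0 => hb0 (Subtype.ext h0)
    obtain ⟨a, c, hc, hac⟩ := (hV _).mp hbV
    apply hc
    have : c = a * b := by
      apply Subtype.ext
      change (c : F) = (a : F) * (b : F)
      rw [← hac]
      field_simp
    rw [this]
    exact P.mul_mem_left _ hb
  have hcoe : ∀ q : O[X], ((algebraMap (polyRing O x) (chart O F x) (toPoly O x q) :
      chart O F x) : F) = algebraMap E F (aeval x q) := fun q => rfl
  have hxV : algebraMap E F x ∈ V := by
    have := hBV (algebraMap (polyRing O x) (chart O F x) (toPoly O x X))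
    rwa [hcoe, aeval_X] at this
  have hgV : (algebraMap E F (aeval x (g.map (algebraMap O K))))⁻¹ ∈ V := by
    have := hinv _ hgP
    rwa [hcoe, ← aeval_map_algebraMap K] at this
  obtain ⟨p, hpV, hpinv, hpunif⟩ := hU V hVK hVtop hxV hgV
  obtain ⟨b, hbM, hb⟩ := IsLocalization.integerNormalization_spec (nonZeroDivisors O) p
  set q : O[X] := IsLocalization.integerNormalization (nonZeroDivisors O) p with hq
  have hb0 : algebraMap O K (b : O) ≠ 0 :=
    IsFractionRing.to_map_ne_zero_of_mem_nonZeroDivisors hbM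
  have hbF0 : algebraMap E F (algebraMap K E (algebraMap O K (b : O))) ≠ 0 := by
    simp [hb0]
  have hbV : (algebraMap E F (algebraMap K E (algebraMap O K (b : O))))⁻¹ ∈ V := by
    have := hVK (algebraMap O K (b : O))⁻¹
    rwa [map_inv₀, map_inv₀] at this
  have hqx : algebraMap E F (aeval x q) =
      algebraMap E F (algebraMap K E (algebraMap O K (b : O))) * algebraMap E F (aeval x p) := by
    rw [← aeval_map_algebraMap K, hb, ← map_mul]
    congr 1
    rw [← algebraMap_smul K b p, map_smul, Algebra.smul_def]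
  have hp0 : algebraMap E F (aeval x p) ≠ 0 := by
    intro h0
    apply hpinv
    rw [h0, inv_zero]
    exact V.zero_mem
  refine ⟨toPoly O x q, ?_, ?_⟩
  · by_contra hcon
    have h1 := hinv _ hcon
    rw [hcoe, hqx] at h1
    apply hpinv
    have h2 := V.mul_mem _ _ (hVK (algebraMap O K (b : O))) h1
    have h3 : algebraMap E F (algebraMap K E (algebraMap O K (b : O))) *
        (algebraMap E F (algebraMap K E (algebraMap O K (b : O))) *
          algebraMap E F (aeval x p))⁻¹ = (algebraMap E F (aeval x p))⁻¹ := by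
      field_simp
    rwa [h3] at h2
  · intro y hy
    by_cases hy0 : y = 0
    · exact ⟨1, fun h1 => hP.ne_top ((Ideal.eq_top_iff_one P).mpr h1), by
        rw [hy0, mul_zero]; exact dvd_zero _⟩
    · have h1 := hpunif (y : F) (hBV y) (hninv y hy hy0)
      have h2 := V.mul_mem _ _ h1 hbV
      obtain ⟨a', b', hb', hab⟩ := (hV _).mp h2
      refine ⟨b', hb', a', Subtype.ext ?_⟩
      change (b' : F) * (y : F) =
        ((algebraMap (polyRing O x) (chart O F x) (toPoly O x q) : chart O F x) : F) * (a' : F)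
      rw [hcoe, hqx, ← hab]
      field_simp

end ChartGRCAux

end Fermat.Agent.GoodRed
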