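/-
Task GR-C3: the localisation of the chart at a prime not containing `ϖ` is a valuation ring of `F`
containing `K`.  Owner: helper181.
-/
import Fermat.Agent.Lib.GoodRed.Chart

set_option autoImplicit false

namespace Fermat.Agent.GoodRed

open Polynomial

variable {O K E F : Type*} [CommRing O] [IsDomain O] [IsDiscreteValuationRing O]
  [Field K] [CharZero K] [Algebra O K] [IsFractionRing O K]
  [Field E] [Algebra K E] [Algebra O E] [IsScalarTower O K E]
  [Field F] [Algebra E F] [FiniteDimensional E F]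

namespace ChartVal

/-- Integrality over a ring hom can be tested after composing with a surjection. -/
theorem isIntegralElem_comp_of_surjective {A B T : Type*} [CommRing A] [CommRing B] [CommRing T]
    (f : A →+* B) (hf : Function.Surjective f) (g : B →+* T) {y : T} (h : g.IsIntegralElem y) :
    (g.comp f).IsIntegralElem y := by
  obtain ⟨p, hp, hpy⟩ := h
  have hl : p ∈ lifts f := by
    rw [mem_lifts]
    exact map_surjective f hf p
  obtain ⟨q, hq, -, hqm⟩ := lifts_and_natDegree_eq_and_monic hl hp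
  exact ⟨q, hqm, by rw [← eval₂_map, hq]; exact hpy⟩

section
variable (K) (x : E)

/-- `p ↦ p(x)`, as a map `K[X] → K[x]`. -/
noncomputable def toPolyK : K[X] →ₐ[K] Algebra.adjoin K {x} :=
  (aeval x : K[X] →ₐ[K] E).codRestrict (Algebra.adjoin K {x})
    (fun _ => Polynomial.aeval_mem_adjoin_singleton K x)

omit [CharZero K] in
theorem toPolyK_surjective : Function.Surjective (toPolyK K x) := by
  rintro ⟨y, hy⟩
  rw [Algebra.adjoin_singleton_eq_range_aeval] at hy
  obtain ⟨p, rfl⟩ := hy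
  exact ⟨p, rfl⟩

omit [CharZero K] in
theorem isPrincipalIdealRing_adjoin : IsPrincipalIdealRing (Algebra.adjoin K {x}) :=
  IsPrincipalIdealRing.of_surjective (toPolyK K x).toRingHom (toPolyK_surjective K x)

omit [CharZero K] in
theorem isFractionRing_adjoin (hgen : IntermediateField.adjoin K {x} = ⊤) :
    IsFractionRing (Algebra.adjoin K {x}) E :=
  .of_field _ _ fun z => by
    have hz : z ∈ IntermediateField.adjoin K {x} := hgen ▸ IntermediateField.mem_top
    obtain ⟨a, ha, b, hb, e⟩ := IntermediateField.mem_adjoin_iff_div.mp hz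
    exact ⟨⟨a, ha⟩, ⟨b, hb⟩, e⟩

end

omit [IsDomain O] [IsDiscreteValuationRing O] in
theorem toPoly_surjective (x : E) : Function.Surjective (toPoly O x) := by
  rintro ⟨y, hy⟩
  have hy' : y ∈ (aeval x : O[X] →ₐ[O] E).range := by
    rw [← Algebra.adjoin_singleton_eq_range_aeval]; exact hy
  obtain ⟨p, rfl⟩ := hy'
  exact ⟨p, rfl⟩

omit [IsDomain O] [IsDiscreteValuationRing O] [FiniteDimensional E F] in
theorem intO_iff (x : E) (y : F) : IntO O x y ↔ y ∈ chart O F x := by
  constructor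
  · intro h
    exact RingHom.IsIntegralElem.of_comp (f := (toPoly O x).toRingHom)
      (g := algebraMap (polyRing O x) F) h
  · intro h
    exact isIntegralElem_comp_of_surjective (toPoly O x).toRingHom (toPoly_surjective x)
      (algebraMap (polyRing O x) F) h

omit [CharZero K] [FiniteDimensional E F] in
theorem intK_iff (x : E) (y : F) : IntK K x y ↔ IsIntegral (Algebra.adjoin K {x}) y := by
  constructor
  · intro h
    exact RingHom.IsIntegralElem.of_comp (f := (toPolyK K x).toRingHom)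
      (g := algebraMap (Algebra.adjoin K {x}) F) h
  · intro h
    exact isIntegralElem_comp_of_surjective (toPolyK K x).toRingHom (toPolyK_surjective K x)
      (algebraMap (Algebra.adjoin K {x}) F) h

attribute [local instance] Polynomial.algebra in
omit [IsDiscreteValuationRing O] [CharZero K] [FiniteDimensional E F] in
/-- Clearing denominators. -/
theorem exists_mul_intO (x : E) {z : F} (hz : IntK K x z) :
    ∃ d : O, d ≠ 0 ∧ IntO O x (algebraMap E F (algebraMap O E d) * z) := by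
  let : Algebra O[X] F :=
    ((algebraMap E F).comp ((aeval x : O[X] →ₐ[O] E) : O[X] →+* E)).toAlgebra
  let : Algebra K[X] F :=
    ((algebraMap E F).comp ((aeval x : K[X] →ₐ[K] E) : K[X] →+* E)).toAlgebra
  have : IsScalarTower O[X] K[X] F := IsScalarTower.of_algebraMap_eq fun p => by
    change algebraMap E F (aeval x p) = algebraMap E F (aeval x (p.map (algebraMap O K)))
    rw [aeval_map_algebraMap]
  have := Polynomial.isLocalization (nonZeroDivisors O) K
  obtain ⟨⟨m, d, hd, rfl⟩, hm⟩ :=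
    IsIntegral.exists_multiple_integral_of_isLocalization ((nonZeroDivisors O).map C) z
      (Rₘ := K[X]) hz
  refine ⟨d, nonZeroDivisors.ne_zero hd, ?_⟩
  have : algebraMap E F (algebraMap O E d) * z = (C d : O[X]) • z := by
    rw [Algebra.smul_def]
    change _ = algebraMap E F (aeval x (C d)) * z
    rw [aeval_C]
  rw [this]
  exact hm

omit [IsDomain O] [IsDiscreteValuationRing O] [CharZero K] [IsFractionRing O K]
  [FiniteDimensional E F] in
theorem intK_of_intO (x : E) {y : F} (h : IntO O x y) : IntK K x y := by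
  have e : ((algebraMap E F).comp ((aeval x : O[X] →ₐ[O] E) : O[X] →+* E)) =
      ((algebraMap E F).comp ((aeval x : K[X] →ₐ[K] E) : K[X] →+* E)).comp
        (mapRingHom (algebraMap O K)) := by
    refine RingHom.ext fun p => ?_
    change algebraMap E F (aeval x p) = algebraMap E F (aeval x (p.map (algebraMap O K)))
    rw [aeval_map_algebraMap]
  unfold IntO at h
  rw [e] at h
  exact RingHom.IsIntegralElem.of_comp h

omit [CharZero K] [FiniteDimensional E F] in
/-- The integral closure of `K[x]` is the chart with `ϖ` inverted. -/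
theorem exists_pow_mul_mem_chart {ϖ : O} (hϖ : Irreducible ϖ) (x : E) {z : F}
    (hz : IsIntegral (Algebra.adjoin K {x}) z) :
    ∃ k : ℕ, algebraMap E F (algebraMap O E ϖ) ^ k * z ∈ chart O F x := by
  obtain ⟨d, hd, hdz⟩ := exists_mul_intO (O := O) (K := K) x ((intK_iff x z).mpr hz)
  obtain ⟨k, w, rfl⟩ := IsDiscreteValuationRing.eq_unit_mul_pow_irreducible hd hϖ
  refine ⟨k, ?_⟩
  rw [intO_iff] at hdz
  have hw : algebraMap E F (algebraMap O E ((w⁻¹ : Oˣ) : O)) ∈ chart O F x :=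
    (chart O F x).algebraMap_mem (algebraMap O (polyRing O x) ((w⁻¹ : Oˣ) : O))
  have := (chart O F x).mul_mem hw hdz
  have e : algebraMap E F (algebraMap O E ((w⁻¹ : Oˣ) : O)) *
      (algebraMap E F (algebraMap O E ((w : O) * ϖ ^ k)) * z) =
      algebraMap E F (algebraMap O E ϖ) ^ k * z := by
    rw [← mul_assoc, ← map_mul, ← map_mul, ← mul_assoc, Units.inv_mul, one_mul, map_pow, map_pow]
  rwa [e] at this

omit [IsDomain O] [IsDiscreteValuationRing O] [CharZero K] [IsFractionRing O K]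
  [FiniteDimensional E F] in
theorem isIntegral_adjoin_of_mem_chart (x : E) {y : F} (h : y ∈ chart O F x) :
    IsIntegral (Algebra.adjoin K {x}) y :=
  (intK_iff x y).mp (intK_of_intO x ((intO_iff x y).mpr h))

section Loc

variable {x : E} (𝔮 : Ideal (chart O F x))

/-- The localisation of the chart at `𝔮`, as a subring of `F`. -/
def locSubring (h𝔮 : 𝔮.IsPrime) : Subring F where
  carrier := {y | ∃ a b : chart O F x, b ∉ 𝔮 ∧ y * (b : F) = (a : F)}
  mul_mem' := by
    rintro y y' ⟨a, b, hb, e⟩ ⟨a', b', hb', e'⟩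
    refine ⟨a * a', b * b', fun h => (h𝔮.mem_or_mem h).elim hb hb', ?_⟩
    push_cast
    rw [← e, ← e']; ring
  one_mem' := ⟨1, 1, fun h => h𝔮.ne_top ((Ideal.eq_top_iff_one _).mpr h), by simp⟩
  add_mem' := by
    rintro y y' ⟨a, b, hb, e⟩ ⟨a', b', hb', e'⟩
    refine ⟨a * b' + a' * b, b * b', fun h => (h𝔮.mem_or_mem h).elim hb hb', ?_⟩
    push_cast
    rw [← e, ← e']; ring
  zero_mem' := ⟨0, 1, fun h => h𝔮.ne_top ((Ideal.eq_top_iff_one _).mpr h), by simp⟩
  neg_mem' := by
    rintro y ⟨a, b, hb, e⟩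
    refine ⟨-a, b, hb, ?_⟩
    push_cast
    rw [← e]; ring

variable (K) in
/-- The prime of the integral closure of `K[x]` corresponding to `𝔮`. -/
def primeK {ϖ : O} (hϖ : Irreducible ϖ) (h𝔮 : 𝔮.IsPrime) (hϖ𝔮 : unifChart O F ϖ x ∉ 𝔮) :
    Ideal (integralClosure (Algebra.adjoin K {x}) F) where
  carrier := {z | ∃ a b : chart O F x, a ∈ 𝔮 ∧ b ∉ 𝔮 ∧ (z : F) * (b : F) = (a : F)}
  add_mem' := by
    rintro y y' ⟨a, b, ha, hb, e⟩ ⟨a', b', ha', hb', e'⟩
    refine ⟨a * b' + a' * b, b * b', 𝔮.add_mem (𝔮.mul_mem_right _ ha) (𝔮.mul_mem_right _ ha'),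
      fun h => (h𝔮.mem_or_mem h).elim hb hb', ?_⟩
    push_cast
    rw [← e, ← e']; ring
  zero_mem' := ⟨0, 1, 𝔮.zero_mem, fun h => h𝔮.ne_top ((Ideal.eq_top_iff_one _).mpr h), by simp⟩
  smul_mem' := by
    rintro r y ⟨a, b, ha, hb, e⟩
    obtain ⟨k, hk⟩ := exists_pow_mul_mem_chart (K := K) hϖ x r.2
    refine ⟨⟨_, hk⟩ * a, unifChart O F ϖ x ^ k * b, 𝔮.mul_mem_left _ ha,
      fun h => (h𝔮.mem_or_mem h).elim (fun h' => hϖ𝔮 (h𝔮.mem_of_pow_mem k h')) hb, ?_⟩
    change ((r : F) * (y : F)) * (algebraMap E F (algebraMap O E ϖ) ^ k * (b : F)) =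
      (algebraMap E F (algebraMap O E ϖ) ^ k * (r : F)) * (a : F)
    rw [← e]; ring

variable {𝔮}

omit [CharZero K] [FiniteDimensional E F] in
theorem mem_primeK_of_scaled {ϖ : O} (hϖ : Irreducible ϖ) (h𝔮 : 𝔮.IsPrime)
    (hϖ𝔮 : unifChart O F ϖ x ∉ 𝔮) {z : integralClosure (Algebra.adjoin K {x}) F} {k : ℕ}
    {c : chart O F x} (hc : c ∈ 𝔮) (e : algebraMap E F (algebraMap O E ϖ) ^ k * (z : F) = c) :
    z ∈ primeK K 𝔮 hϖ h𝔮 hϖ𝔮 :=
  ⟨c, unifChart O F ϖ x ^ k, hc, fun h' => hϖ𝔮 (h𝔮.mem_of_pow_mem k h'), by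
    change (z : F) * algebraMap E F (algebraMap O E ϖ) ^ k = c
    rw [← e]; ring⟩

omit [CharZero K] [FiniteDimensional E F] in
theorem primeK_isPrime {ϖ : O} (hϖ : Irreducible ϖ) (h𝔮 : 𝔮.IsPrime)
    (hϖ𝔮 : unifChart O F ϖ x ∉ 𝔮) : (primeK K 𝔮 hϖ h𝔮 hϖ𝔮).IsPrime := by
  refine ⟨?_, ?_⟩
  · intro htop
    obtain ⟨a, b, ha, hb, e⟩ := (Ideal.eq_top_iff_one _).mp htop
    apply hb
    have : b = a := Subtype.ext (by simpa using e)
    rwa [this]
  · intro z z' hzz'
    obtain ⟨a, b, ha, hb, e⟩ := hzz'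
    obtain ⟨k, hk⟩ := exists_pow_mul_mem_chart (K := K) hϖ x z.2
    obtain ⟨k', hk'⟩ := exists_pow_mul_mem_chart (K := K) hϖ x z'.2
    have key : (⟨_, hk⟩ : chart O F x) * ⟨_, hk'⟩ * b = unifChart O F ϖ x ^ (k + k') * a := by
      apply Subtype.ext
      change (algebraMap E F (algebraMap O E ϖ) ^ k * (z : F)) *
        (algebraMap E F (algebraMap O E ϖ) ^ k' * (z' : F)) * (b : F) =
        algebraMap E F (algebraMap O E ϖ) ^ (k + k') * (a : F)
      rw [← e]
      change _ = algebraMap E F (algebraMap O E ϖ) ^ (k + k') * (((z : F) * (z' : F)) * (b : F))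
      ring
    have hmem : (⟨_, hk⟩ : chart O F x) * ⟨_, hk'⟩ * b ∈ 𝔮 := key ▸ 𝔮.mul_mem_left _ ha
    rcases h𝔮.mem_or_mem hmem with h | h
    · rcases h𝔮.mem_or_mem h with h | h
      · exact Or.inl (mem_primeK_of_scaled hϖ h𝔮 hϖ𝔮 h rfl)
      · exact Or.inr (mem_primeK_of_scaled hϖ h𝔮 hϖ𝔮 h rfl)
    · exact absurd h hb

omit [CharZero K] [FiniteDimensional E F] in
theorem primeK_ne_bot {ϖ : O} (hϖ : Irreducible ϖ) (h𝔮 : 𝔮.IsPrime)
    (hϖ𝔮 : unifChart O F ϖ x ∉ 𝔮) (h0 : 𝔮 ≠ ⊥) : primeK K 𝔮 hϖ h𝔮 hϖ𝔮 ≠ ⊥ := by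
  obtain ⟨c, hc, hc0⟩ := Submodule.exists_mem_ne_zero_of_ne_bot h0
  intro hbot
  have hmem : (⟨(c : F), isIntegral_adjoin_of_mem_chart x c.2⟩ :
      integralClosure (Algebra.adjoin K {x}) F) ∈ primeK K 𝔮 hϖ h𝔮 hϖ𝔮 :=
    mem_primeK_of_scaled (k := 0) hϖ h𝔮 hϖ𝔮 hc (by simp)
  rw [hbot, Ideal.mem_bot] at hmem
  have h1 : (c : F) = 0 := by
    have := congrArg (Subtype.val : integralClosure (Algebra.adjoin K {x}) F → F) hmem
    rwa [ZeroMemClass.coe_zero] at this
  exact hc0 (Subtype.ext (h1.trans (ZeroMemClass.coe_zero _).symm))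

omit [CharZero K] [FiniteDimensional E F] in
theorem mem_locSubring_of_mul_eq {ϖ : O} (hϖ : Irreducible ϖ) (h𝔮 : 𝔮.IsPrime)
    (hϖ𝔮 : unifChart O F ϖ x ∉ 𝔮) {y : F} {n d : integralClosure (Algebra.adjoin K {x}) F}
    (hd : d ∉ primeK K 𝔮 hϖ h𝔮 hϖ𝔮) (e : y * (d : F) = (n : F)) : y ∈ locSubring 𝔮 h𝔮 := by
  obtain ⟨k, hk⟩ := exists_pow_mul_mem_chart (K := K) hϖ x d.2
  obtain ⟨k', hk'⟩ := exists_pow_mul_mem_chart (K := K) hϖ x n.2
  refine ⟨unifChart O F ϖ x ^ k * ⟨_, hk'⟩, unifChart O F ϖ x ^ k' * ⟨_, hk⟩, ?_, ?_⟩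
  · intro h
    rcases h𝔮.mem_or_mem h with h | h
    · exact hϖ𝔮 (h𝔮.mem_of_pow_mem k' h)
    · exact hd (mem_primeK_of_scaled hϖ h𝔮 hϖ𝔮 h rfl)
  · change y * (algebraMap E F (algebraMap O E ϖ) ^ k' *
      (algebraMap E F (algebraMap O E ϖ) ^ k * (d : F))) =
      algebraMap E F (algebraMap O E ϖ) ^ k * (algebraMap E F (algebraMap O E ϖ) ^ k' * (n : F))
    rw [← e]; ring

end Loc

end ChartVal

section ChartBase
variable (K) (ϖ : O) (hϖ : Irreducible ϖ) (x : E) (hx : Transcendental K x)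
  (hgen : IntermediateField.adjoin K {x} = ⊤) (𝒟 : ValuationSubring F) (hG : GaussData O ϖ 𝒟 x)

open ChartVal in
include K hx hgen hϖ hG in
/-- localisation of the chart at a prime not containing `ϖ` is a valuation ring containing `K`. -/
theorem exists_valuationSubring_of_prime (𝔮 : Ideal (chart O F x)) (h𝔮 : 𝔮.IsPrime) (h0 : 𝔮 ≠ ⊥)
    (hϖ𝔮 : unifChart O F ϖ x ∉ 𝔮) :
    ∃ V : ValuationSubring F, ContainsConst K E V ∧ V ≠ ⊤ ∧
      ∀ y : F, y ∈ V ↔ ∃ a b : chart O F x, b ∉ 𝔮 ∧ y * (b : F) = (a : F) := by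
  classical
  have : IsPrincipalIdealRing (Algebra.adjoin K {x}) := isPrincipalIdealRing_adjoin K x
  have : IsFractionRing (Algebra.adjoin K {x}) E := isFractionRing_adjoin K x hgen
  have : CharZero E := charZero_of_injective_algebraMap (algebraMap K E).injective
  have : IsDedekindDomain (integralClosure (Algebra.adjoin K {x}) F) :=
    integralClosure.isDedekindDomain (Algebra.adjoin K {x}) E F
  have : IsFractionRing (integralClosure (Algebra.adjoin K {x}) F) F :=
    integralClosure.isFractionRing_of_finite_extension E F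
  let v : IsDedekindDomain.HeightOneSpectrum (integralClosure (Algebra.adjoin K {x}) F) :=
    ⟨primeK K 𝔮 hϖ h𝔮 hϖ𝔮, primeK_isPrime hϖ h𝔮 hϖ𝔮, primeK_ne_bot hϖ h𝔮 hϖ𝔮 h0⟩
  have hval : ∀ y : F, y ∈ locSubring 𝔮 h𝔮 ∨ y⁻¹ ∈ locSubring 𝔮 h𝔮 := by
    intro y
    obtain ⟨n, d, h | h⟩ := v.exists_primeCompl_mul_eq_or_mul_eq (K := F) y
    · exact Or.inl (mem_locSubring_of_mul_eq hϖ h𝔮 hϖ𝔮 d.2 h)
    · refine Or.inr (mem_locSubring_of_mul_eq hϖ h𝔮 hϖ𝔮 (n := n) d.2 ?_)
      have hd0 : algebraMap (integralClosure (Algebra.adjoin K {x}) F) F (d : _) ≠ 0 := by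
        intro h0'
        apply d.2
        have : (d : integralClosure (Algebra.adjoin K {x}) F) = 0 :=
          (map_eq_zero_iff _ (IsFractionRing.injective _ F)).mp h0'
        rw [this]
        exact Ideal.zero_mem _
      have hy0 : y ≠ 0 := by
        rintro rfl
        rw [zero_mul] at h
        exact hd0 h.symm
      change y⁻¹ * algebraMap (integralClosure (Algebra.adjoin K {x}) F) F (d : _) =
        algebraMap (integralClosure (Algebra.adjoin K {x}) F) F n
      rw [← h]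
      field_simp
  refine ⟨⟨locSubring 𝔮 h𝔮, hval⟩, ?_, ?_, fun y => Iff.rfl⟩
  · intro c
    obtain ⟨a, b, hb, rfl⟩ := IsFractionRing.div_surjective (A := O) c
    obtain ⟨k, w, rfl⟩ :=
      IsDiscreteValuationRing.eq_unit_mul_pow_irreducible (nonZeroDivisors.ne_zero hb) hϖ
    refine ⟨algebraMap (polyRing O x) (chart O F x) (algebraMap O (polyRing O x) a),
      algebraMap (polyRing O x) (chart O F x) (algebraMap O (polyRing O x) (w : O)) *
        unifChart O F ϖ x ^ k, ?_, ?_⟩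
    · intro h
      rcases h𝔮.mem_or_mem h with h | h
      · exact h𝔮.ne_top (Ideal.eq_top_of_isUnit_mem _ h ((w.isUnit.map _).map _))
      · exact hϖ𝔮 (h𝔮.mem_of_pow_mem k h)
    · have hne : algebraMap O K ((w : O) * ϖ ^ k) ≠ 0 :=
        (map_ne_zero_iff _ (IsFractionRing.injective O K)).mpr (nonZeroDivisors.ne_zero hb)
      change algebraMap E F (algebraMap K E (algebraMap O K a / algebraMap O K ((w : O) * ϖ ^ k))) *
        (algebraMap E F (algebraMap O E (w : O)) * algebraMap E F (algebraMap O E ϖ) ^ k) =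
        algebraMap E F (algebraMap O E a)
      rw [IsScalarTower.algebraMap_apply O K E, IsScalarTower.algebraMap_apply O K E,
        IsScalarTower.algebraMap_apply O K E, ← map_pow, ← map_pow, ← map_pow, ← map_mul,
        ← map_mul, ← map_mul, ← map_mul, ← map_mul, div_mul_cancel₀ _ hne]
  · obtain ⟨c, hc, hc0⟩ := Submodule.exists_mem_ne_zero_of_ne_bot h0
    intro htop
    have hc0' : (c : F) ≠ 0 := fun h => hc0 (Subtype.ext h)
    have hmem : (c : F)⁻¹ ∈ (⟨locSubring 𝔮 h𝔮, hval⟩ : ValuationSubring F) := by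
      rw [htop]; trivial
    obtain ⟨a, b, hb, e⟩ := hmem
    apply hb
    have : b = a * c := by
      apply Subtype.ext
      change (b : F) = (a : F) * (c : F)
      rw [← e]
      field_simp
    rw [this]
    exact 𝔮.mul_mem_left _ hc

end ChartBase

end Fermat.Agent.GoodRed
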