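import Mathlib

set_option autoImplicit false

/-!
# Double trace-dual of a lattice spanned by a basis

If `M = span A (range b)` for a `K`-basis `b` of `L`, then `Mᵛᵛ = M`; hence `Mᵛ ≤ Nᵛ` forces
`N ≤ M`.
-/

namespace Fermat.Agent.GoodRed

open Module

variable (A K : Type*) {L : Type*} [CommRing A] [Field K] [Field L]
  [Algebra A K] [Algebra K L] [Algebra A L] [IsScalarTower A K L]
  [IsDomain A] [IsFractionRing A K] [FiniteDimensional K L] [Algebra.IsSeparable K L]

theorem le_of_traceDual_le_traceDual {ι : Type*} [Finite ι] (b : Basis ι K L)
    (N : Submodule A L)
    (h : Submodule.traceDual A K (Submodule.span A (Set.range b)) ≤ Submodule.traceDual A K N) :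
    N ≤ Submodule.span A (Set.range b) := by
  classical
  have h1 : Submodule.traceDual A K (Submodule.span A (Set.range b))
      = Submodule.span A (Set.range b.traceDual) := by
    have := Submodule.traceDual_span_of_basis (K := K) A (Submodule.span A (Set.range b)) b
      (Submodule.restrictScalars_self _)
    simpa only [Submodule.restrictScalars_self] using this
  have h2 : Submodule.traceDual A K (Submodule.span A (Set.range b.traceDual))
      = Submodule.span A (Set.range b) := by
    have := Submodule.traceDual_span_of_basis (K := K) A
      (Submodule.span A (Set.range b.traceDual)) b.traceDual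
      (Submodule.restrictScalars_self _)
    simpa only [Submodule.restrictScalars_self, Module.Basis.traceDual_traceDual] using this
  have h3 : N ≤ Submodule.traceDual A K (Submodule.traceDual A K (Submodule.span A (Set.range b))) :=
    Submodule.le_traceDual_comm.mp h
  rwa [h1, h2] at h3

end Fermat.Agent.GoodRed
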