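import Mathlib
set_option autoImplicit false
namespace Fermat.Agent.GoodRed
open Module

theorem algebraMap_quot_injective
    {A B : Type*} [CommRing A] [IsDomain A] [IsIntegrallyClosed A] [CommRing B] [Algebra A B]
    (E F : Type*) [Field E] [Algebra A E] [IsFractionRing A E]
    [Field F] [Algebra E F] [Algebra A F] [IsScalarTower A E F]
    [Algebra B F] [IsScalarTower A B F] [IsIntegralClosure B A F]
    {At Bt : Type*} [CommRing At] [CommRing Bt]
    [Algebra A At] [Algebra B Bt] [Algebra At Bt] [Algebra A Bt]
    [IsScalarTower A At Bt] [IsScalarTower A B Bt]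
    (π : A) (hπ : π ≠ 0)
    (hAs : Function.Surjective (algebraMap A At))
    (hAk : ∀ a : A, algebraMap A At a = 0 ↔ π ∣ a)
    (hBk : ∀ b : B, algebraMap B Bt b = 0 ↔ algebraMap A B π ∣ b) :
    Function.Injective (algebraMap At Bt) := by
  rw [injective_iff_map_eq_zero]
  intro x hx
  obtain ⟨a, rfl⟩ := hAs x
  rw [← IsScalarTower.algebraMap_apply A At Bt, IsScalarTower.algebraMap_apply A B Bt, hBk] at hx
  obtain ⟨β, hβ⟩ := hx
  rw [hAk]
  have hπE : algebraMap A E π ≠ 0 := by
    rw [Ne, IsFractionRing.to_map_eq_zero_iff]; exact hπ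
  have hF : algebraMap B F β = algebraMap E F (algebraMap A E a / algebraMap A E π) := by
    have h1 := congrArg (algebraMap B F) hβ
    rw [map_mul, ← IsScalarTower.algebraMap_apply A B F, ← IsScalarTower.algebraMap_apply A B F,
      IsScalarTower.algebraMap_apply A E F, IsScalarTower.algebraMap_apply A E F] at h1
    rw [map_div₀, h1]
    have : algebraMap E F (algebraMap A E π) ≠ 0 := by
      rw [Ne, map_eq_zero]; exact hπE
    field_simp
  have hint : IsIntegral A (algebraMap B F β) :=
    (IsIntegralClosure.isIntegral A F β).algebraMap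
  rw [hF, isIntegral_algebraMap_iff (algebraMap E F).injective,
    IsIntegrallyClosed.isIntegral_iff] at hint
  obtain ⟨a', ha'⟩ := hint
  refine ⟨a', ?_⟩
  apply IsFractionRing.injective A E
  rw [map_mul, ha']
  field_simp

theorem exists_lift_basis
    {A B : Type*} [CommRing A] [IsDomain A] [IsNoetherianRing A] [IsIntegrallyClosed A]
    [CommRing B] [Algebra A B]
    (E F : Type*) [Field E] [Algebra A E] [IsFractionRing A E]
    [Field F] [Algebra E F] [Algebra A F] [IsScalarTower A E F]
    [FiniteDimensional E F] [Algebra.IsSeparable E F]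
    [Algebra B F] [IsScalarTower A B F] [IsIntegralClosure B A F]
    {At Bt : Type*} [CommRing At] [IsDomain At] [IsPrincipalIdealRing At]
    [CommRing Bt] [IsDomain Bt]
    [Algebra A At] [Algebra B Bt] [Algebra At Bt] [Algebra A Bt]
    [IsScalarTower A At Bt] [IsScalarTower A B Bt]
    (π : A) (hπ : π ≠ 0)
    (hAs : Function.Surjective (algebraMap A At))
    (hAk : ∀ a : A, algebraMap A At a = 0 ↔ π ∣ a)
    (hBs : Function.Surjective (algebraMap B Bt))
    (hBk : ∀ b : B, algebraMap B Bt b = 0 ↔ algebraMap A B π ∣ b) :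
    ∃ (m : ℕ) (b : Fin m → B) (bF : Basis (Fin m) E F) (bt : Basis (Fin m) At Bt) (s : A),
      (∀ i, bF i = algebraMap B F (b i)) ∧ (∀ i, bt i = algebraMap B Bt (b i)) ∧
      algebraMap A At s = 1 ∧ ∀ x : B, ∃ c : Fin m → A, s • x = ∑ i, c i • b i := by
  classical
  have hinj : Function.Injective (algebraMap At Bt) :=
    algebraMap_quot_injective E F π hπ hAs hAk hBk
  have hBF : Function.Injective (algebraMap B F) := IsIntegralClosure.algebraMap_injective B A F
  have hfinAB : Module.Finite A B := IsIntegralClosure.finite A E F B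
  have hfinABt : Module.Finite A Bt :=
    Module.Finite.of_surjective (IsScalarTower.toAlgHom A B Bt).toLinearMap hBs
  have hfin : Module.Finite At Bt := Module.Finite.of_restrictScalars_finite A At Bt
  have hfaith : FaithfulSMul At Bt := (faithfulSMul_iff_algebraMap_injective At Bt).2 hinj
  have htf : Module.IsTorsionFree At Bt := inferInstance
  have hfree : Module.Free At Bt := Module.free_of_finite_type_torsion_free'
  let m := finrank At Bt
  let bt : Basis (Fin m) At Bt := Module.finBasis At Bt
  choose b hb using fun i => hBs (bt i)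
  -- reduction of an `A`-linear combination
  have hred : ∀ c : Fin m → A, algebraMap B Bt (∑ i, c i • b i)
      = ∑ i, algebraMap A At (c i) • bt i := by
    intro c
    rw [map_sum]
    refine Finset.sum_congr rfl fun i _ => ?_
    rw [Algebra.smul_def, map_mul, hb, ← IsScalarTower.algebraMap_apply A B Bt,
      IsScalarTower.algebraMap_apply A At Bt, Algebra.smul_def]
  let B' : Submodule A B := Submodule.span A (Set.range b)
  have hsum_mem : ∀ c : Fin m → A, ∑ i, c i • b i ∈ B' := fun c =>
    Submodule.sum_mem _ fun i _ => Submodule.smul_mem _ _ (Submodule.subset_span ⟨i, rfl⟩)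
  have hdecomp : ∀ x : B, ∃ y ∈ B', ∃ z : B, x = y + π • z := by
    intro x
    choose c hc using fun i => hAs (bt.repr (algebraMap B Bt x) i)
    have h0 : algebraMap B Bt (x - ∑ i, c i • b i) = 0 := by
      rw [map_sub, hred, sub_eq_zero]
      simp_rw [hc]
      exact (bt.sum_repr _).symm
    rw [hBk] at h0
    obtain ⟨z, hz⟩ := h0
    refine ⟨_, hsum_mem c, z, ?_⟩
    rw [Algebra.smul_def, ← hz]
    ring
  -- Nakayama
  obtain ⟨s, hs1, hs⟩ := Submodule.exists_sub_one_mem_and_smul_eq_zero_of_fg_of_le_smul
    (Ideal.span {π}) (⊤ : Submodule A (B ⧸ B')) (Module.Finite.fg_top) (by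
      intro x _
      obtain ⟨x, rfl⟩ := Submodule.Quotient.mk_surjective _ x
      obtain ⟨y, hy, z, rfl⟩ := hdecomp x
      rw [Submodule.Quotient.mk_add, (Submodule.Quotient.mk_eq_zero _).2 hy, zero_add,
        Submodule.Quotient.mk_smul]
      exact Submodule.smul_mem_smul (Ideal.mem_span_singleton_self π) Submodule.mem_top)
  have hs1' : algebraMap A At s = 1 := by
    rw [Ideal.mem_span_singleton, ← hAk, map_sub, map_one, sub_eq_zero] at hs1
    exact hs1
  have hs0 : s ≠ 0 := by
    rintro rfl
    rw [map_zero] at hs1'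
    exact zero_ne_one hs1'
  have hsB : ∀ x : B, ∃ c : Fin m → A, s • x = ∑ i, c i • b i := by
    intro x
    have h1 := hs (Submodule.Quotient.mk x) Submodule.mem_top
    rw [← Submodule.Quotient.mk_smul, Submodule.Quotient.mk_eq_zero] at h1
    obtain ⟨c, hc⟩ := (Submodule.mem_span_range_iff_exists_fun A).1 h1
    exact ⟨c, hc.symm⟩
  -- linear independence over `A`
  have hπB : algebraMap A B π ≠ 0 := by
    intro h
    have h2 : algebraMap A F π = 0 := by
      rw [IsScalarTower.algebraMap_apply A B F, h, map_zero]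
    rw [IsScalarTower.algebraMap_apply A E F, map_eq_zero, IsFractionRing.to_map_eq_zero_iff] at h2
    exact hπ h2
  have hBdom : IsDomain B := hBF.isDomain (algebraMap B F)
  have hpow : ∀ (k : ℕ) (a : Fin m → A), ∑ i, a i • b i = 0 → ∀ i, π ^ k ∣ a i := by
    intro k
    induction k with
    | zero => intro a _ i; simp
    | succ k ih =>
      intro a ha i
      have h1 : ∑ i, algebraMap A At (a i) • bt i = 0 := by
        rw [← hred, ha, map_zero]
      have h2 : ∀ i, algebraMap A At (a i) = 0 := fun i =>
        Fintype.linearIndependent_iff.1 bt.linearIndependent _ h1 i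
      choose a' ha' using fun i => (hAk (a i)).1 (h2 i)
      have h3 : ∑ i, a' i • b i = 0 := by
        have h4 : algebraMap A B π * ∑ i, a' i • b i = 0 := by
          rw [← ha, Finset.mul_sum]
          refine Finset.sum_congr rfl fun i _ => ?_
          rw [ha' i, Algebra.smul_def, Algebra.smul_def, map_mul, mul_assoc]
        exact (mul_eq_zero.1 h4).resolve_left hπB
      rw [ha' i, pow_succ']
      exact mul_dvd_mul_left _ (ih a' h3 i)
  have hne_top : Ideal.span {π} ≠ (⊤ : Ideal A) := by
    intro h
    rw [Ideal.span_singleton_eq_top] at h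
    have h1 : algebraMap A At 1 = 0 := (hAk 1).2 h.dvd
    rw [map_one] at h1
    exact one_ne_zero h1
  have hliA : LinearIndependent A b := by
    rw [Fintype.linearIndependent_iff]
    intro a ha i
    have h1 : a i ∈ ⨅ k : ℕ, Ideal.span {π} ^ k := by
      rw [Ideal.mem_iInf]
      intro k
      rw [Ideal.span_singleton_pow, Ideal.mem_span_singleton]
      exact hpow k a ha i
    rw [Ideal.iInf_pow_eq_bot_of_isDomain _ hne_top] at h1
    exact h1
  have hliAF : LinearIndependent A (fun i => algebraMap B F (b i)) :=
    hliA.map' (IsScalarTower.toAlgHom A B F).toLinearMap (LinearMap.ker_eq_bot.2 hBF)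
  have hliE : LinearIndependent E (fun i => algebraMap B F (b i)) :=
    hliAF.localization E (nonZeroDivisors A)
  have hspan : ⊤ ≤ Submodule.span E (Set.range fun i => algebraMap B F (b i)) := by
    intro x _
    have halg : IsAlgebraic A x :=
      (IsFractionRing.isAlgebraic_iff A E F).2 (Algebra.IsAlgebraic.isAlgebraic x)
    obtain ⟨y, hy0, hy⟩ := halg.exists_integral_multiple
    obtain ⟨β, hβ⟩ := (IsIntegralClosure.isIntegral_iff (A := B)).1 hy
    obtain ⟨c, hc⟩ := hsB β
    have hsy : algebraMap A E (s * y) ≠ 0 := by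
      rw [Ne, IsFractionRing.to_map_eq_zero_iff]
      exact mul_ne_zero hs0 hy0
    have hx : x = (algebraMap A E (s * y))⁻¹ • ∑ i, algebraMap A E (c i) • algebraMap B F (b i) := by
      have h1 := congrArg (algebraMap B F) hc
      rw [map_sum, Algebra.smul_def, map_mul, hβ, ← IsScalarTower.algebraMap_apply A B F] at h1
      have h2 : ∑ i, algebraMap A E (c i) • algebraMap B F (b i)
          = ∑ i, algebraMap B F (c i • b i) := by
        refine Finset.sum_congr rfl fun i _ => ?_
        rw [Algebra.smul_def (c i) (b i), map_mul, ← IsScalarTower.algebraMap_apply A B F,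
          Algebra.smul_def, ← IsScalarTower.algebraMap_apply A E F]
      rw [h2, ← h1, eq_inv_smul_iff₀ hsy, Algebra.smul_def, ← IsScalarTower.algebraMap_apply A E F,
        map_mul, Algebra.smul_def y x, mul_assoc]
    rw [hx]
    exact Submodule.smul_mem _ _ (Submodule.sum_mem _ fun i _ =>
      Submodule.smul_mem _ _ (Submodule.subset_span ⟨i, rfl⟩))
  refine ⟨m, b, Basis.mk hliE hspan, bt, s, fun i => ?_, fun i => (hb i).symm, hs1', hsB⟩
  rw [Basis.mk_apply]

end Fermat.Agent.GoodRed
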