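import Mathlib
set_option autoImplicit false
set_option maxHeartbeats 400000
namespace Fermat.Agent.GoodRed
open Module

theorem discr_reduction_ne_zero
    {A B : Type*} [CommRing A] [CommRing B] [Algebra A B]
    (E F : Type*) [Field E] [Algebra A E]
    [Field F] [Algebra E F] [Algebra B F]
    {At Bt : Type*} [CommRing At] [IsDomain At] [CommRing Bt]
    [Algebra A At] [Algebra B Bt] [Algebra At Bt]
    (π : A)
    (hAk : ∀ a : A, algebraMap A At a = 0 ↔ π ∣ a)
    (hBs : Function.Surjective (algebraMap B Bt))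
    (hBk : ∀ b : B, algebraMap B Bt b = 0 ↔ algebraMap A B π ∣ b)
    (hex : ∀ x : B, ∃ a : A, Algebra.trace E F (algebraMap B F x) = algebraMap A E a)
    (htr : ∀ (x : B) (a : A), Algebra.trace E F (algebraMap B F x) = algebraMap A E a →
      Algebra.trace At Bt (algebraMap B Bt x) = algebraMap A At a)
    (hsep : ∀ y : B, (∀ z : B, ∃ a : A,
        Algebra.trace E F (algebraMap B F (y * z)) = algebraMap A E (π * a)) →
      algebraMap A B π ∣ y)
    {m : ℕ} (bt : Basis (Fin m) At Bt) :
    Algebra.discr At bt ≠ 0 := by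
  intro h0
  rw [Algebra.discr_def] at h0
  obtain ⟨v, hv, hMv⟩ := Matrix.exists_mulVec_eq_zero_iff.mpr h0
  set yt : Bt := ∑ i, v i • bt i with hyt
  have hyt0 : yt ≠ 0 := by
    intro h
    apply hv
    have := Fintype.linearIndependent_iff.mp bt.linearIndependent v h
    exact funext this
  have h1 : ∀ j, Algebra.trace At Bt (yt * bt j) = 0 := by
    intro j
    have := congrFun hMv j
    simp only [Matrix.mulVec, dotProduct, Algebra.traceMatrix_apply, Algebra.traceForm_apply,
      Pi.zero_apply] at this
    rw [hyt, Finset.sum_mul, map_sum]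
    rw [← this]
    refine Finset.sum_congr rfl fun i _ => ?_
    rw [smul_mul_assoc, map_smul, smul_eq_mul, mul_comm (bt i) (bt j), mul_comm]
  have h2 : ∀ zt, Algebra.trace At Bt (yt * zt) = 0 := by
    intro zt
    rw [← bt.sum_repr zt, Finset.mul_sum, map_sum]
    refine Finset.sum_eq_zero fun i _ => ?_
    rw [mul_smul_comm, map_smul, h1, smul_zero]
  obtain ⟨y, hy⟩ := hBs yt
  apply hyt0
  rw [← hy, hBk]
  apply hsep
  intro z
  obtain ⟨a, ha⟩ := hex (y * z)
  have h3 := htr (y * z) a ha
  rw [map_mul, hy, h2] at h3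
  obtain ⟨a', rfl⟩ := (hAk a).mp h3.symm
  exact ⟨a', ha⟩

theorem isSeparable_of_discr_ne_zero {K L ι : Type*} [Field K] [Field L] [Algebra K L]
    [Fintype ι] [DecidableEq ι] (b : Basis ι K L) (h : Algebra.discr K b ≠ 0) :
    Algebra.IsSeparable K L := by
  by_contra hns
  apply h
  have h0 : Algebra.trace K L = 0 := Algebra.trace_eq_zero_of_not_isSeparable hns
  have : Nonempty ι := b.index_nonempty
  rw [Algebra.discr_def]
  have : Algebra.traceMatrix K b = 0 := by
    ext i j
    simp [Algebra.traceMatrix_apply, Algebra.traceForm_apply, h0]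
  rw [this, Matrix.det_zero]

theorem squarefree_span_singleton {R : Type*} [CommRing R] [IsDomain R] [IsPrincipalIdealRing R]
    (g : R) (hg : Squarefree g) : Squarefree (Ideal.span {g}) := by
  intro I hI
  obtain ⟨a, rfl⟩ := (IsPrincipalIdealRing.principal I).principal
  rw [Ideal.submodule_span_eq, Ideal.span_singleton_mul_span_singleton, Ideal.dvd_iff_le,
    Ideal.span_singleton_le_span_singleton] at hI
  have := hg a hI
  rw [Ideal.submodule_span_eq, Ideal.isUnit_iff, Ideal.span_singleton_eq_top]
  exact this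

end Fermat.Agent.GoodRed
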