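import Fermat.Agent.Lib.GoodRed.TameDual
set_option autoImplicit false
namespace Fermat.Agent.GoodRed
open Module

namespace GRCGenericAux

/-- KEY FACT: an element integral over `AK = A[1/π]` becomes an element of `B` after
multiplication by a power of `π`. -/
theorem exists_pow_mul_eq_of_isIntegral
    {A B : Type*} [CommRing A] [CommRing B] [Algebra A B]
    (AK F : Type*) [CommRing AK] [Algebra A AK]
    [Field F] [Algebra A F] [Algebra AK F] [IsScalarTower A AK F]
    [Algebra B F] [IsScalarTower A B F] [IsIntegralClosure B A F]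
    (π : A) [IsLocalization.Away π AK] (x : F) (hx : IsIntegral AK x) :
    ∃ (k : ℕ) (β : B), algebraMap B F β = algebraMap A F π ^ k * x := by
  obtain ⟨⟨_, k, rfl⟩, hk⟩ :=
    IsIntegral.exists_multiple_integral_of_isLocalization (Submonoid.powers π) x hx
  obtain ⟨β, hβ⟩ := (IsIntegralClosure.isIntegral_iff (A := B)).mp hk
  refine ⟨k, β, ?_⟩
  rw [hβ, Submonoid.smul_def, Algebra.smul_def, map_pow]

end GRCGenericAux

open GRCGenericAux in
theorem exists_pow_mul_eq_of_trace_mem_aux
    {A B : Type*} [CommRing A] [IsDomain A] [CommRing B] [Algebra A B]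
    (AK E F : Type*) [CommRing AK] [Algebra A AK] [IsDedekindDomain AK]
    [Field E] [Algebra A E] [IsFractionRing A E]
    [Algebra AK E] [IsScalarTower A AK E] [IsFractionRing AK E]
    [Field F] [Algebra E F] [Algebra A F] [IsScalarTower A E F]
    [Algebra AK F] [IsScalarTower AK E F] [IsScalarTower A AK F]
    [FiniteDimensional E F] [Algebra.IsSeparable E F]
    [Algebra B F] [IsScalarTower A B F] [IsIntegralClosure B A F]
    (π g : A) [IsLocalization.Away π AK] (hπ : π ≠ 0) (hg0 : g ≠ 0)
    (hchar : ∀ n : ℕ, n ≠ 0 → ∃ k : ℕ, (n : A) ∣ π ^ k)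
    (hunr : ∀ P : Ideal B, P.IsPrime → P ≠ ⊥ → algebraMap A B π ∉ P → algebraMap A B g ∉ P →
      ∃ a : A, algebraMap A B a ∈ P ∧ ∀ y ∈ P, ∃ s : B, s ∉ P ∧ algebraMap A B a ∣ s * y)
    (Y : F) (hY : ∀ x : B, ∃ a : A, Algebra.trace E F (Y * algebraMap B F x) = algebraMap A E a) :
    ∃ (k : ℕ) (β : B), algebraMap B F β =
      algebraMap A F π ^ k * (Y ^ finrank E F * algebraMap A F g ^ (finrank E F - 1)) := by
  have key := fun x hx => exists_pow_mul_eq_of_isIntegral (A := A) (B := B) AK F π x hx
  have hπu : IsUnit (algebraMap A AK π) := IsLocalization.Away.algebraMap_isUnit π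
  have hAKinj : Function.Injective (algebraMap A AK) := by
    have h : Function.Injective (algebraMap A E) := IsFractionRing.injective A E
    rw [IsScalarTower.algebraMap_eq A AK E] at h
    exact Function.Injective.of_comp h
  have hπF : algebraMap A F π ≠ 0 := by
    rw [IsScalarTower.algebraMap_apply A E F]
    simpa using (map_ne_zero_iff _ (IsFractionRing.injective A E)).mpr hπ
  have : IsDedekindDomain (integralClosure AK F) := integralClosure.isDedekindDomain AK E F
  have : IsFractionRing (integralClosure AK F) F :=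
    integralClosure.isFractionRing_of_finite_extension E F
  have hW : IsIntegral AK (Y ^ finrank E F * algebraMap AK F (algebraMap A AK g) ^ (finrank E F - 1)) := by
    refine isIntegral_pow_mul_pow_of_mem_traceDual AK E (B := integralClosure AK F) ?_
      (algebraMap A AK g) ?_ ?_ Y ?_
    · -- residue characteristic zero
      intro p hp
      refine charZero_of_inj_zero fun n hn => ?_
      by_contra hn0
      obtain ⟨k, c, hc⟩ := hchar n hn0
      have h1 : IsUnit ((n : AK)) := by
        have h2 : IsUnit (algebraMap A AK (π ^ k)) := by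
          rw [map_pow]; exact hπu.pow k
        rw [hc, map_mul, map_natCast] at h2
        exact isUnit_of_mul_isUnit_left h2
      have h3 : IsUnit ((n : AK ⧸ p)) := by
        have := h1.map (Ideal.Quotient.mk p)
        rwa [map_natCast] at this
      rw [hn] at h3
      exact not_isUnit_zero h3
    · exact (map_ne_zero_iff _ hAKinj).mpr hg0
    · -- unramifiedness
      intro P hP hP0 hgP hdvd
      have hint : ∀ b : B, algebraMap B F b ∈ integralClosure AK F := fun b =>
        ((IsIntegralClosure.isIntegral_iff (R := A) (A := B) (B := F)).mpr ⟨b, rfl⟩).tower_top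
      let φ : B →+* integralClosure AK F := (algebraMap B F).codRestrict (integralClosure AK F) hint
      have hφ : ∀ b : B, ((φ b : integralClosure AK F) : F) = algebraMap B F b := fun b => rfl
      have hφA : ∀ a : A, φ (algebraMap A B a)
          = algebraMap AK (integralClosure AK F) (algebraMap A AK a) := by
        intro a
        apply Subtype.ext
        rw [hφ, ← IsScalarTower.algebraMap_apply A B F]
        change _ = algebraMap AK F (algebraMap A AK a)
        rw [← IsScalarTower.algebraMap_apply A AK F]
      have hϖu : IsUnit (φ (algebraMap A B π)) := by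
        rw [hφA]; exact hπu.map _
      -- lifting elements of `P`
      have hlift : ∀ y : integralClosure AK F, ∃ (k : ℕ) (y' : B),
          φ y' = φ (algebraMap A B π) ^ k * y := by
        intro y
        obtain ⟨k, β, hβ⟩ := key _ y.2
        refine ⟨k, β, Subtype.ext ?_⟩
        rw [hφ, hβ]
        push_cast
        rw [hφ, ← IsScalarTower.algebraMap_apply A B F]
      have hP' : (P.comap φ).IsPrime := hP.comap φ
      have hP'0 : P.comap φ ≠ ⊥ := by
        obtain ⟨y, hyP, hy0⟩ := Submodule.exists_mem_ne_zero_of_ne_bot hP0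
        obtain ⟨k, y', hy'⟩ := hlift y
        intro hbot
        have h1 : y' ∈ P.comap φ := by
          rw [Ideal.mem_comap, hy']
          exact P.mul_mem_left _ hyP
        rw [hbot, Ideal.mem_bot] at h1
        rw [h1, map_zero] at hy'
        exact hy0 (((hϖu.pow k).mul_right_eq_zero).mp hy'.symm)
      have hπP' : algebraMap A B π ∉ P.comap φ := by
        intro h
        exact hP.ne_top (Ideal.eq_top_of_isUnit_mem _ (Ideal.mem_comap.mp h) hϖu)
      have hgP' : algebraMap A B g ∉ P.comap φ := by
        intro h
        rw [Ideal.mem_comap, hφA] at h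
        exact hgP h
      obtain ⟨a, haP, ha⟩ := hunr _ hP' hP'0 hπP' hgP'
      have haP2 : φ (algebraMap A B a) ∈ P ^ 2 := by
        apply Ideal.dvd_iff_le.mp hdvd
        rw [hφA]
        apply Ideal.mem_map_of_mem
        rw [Ideal.mem_comap, hφA] at haP
        exact haP
      obtain ⟨y, hy1, hy2⟩ := Ideal.exists_mem_pow_notMem_pow_succ P hP0 hP.ne_top 1
      rw [pow_one] at hy1
      obtain ⟨k, y', hy'⟩ := hlift y
      have hy'P : y' ∈ P.comap φ := by
        rw [Ideal.mem_comap, hy']
        exact P.mul_mem_left _ hy1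
      obtain ⟨s, hs, c, hc⟩ := ha y' hy'P
      have h2 : φ s * φ y' ∈ P ^ 2 := by
        rw [← map_mul, hc, map_mul]
        exact Ideal.mul_mem_right _ _ haP2
      rcases Ideal.IsPrime.mul_mem_pow P h2 with h3 | h3
      · exact hs h3
      · rw [hy', Ideal.unit_mul_mem_iff_mem _ (hϖu.pow k)] at h3
        exact hy2 h3
    · -- trace dual
      rw [Submodule.mem_traceDual]
      intro x hx
      obtain ⟨x', rfl⟩ := Submodule.mem_one.mp hx
      obtain ⟨k, β, hβ⟩ := key _ x'.2
      obtain ⟨a, ha⟩ := hY β
      obtain ⟨u, hu⟩ := hπu.pow k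
      refine ⟨↑u⁻¹ * algebraMap A AK a, ?_⟩
      have hc0 : algebraMap AK E (u : AK) ≠ 0 :=
        ((u.isUnit).map (algebraMap AK E)).ne_zero
      have hcF : algebraMap E F (algebraMap AK E (u : AK)) = algebraMap A F π ^ k := by
        rw [hu, map_pow, map_pow, ← IsScalarTower.algebraMap_apply A AK E,
          ← IsScalarTower.algebraMap_apply A E F]
      have h1 : Algebra.trace E F (Y * algebraMap B F β)
          = algebraMap AK E (u : AK) * Algebra.trace E F (Y * (x' : F)) := by
        rw [hβ, ← hcF, ← smul_eq_mul (algebraMap AK E (u : AK)), ← map_smul, Algebra.smul_def]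
        congr 1
        ring
      apply mul_left_cancel₀ hc0
      rw [Algebra.traceForm_apply]
      change _ = algebraMap AK E (u : AK) * Algebra.trace E F (Y * (x' : F))
      rw [← h1, ha, ← map_mul, ← mul_assoc, Units.mul_inv, one_mul,
        ← IsScalarTower.algebraMap_apply A AK E]
  obtain ⟨k, β, h⟩ := key _ hW
  refine ⟨k, β, ?_⟩
  rw [h, ← IsScalarTower.algebraMap_apply A AK F]

end Fermat.Agent.GoodRed
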