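/-
GRC-R4b: instantiation of GRC-R4a with `AK = Localization.Away π`.  Owner: helper164.
-/
import Mathlib
import Fermat.Agent.Lib.GoodRed.GRCGenericAux
set_option autoImplicit false
namespace Fermat.Agent.GoodRed
open Module

theorem exists_pow_mul_eq_of_trace_mem
    {A B : Type*} [CommRing A] [IsDomain A] [CommRing B] [Algebra A B]
    (E F : Type*) [Field E] [Algebra A E] [IsFractionRing A E]
    [Field F] [Algebra E F] [Algebra A F] [IsScalarTower A E F]
    [FiniteDimensional E F] [Algebra.IsSeparable E F]
    [Algebra B F] [IsScalarTower A B F] [IsIntegralClosure B A F]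
    (π g : A) (hπ : π ≠ 0) (hg0 : g ≠ 0)
    (hAK : IsDedekindDomain (Localization.Away π))
    (hchar : ∀ n : ℕ, n ≠ 0 → ∃ k : ℕ, (n : A) ∣ π ^ k)
    (hunr : ∀ P : Ideal B, P.IsPrime → P ≠ ⊥ → algebraMap A B π ∉ P → algebraMap A B g ∉ P →
      ∃ a : A, algebraMap A B a ∈ P ∧ ∀ y ∈ P, ∃ s : B, s ∉ P ∧ algebraMap A B a ∣ s * y)
    (Y : F) (hY : ∀ x : B, ∃ a : A, Algebra.trace E F (Y * algebraMap B F x) = algebraMap A E a) :
    ∃ (k : ℕ) (β : B), algebraMap B F β =
      algebraMap A F π ^ k * (Y ^ finrank E F * algebraMap A F g ^ (finrank E F - 1)) := by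
  have hu : IsUnit (algebraMap A E π) :=
    (IsUnit.mk0 _ ((map_ne_zero_iff _ (IsFractionRing.injective A E)).mpr hπ))
  let i1 : Algebra (Localization.Away π) E :=
    (IsLocalization.Away.lift (S := Localization.Away π) π hu).toAlgebra
  have t1 : IsScalarTower A (Localization.Away π) E :=
    IsScalarTower.of_algebraMap_eq fun a =>
      (IsLocalization.Away.lift_eq (S := Localization.Away π) π hu a).symm
  have f1 : IsFractionRing (Localization.Away π) E :=
    IsFractionRing.isFractionRing_of_isDomain_of_isLocalization (Submonoid.powers π) _ _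
  let i2 : Algebra (Localization.Away π) F :=
    ((algebraMap E F).comp (algebraMap (Localization.Away π) E)).toAlgebra
  have t2 : IsScalarTower (Localization.Away π) E F :=
    IsScalarTower.of_algebraMap_eq fun _ => rfl
  have t3 : IsScalarTower A (Localization.Away π) F :=
    IsScalarTower.of_algebraMap_eq fun a => by
      change algebraMap A F a = algebraMap E F (algebraMap (Localization.Away π) E
        (algebraMap A (Localization.Away π) a))
      rw [← IsScalarTower.algebraMap_apply A (Localization.Away π) E,
        ← IsScalarTower.algebraMap_apply A E F]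
  exact exists_pow_mul_eq_of_trace_mem_aux (Localization.Away π) E F π g hπ hg0 hchar hunr Y hY

end Fermat.Agent.GoodRed
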