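import Mathlib
set_option autoImplicit false
namespace Fermat.Agent.GoodRed
open Module

theorem exists_trace_eq
    {A B : Type*} [CommRing A] [IsDomain A] [IsIntegrallyClosed A] [CommRing B] [Algebra A B]
    (E F : Type*) [Field E] [Algebra A E] [IsFractionRing A E]
    [Field F] [Algebra E F] [Algebra A F] [IsScalarTower A E F]
    [FiniteDimensional E F] [Algebra B F] [IsScalarTower A B F] [IsIntegralClosure B A F] (x : B) :
    ∃ a : A, Algebra.trace E F (algebraMap B F x) = algebraMap A E a := by
  have h1 : IsIntegral A (algebraMap B F x) :=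
    (IsIntegralClosure.isIntegral A F x).algebraMap
  have h2 : IsIntegral A (Algebra.trace E F (algebraMap B F x)) := Algebra.isIntegral_trace h1
  obtain ⟨a, ha⟩ := IsIntegrallyClosed.isIntegral_iff.mp h2
  exact ⟨a, ha.symm⟩

theorem trace_reduction
    {A B : Type*} [CommRing A] [IsDomain A] [CommRing B] [Algebra A B]
    (E F : Type*) [Field E] [Algebra A E] [IsFractionRing A E]
    [Field F] [Algebra E F] [Algebra A F] [IsScalarTower A E F]
    [Algebra B F] [IsScalarTower A B F]
    {At Bt : Type*} [CommRing At] [CommRing Bt]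
    [Algebra A At] [Algebra B Bt] [Algebra At Bt] [Algebra A Bt]
    [IsScalarTower A At Bt] [IsScalarTower A B Bt]
    {m : ℕ} (b : Fin m → B) (bF : Basis (Fin m) E F)
    (bt : Basis (Fin m) At Bt) (s : A)
    (hbF : ∀ i, bF i = algebraMap B F (b i)) (hbt : ∀ i, bt i = algebraMap B Bt (b i))
    (hs : algebraMap A At s = 1) (hsB : ∀ x : B, ∃ c : Fin m → A, s • x = ∑ i, c i • b i)
    (x : B) (a : A) (ha : Algebra.trace E F (algebraMap B F x) = algebraMap A E a) :
    Algebra.trace At Bt (algebraMap B Bt x) = algebraMap A At a := by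
  classical
  choose c hc using fun j => hsB (x * b j)
  -- the identity in `F`
  have hF : ∀ j, algebraMap A E s • (algebraMap B F x * bF j) =
      ∑ i, algebraMap A E (c j i) • bF i := by
    intro j
    have h := congrArg (algebraMap B F) (hc j)
    rw [Algebra.smul_def, map_mul, map_mul, map_sum, ← IsScalarTower.algebraMap_apply,
      IsScalarTower.algebraMap_apply A E F] at h
    rw [Algebra.smul_def, hbF j, h]
    refine Finset.sum_congr rfl fun i _ => ?_
    rw [Algebra.smul_def, map_mul, ← IsScalarTower.algebraMap_apply,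
      IsScalarTower.algebraMap_apply A E F, Algebra.smul_def, hbF i]
  have hFr : ∀ j i, algebraMap A E s * bF.repr (algebraMap B F x * bF j) i =
      algebraMap A E (c j i) := by
    intro j i
    have h := congrArg (fun z => bF.repr z i) (hF j)
    simp only [map_smul, Finsupp.smul_apply, smul_eq_mul] at h
    rw [h, Basis.repr_sum_self]
  have h1 : algebraMap A E (s * a) = algebraMap A E (∑ j, c j j) := by
    rw [map_mul, ← ha, Algebra.trace_eq_matrix_trace bF, Matrix.trace, Finset.mul_sum, map_sum]
    refine Finset.sum_congr rfl fun j _ => ?_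
    rw [Matrix.diag_apply, Algebra.leftMulMatrix_eq_repr_mul, hFr]
  have h2 : s * a = ∑ j, c j j := IsFractionRing.injective A E h1
  -- the identity in `Bt`
  have hT : ∀ j, algebraMap B Bt x * bt j = ∑ i, algebraMap A At (c j i) • bt i := by
    intro j
    have h := congrArg (algebraMap B Bt) (hc j)
    rw [Algebra.smul_def, map_mul, map_mul, map_sum, ← IsScalarTower.algebraMap_apply,
      IsScalarTower.algebraMap_apply A At Bt, hs, map_one, one_mul] at h
    rw [hbt j, h]
    refine Finset.sum_congr rfl fun i _ => ?_
    rw [Algebra.smul_def, map_mul, ← IsScalarTower.algebraMap_apply,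
      IsScalarTower.algebraMap_apply A At Bt, Algebra.smul_def, hbt i]
  have hTr : ∀ j i, bt.repr (algebraMap B Bt x * bt j) i = algebraMap A At (c j i) := by
    intro j i
    rw [hT j, Basis.repr_sum_self]
  rw [Algebra.trace_eq_matrix_trace bt, Matrix.trace]
  have h3 : algebraMap A At a = algebraMap A At (s * a) := by rw [map_mul, hs, one_mul]
  rw [h3, h2, map_sum]
  refine Finset.sum_congr rfl fun j _ => ?_
  rw [Matrix.diag_apply, Algebra.leftMulMatrix_eq_repr_mul, hTr]

end Fermat.Agent.GoodRed
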