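import Mathlib
set_option autoImplicit false
namespace Fermat.Agent.GoodRed
open Polynomial nonZeroDivisors Module
attribute [local instance] FractionRing.liftAlgebra FractionRing.isScalarTower_liftAlgebra Ideal.Quotient.field
variable (A K : Type*) {L B : Type*} [CommRing A] [Field K] [CommRing B] [Field L]
  [Algebra A K] [Algebra B L] [Algebra A B] [Algebra K L] [Algebra A L]
  [IsScalarTower A K L] [IsScalarTower A B L]
  [IsDedekindDomain A] [IsFractionRing A K] [IsDedekindDomain B] [IsFractionRing B L]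
  [FiniteDimensional K L] [Algebra.IsSeparable K L] [IsIntegralClosure B A L]

/-- Pure order arithmetic in `ℤᵐ⁰`: the rounding step. -/
theorem wild_arith (a b c : WithZero (Multiplicative ℤ)) (n e : ℕ) (hn : n ≠ 0) (he : e ≠ 0)
    (h1 : a ^ n * b ^ (n - 1) ≤ 1) (hb : WithZero.exp (-((e + 1 : ℕ) : ℤ)) < b)
    (hc : c ≤ WithZero.exp (-((e - 1 : ℕ) : ℤ))) : a * c ≤ 1 := by
  by_cases ha : a = 0
  · simp [ha]
  by_cases hc0 : c = 0
  · simp [hc0]
  have hb0 : b ≠ 0 := by
    rintro rfl
    exact absurd hb (by simp)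
  obtain ⟨α, rfl⟩ : ∃ α, a = WithZero.exp α := ⟨WithZero.log a, (WithZero.exp_log ha).symm⟩
  obtain ⟨β, rfl⟩ : ∃ β, b = WithZero.exp β := ⟨WithZero.log b, (WithZero.exp_log hb0).symm⟩
  obtain ⟨γ, rfl⟩ : ∃ γ, c = WithZero.exp γ := ⟨WithZero.log c, (WithZero.exp_log hc0).symm⟩
  rw [← WithZero.exp_nsmul, ← WithZero.exp_nsmul, ← WithZero.exp_add, ← WithZero.exp_zero,
    WithZero.exp_le_exp] at h1
  rw [WithZero.exp_lt_exp] at hb
  rw [WithZero.exp_le_exp] at hc
  rw [← WithZero.exp_add, ← WithZero.exp_zero, WithZero.exp_le_exp]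
  obtain ⟨m, rfl⟩ : ∃ m, n = m + 1 := ⟨n - 1, by omega⟩
  obtain ⟨f, rfl⟩ : ∃ f, e = f + 1 := ⟨e - 1, by omega⟩
  simp only [Nat.add_sub_cancel, nsmul_eq_mul] at h1 hc
  push_cast at h1 hb
  by_contra hcon
  push Not at hcon
  have h2 : (f : ℤ) + 1 ≤ α := by omega
  have h3 : -((f : ℤ) + 1) ≤ β := by omega
  have h4 : ((m : ℤ) + 1) * ((f : ℤ) + 1) ≤ ((m : ℤ) + 1) * α :=
    mul_le_mul_of_nonneg_left h2 (by positivity)
  have h5 : (m : ℤ) * (-((f : ℤ) + 1)) ≤ (m : ℤ) * β :=
    mul_le_mul_of_nonneg_left h3 (by positivity)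
  nlinarith

open IsDedekindDomain HeightOneSpectrum WithZero in
theorem mem_traceDual_of_isIntegral_pow_mul_pow
    (g : A) (hg : Squarefree (Ideal.span {g})) (n : ℕ) (hn : n ≠ 0)
    (y : L) (hy : IsIntegral A (y ^ n * algebraMap A L g ^ (n - 1))) :
    y ∈ Submodule.traceDual A K (1 : Submodule B L) := by
  have hinjAL : Function.Injective (algebraMap A L) := by
    rw [IsScalarTower.algebraMap_eq A K L]
    exact (algebraMap K L).injective.comp (IsFractionRing.injective A K)
  have hinj : Function.Injective (algebraMap A B) := by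
    intro a b hab
    apply hinjAL
    rw [IsScalarTower.algebraMap_apply A B L, hab, ← IsScalarTower.algebraMap_apply A B L]
  have : FaithfulSMul A B := (faithfulSMul_iff_algebraMap_injective A B).mpr hinj
  have : IsTorsionFree A B := inferInstance
  have : Module.Finite A B := IsIntegralClosure.finite A K L B
  have hg0 : g ≠ 0 := by
    rintro rfl
    apply not_squarefree_zero (R := Ideal A)
    simpa using hg
  have hD0 : (↑(differentIdeal A B) : FractionalIdeal B⁰ L) ≠ 0 := by
    rw [coeIdeal_differentIdeal A K L B]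
    exact inv_ne_zero (FractionalIdeal.dual_ne_zero A K one_ne_zero)
  rw [← FractionalIdeal.coe_dual_one, FractionalIdeal.mem_coe]
  have h1 : FractionalIdeal.dual A K (1 : FractionalIdeal B⁰ L)
      = (↑(differentIdeal A B) : FractionalIdeal B⁰ L)⁻¹ := by
    rw [coeIdeal_differentIdeal A K L B, inv_inv]
  rw [h1, FractionalIdeal.mem_inv_iff hD0]
  intro d' hd'
  obtain ⟨d, hd, rfl⟩ := (FractionalIdeal.mem_coeIdeal _).mp hd'
  rw [FractionalIdeal.mem_one_iff]
  obtain ⟨z, hz⟩ := (IsIntegralClosure.isIntegral_iff (A := B)).mp hy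
  suffices h : y * algebraMap B L d ∈ (algebraMap B L).range by
    obtain ⟨w, hw⟩ := h
    exact ⟨w, hw⟩
  apply mem_integers_of_valuation_le_one
  intro Q
  have hzQ : Q.valuation L y ^ n * Q.valuation L (algebraMap B L (algebraMap A B g)) ^ (n - 1)
      ≤ 1 := by
    rw [← map_pow, ← map_pow, ← map_mul, ← IsScalarTower.algebraMap_apply A B L, ← hz]
    exact valuation_le_one _ _
  rw [map_mul]
  by_cases hgQ : algebraMap A B g ∈ Q.asIdeal
  · -- the prime below
    set q : Ideal A := Q.asIdeal.comap (algebraMap A B) with hq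
    have hgq : g ∈ q := hgQ
    have hqprime : q.IsPrime := Ideal.comap_isPrime _ _
    have hq0 : q ≠ ⊥ := fun h => hg0 (by simpa [h] using hgq)
    have hqmax : q.IsMaximal := hqprime.isMaximal hq0
    have hmap0 : q.map (algebraMap A B) ≠ 0 := by
      rw [Ideal.zero_eq_bot, Ne, Ideal.map_eq_bot_iff_of_injective hinj]
      exact hq0
    obtain ⟨e, J', hJ', hI⟩ := WfDvdMonoid.max_power_factor hmap0 Q.irreducible
    obtain ⟨J, hJ⟩ : q ∣ Ideal.span {g} := by
      rw [Ideal.dvd_span_singleton]; exact hgq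
    have hqJ : ¬ q ∣ J := by
      rintro ⟨J2, rfl⟩
      have := hg q ⟨J2, by rw [hJ, mul_assoc]⟩
      exact hqprime.ne_top (Ideal.isUnit_iff.mp this)
    have hQJ : ¬ Q.asIdeal ∣ J.map (algebraMap A B) := by
      intro h
      apply hqJ
      rw [Ideal.dvd_iff_le] at h ⊢
      exact Ideal.map_le_iff_le_comap.mp h
    have hQq : Q.asIdeal ∣ q.map (algebraMap A B) := by
      rw [Ideal.dvd_iff_le]
      exact Ideal.map_comap_le
    have he : e ≠ 0 := by
      rintro rfl
      apply hJ'
      simpa [hI] using hQq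
    have hspan : Ideal.span {algebraMap A B g} = Q.asIdeal ^ e * (J' * J.map (algebraMap A B)) := by
      rw [← Set.image_singleton, ← Ideal.map_span, hJ, Ideal.map_mul, hI, mul_assoc]
    have hnd : ¬ Q.asIdeal ^ (e + 1) ∣ Ideal.span {algebraMap A B g} := by
      rw [hspan, pow_succ]
      intro h
      have h' := (mul_dvd_mul_iff_left (pow_ne_zero e Q.ne_bot)).mp h
      rcases Q.prime.dvd_or_dvd h' with h'' | h''
      · exact hJ' h''
      · exact hQJ h''
    have hb : exp (-((e + 1 : ℕ) : ℤ)) < Q.valuation L (algebraMap B L (algebraMap A B g)) := by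
      rw [valuation_of_algebraMap]
      exact not_le.mp (fun h => hnd ((intValuation_le_pow_iff_dvd _ _ _).mp h))
    have hdiff : Q.asIdeal ^ (e - 1) ∣ differentIdeal A B :=
      pow_sub_one_dvd_differentIdeal_aux A K L Q.asIdeal he hq0 ⟨J', hI⟩
    have hc : Q.valuation L (algebraMap B L d) ≤ exp (-((e - 1 : ℕ) : ℤ)) := by
      rw [valuation_of_algebraMap, intValuation_le_pow_iff_mem]
      exact (Ideal.dvd_iff_le.mp hdiff) hd
    exact wild_arith _ _ _ n e hn he hzQ hb hc
  · have h2 : Q.valuation L (algebraMap B L (algebraMap A B g)) = 1 :=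
      (valuation_eq_one_iff_notMem Q).mpr hgQ
    rw [h2, one_pow, mul_one] at hzQ
    have h3 : Q.valuation L y ≤ 1 := (pow_le_one_iff_of_nonneg zero_le hn).mp hzQ
    exact mul_le_one' h3 (valuation_le_one _ _)

end Fermat.Agent.GoodRed
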