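import Mathlib
import Fermat.Agent.Lib.GoodRed.Wild
import Fermat.Agent.Lib.GoodRed.DoubleDual
import Fermat.Agent.Lib.GoodRed.GRCBasis
import Fermat.Agent.Lib.GoodRed.GRCTrace
import Fermat.Agent.Lib.GoodRed.GRCDiscr
import Fermat.Agent.Lib.GoodRed.GRCGeneric

set_option autoImplicit false
namespace Fermat.Agent.GoodRed
open Polynomial nonZeroDivisors Module

/-- Cramer's rule for the trace form, with the Gram matrix defined over a ring `R → K`. -/
theorem det_smul_eq_sum_of_trace {R K L ι : Type*} [CommRing R] [Field K] [Field L]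
    [Algebra R K] [Algebra K L]
    [FiniteDimensional K L] [Algebra.IsSeparable K L] [Fintype ι] [DecidableEq ι]
    (b : Basis ι K L) (G : Matrix ι ι R)
    (hG : ∀ i j, Algebra.trace K L (b i * b j) = algebraMap R K (G i j))
    (y : L) (c : ι → R) (hc : ∀ j, Algebra.trace K L (y * b j) = algebraMap R K (c j)) :
    algebraMap R K G.det • y = ∑ j, algebraMap R K ((G.adjugate.mulVec c) j) • b j := by
  have hnd := traceForm_nondegenerate K L
  rw [← sub_eq_zero]
  apply hnd.1
  intro z
  have key : Algebra.traceForm K L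
      (algebraMap R K G.det • y - ∑ j, algebraMap R K ((G.adjugate.mulVec c) j) • b j) = 0 := by
    apply b.ext
    intro i
    simp only [map_sub, map_smul, map_sum, LinearMap.sub_apply, LinearMap.smul_apply,
      LinearMap.sum_apply, Algebra.traceForm_apply, LinearMap.zero_apply, smul_eq_mul]
    rw [hc i, sub_eq_zero]
    have h1 : ∀ j, Algebra.trace K L (b j * b i) = algebraMap R K (G i j) := by
      intro j; rw [mul_comm]; exact hG i j
    simp only [h1, ← map_mul, ← map_sum]
    congr 1
    have h2 : G.mulVec (G.adjugate.mulVec c) = G.det • c := by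
      rw [Matrix.mulVec_mulVec, Matrix.mul_adjugate, Matrix.smul_mulVec, Matrix.one_mulVec]
    have h3 := congrFun h2 i
    simp only [Matrix.mulVec, dotProduct, Pi.smul_apply, smul_eq_mul] at h3
    rw [← h3]
    exact Finset.sum_congr rfl fun j _ => mul_comm _ _
  rw [key]; rfl

/-- If `π ^ k * W` and `d ^ n * W` lie in `B`, `π` prime in `B` not dividing `d`, then `W ∈ B`. -/
theorem exists_eq_of_pow_mul_of_pow_mul {B F : Type*} [CommRing B] [Field F] [Algebra B F]
    (hinj : Function.Injective (algebraMap B F)) (p d : B) (hp : Prime p) (hd : ¬ p ∣ d)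
    (k n : ℕ) (W : F) (β γ : B) (hβ : algebraMap B F β = algebraMap B F p ^ k * W)
    (hγ : algebraMap B F γ = algebraMap B F d ^ n * W) :
    ∃ w : B, algebraMap B F w = W := by
  have : IsDomain B := hinj.isDomain _
  have h1 : d ^ n * β = p ^ k * γ := by
    apply hinj
    simp only [map_mul, map_pow, hβ, hγ]; ring
  have h2 : p ^ k ∣ β := by
    apply hp.pow_dvd_of_dvd_mul_left k (a := d ^ n)
    · exact fun h => hd (hp.dvd_of_dvd_pow h)
    · exact ⟨γ, h1⟩
  obtain ⟨w, rfl⟩ := h2
  refine ⟨w, ?_⟩
  have hp0 : algebraMap B F p ^ k ≠ 0 :=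
    pow_ne_zero _ (fun h => hp.ne_zero (hinj (by rw [h, map_zero])))
  apply mul_left_cancel₀ hp0
  rw [← hβ, map_mul, map_pow]


/-- Main step: an element of the trace dual of `Bt` has `yt ^ n * gt ^ (n - 1) ∈ Bt`. -/
theorem exists_eq_pow_mul_pow_of_reduction
    {A B : Type*} [CommRing A] [IsDomain A] [IsIntegrallyClosed A]
    [CommRing B] [Algebra A B]
    (E F : Type*) [Field E] [Algebra A E] [IsFractionRing A E]
    [Field F] [Algebra E F] [Algebra A F] [IsScalarTower A E F]
    [FiniteDimensional E F] [Algebra.IsSeparable E F]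
    [Algebra B F] [IsScalarTower A B F] [IsIntegralClosure B A F]
    {At Bt : Type*} [CommRing At] [IsDomain At] [CommRing Bt] [IsDomain Bt]
    [Algebra A At] [Algebra B Bt] [Algebra At Bt] [Algebra A Bt]
    [IsScalarTower A At Bt] [IsScalarTower A B Bt]
    (kt Ft : Type*) [Field kt] [Field Ft] [Algebra At kt] [IsFractionRing At kt]
    [Algebra Bt Ft] [IsFractionRing Bt Ft] [Algebra kt Ft] [Algebra At Ft]
    [IsScalarTower At kt Ft] [IsScalarTower At Bt Ft]
    [FiniteDimensional kt Ft] [Algebra.IsSeparable kt Ft]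
    (π g : A) (hπB : Prime (algebraMap A B π))
    (hAs : Function.Surjective (algebraMap A At))
    (hBk : ∀ b : B, algebraMap B Bt b = 0 ↔ algebraMap A B π ∣ b)
    (hinj : Function.Injective (algebraMap At Bt))
    {m : ℕ} (b : Fin m → B) (bF : Basis (Fin m) E F) (bt : Basis (Fin m) At Bt)
    (btF : Basis (Fin m) kt Ft) (s : A)
    (hbF : ∀ i, bF i = algebraMap B F (b i)) (hbt : ∀ i, bt i = algebraMap B Bt (b i))
    (hbtF : ∀ i, btF i = algebraMap Bt Ft (bt i))
    (hs : algebraMap A At s = 1) (hsB : ∀ x : B, ∃ c : Fin m → A, s • x = ∑ i, c i • b i)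
    (htr : ∀ (x : B) (a : A), Algebra.trace E F (algebraMap B F x) = algebraMap A E a →
      Algebra.trace At Bt (algebraMap B Bt x) = algebraMap A At a)
    (htrF : ∀ x : Bt, Algebra.trace kt Ft (algebraMap Bt Ft x) =
      algebraMap At kt (Algebra.trace At Bt x))
    (hd : Algebra.discr At bt ≠ 0) (n : ℕ)
    (hgen : ∀ Y : F,
      (∀ x : B, ∃ a : A, Algebra.trace E F (Y * algebraMap B F x) = algebraMap A E a) →
      ∃ (k : ℕ) (β : B), algebraMap B F β =
        algebraMap A F π ^ k * (Y ^ n * algebraMap A F g ^ (n - 1)))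
    (yt : Ft) (hyt : ∀ j, ∃ ct : At, Algebra.trace kt Ft (yt * btF j) = algebraMap At kt ct) :
    ∃ w : Bt, algebraMap Bt Ft w = yt ^ n * algebraMap At Ft (algebraMap A At g) ^ (n - 1) := by
  classical
  have hBF : Function.Injective (algebraMap B F) := IsIntegralClosure.algebraMap_injective B A F
  choose ct hct using hyt
  choose c hcc using fun j => hAs (ct j)
  choose G hG using fun (i j : Fin m) => exists_trace_eq (A := A) E F (b i * b j)
  let GM : Matrix (Fin m) (Fin m) A := Matrix.of G
  -- the Gram matrix reduces to the Gram matrix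
  have hGt : ∀ i j, Algebra.trace At Bt (bt i * bt j) = algebraMap A At (GM i j) := by
    intro i j
    rw [hbt, hbt, ← map_mul]
    exact htr _ _ (hG i j)
  have hdet : algebraMap A At GM.det = Algebra.discr At bt := by
    rw [Algebra.discr_def, RingHom.map_det]
    congr 1
    ext i j
    simp only [RingHom.mapMatrix_apply, Matrix.map_apply, Algebra.traceMatrix_apply,
      Algebra.traceForm_apply, hGt]
  let u : Fin m → A := GM.adjugate.mulVec c
  let Z : B := ∑ j, u j • b j
  let Y0 : F := ∑ j, algebraMap A E (c j) • bF.traceDual j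
  have hY0 : ∀ j, Algebra.trace E F (Y0 * bF j) = algebraMap A E (c j) := by
    intro j
    simp only [Y0, Finset.sum_mul, map_sum, smul_mul_assoc, map_smul, Basis.trace_traceDual_mul,
      smul_eq_mul, mul_ite, mul_one, mul_zero, Finset.sum_ite_eq, Finset.mem_univ, if_true]
  have hZ : algebraMap A E GM.det • Y0 = algebraMap B F Z := by
    rw [det_smul_eq_sum_of_trace bF GM (fun i j => by rw [hbF, hbF, ← map_mul]; exact hG i j)
      Y0 c hY0]
    simp only [Z, map_sum, hbF, u, Algebra.smul_def, map_mul,
      ← IsScalarTower.algebraMap_apply A B F, ← IsScalarTower.algebraMap_apply A E F]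
  -- compatibility of the various maps `A → Ft`
  have hAFt : ∀ a : A, algebraMap Bt Ft (algebraMap B Bt (algebraMap A B a)) =
      algebraMap kt Ft (algebraMap At kt (algebraMap A At a)) := by
    intro a
    rw [← IsScalarTower.algebraMap_apply A B Bt, IsScalarTower.algebraMap_apply A At Bt,
      ← IsScalarTower.algebraMap_apply At Bt Ft, IsScalarTower.algebraMap_apply At kt Ft]
  -- the same identity in `Ft`
  have hZt : algebraMap At kt (Algebra.discr At bt) • yt =
      algebraMap Bt Ft (algebraMap B Bt Z) := by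
    have h := det_smul_eq_sum_of_trace btF ((algebraMap A At).mapMatrix GM)
      (fun i j => by
        rw [hbtF, hbtF, ← map_mul, htrF, hGt]; rfl)
      yt (fun j => algebraMap A At (c j)) (fun j => by rw [hct, hcc])
    rw [← RingHom.map_det, hdet] at h
    rw [h]
    simp only [Z, map_sum, Algebra.smul_def, map_mul, hAFt, hbtF, hbt]
    refine Finset.sum_congr rfl fun j _ => ?_
    congr 3
    rw [← RingHom.map_adjugate]
    exact (RingHom.map_mulVec (algebraMap A At) GM.adjugate c j).symm
  let Y : F := algebraMap A F s * Y0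
  have hY : ∀ x : B, ∃ a : A,
      Algebra.trace E F (Y * algebraMap B F x) = algebraMap A E a := by
    intro x
    obtain ⟨c', hc'⟩ := hsB x
    refine ⟨∑ i, c' i * c i, ?_⟩
    have h1 : algebraMap A F s * algebraMap B F x = ∑ i, algebraMap A E (c' i) • bF i := by
      have := congrArg (algebraMap B F) hc'
      simpa only [Algebra.smul_def, map_mul, map_sum, hbF,
        ← IsScalarTower.algebraMap_apply A B F, ← IsScalarTower.algebraMap_apply A E F] using this
    have h2 : Y * algebraMap B F x = ∑ i, algebraMap A E (c' i) • (Y0 * bF i) := by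
      calc Y * algebraMap B F x = Y0 * (algebraMap A F s * algebraMap B F x) := by
            simp only [Y]; ring
        _ = _ := by rw [h1, Finset.mul_sum]; simp only [mul_smul_comm]
    rw [h2, map_sum]
    simp only [map_smul, hY0, smul_eq_mul, map_sum, map_mul]
  obtain ⟨k, β, hβ⟩ := hgen Y hY
  let γ : B := (algebraMap A B s * Z) ^ n * algebraMap A B g ^ (n - 1)
  have hγ : algebraMap B F γ = algebraMap B F (algebraMap A B GM.det) ^ n *
      (Y ^ n * algebraMap A F g ^ (n - 1)) := by
    simp only [γ, map_mul, map_pow, ← hZ, Y, Algebra.smul_def,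
      ← IsScalarTower.algebraMap_apply A B F, ← IsScalarTower.algebraMap_apply A E F]
    ring
  have hdB : ¬ algebraMap A B π ∣ algebraMap A B GM.det := by
    rw [← hBk, ← IsScalarTower.algebraMap_apply A B Bt, IsScalarTower.algebraMap_apply A At Bt,
      hdet]
    exact fun h => hd (hinj (by rw [h, map_zero]))
  obtain ⟨w, hw⟩ := exists_eq_of_pow_mul_of_pow_mul hBF _ _ hπB hdB k n _ β γ
    (by rw [hβ, ← IsScalarTower.algebraMap_apply]) hγ
  refine ⟨algebraMap B Bt w, ?_⟩
  have h1 : algebraMap A B GM.det ^ n * w = γ := hBF (by rw [map_mul, map_pow, hw, hγ])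
  have h2 := congrArg (fun z => algebraMap Bt Ft (algebraMap B Bt z)) h1
  simp only [γ, map_mul, map_pow, hAFt, ← hZt, hs, hdet, map_one, one_mul,
    Algebra.smul_def] at h2
  have hd' : algebraMap kt Ft (algebraMap At kt (Algebra.discr At bt)) ^ n ≠ 0 := by
    apply pow_ne_zero
    intro h
    apply hd
    apply IsFractionRing.injective At kt
    apply (algebraMap kt Ft).injective
    rw [h, map_zero, map_zero]
  apply mul_left_cancel₀ hd'
  rw [h2, IsScalarTower.algebraMap_apply At kt Ft]
  ring


/-- GRC with the reductions `At = A/π`, `Bt = B/π` and their fraction fields given abstractly. -/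
theorem isIntegrallyClosed_of_reduction
    {A B : Type*} [CommRing A] [IsDomain A] [IsNoetherianRing A] [IsIntegrallyClosed A]
    [CommRing B] [Algebra A B]
    (E F : Type*) [Field E] [Algebra A E] [IsFractionRing A E]
    [Field F] [Algebra E F] [Algebra A F] [IsScalarTower A E F]
    [FiniteDimensional E F] [Algebra.IsSeparable E F]
    [Algebra B F] [IsScalarTower A B F] [IsIntegralClosure B A F]
    {At Bt : Type*} [CommRing At] [IsDomain At] [IsPrincipalIdealRing At]
    [CommRing Bt] [IsDomain Bt]
    [Algebra A At] [Algebra B Bt] [Algebra At Bt] [Algebra A Bt]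
    [IsScalarTower A At Bt] [IsScalarTower A B Bt]
    (kt Ft : Type*) [Field kt] [Field Ft] [Algebra At kt] [IsFractionRing At kt]
    [Algebra Bt Ft] [IsFractionRing Bt Ft] [Algebra kt Ft] [Algebra At Ft]
    [IsScalarTower At kt Ft] [IsScalarTower At Bt Ft]
    (π g : A) (hπ : π ≠ 0)
    (hAs : Function.Surjective (algebraMap A At))
    (hAk : ∀ a : A, algebraMap A At a = 0 ↔ π ∣ a)
    (hBs : Function.Surjective (algebraMap B Bt))
    (hBk : ∀ b : B, algebraMap B Bt b = 0 ↔ algebraMap A B π ∣ b)
    (hAK : IsDedekindDomain (Localization.Away π))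
    (hchar : ∀ n : ℕ, n ≠ 0 → ∃ k : ℕ, (n : A) ∣ π ^ k)
    (hπB : Prime (algebraMap A B π))
    (hsep : ∀ y : B, (∀ z : B, ∃ a : A,
        Algebra.trace E F (algebraMap B F (y * z)) = algebraMap A E (π * a)) →
      algebraMap A B π ∣ y)
    (hg : Squarefree (algebraMap A At g))
    (hunr : ∀ P : Ideal B, P.IsPrime → P ≠ ⊥ → algebraMap A B π ∉ P → algebraMap A B g ∉ P →
      ∃ a : A, algebraMap A B a ∈ P ∧ ∀ y ∈ P, ∃ s : B, s ∉ P ∧ algebraMap A B a ∣ s * y) :
    IsIntegrallyClosed Bt := by
  classical
  obtain ⟨m, b, bF, bt, s, hbF, hbt, hs, hsB⟩ :=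
    exists_lift_basis (A := A) (B := B) (At := At) (Bt := Bt) E F π hπ hAs hAk hBs hBk
  have htr := trace_reduction (A := A) (B := B) (At := At) (Bt := Bt) E F b bF bt s hbF hbt hs hsB
  have hd : Algebra.discr At bt ≠ 0 :=
    discr_reduction_ne_zero (A := A) (B := B) E F π hAk hBs hBk (exists_trace_eq E F) htr hsep bt
  have hinj : Function.Injective (algebraMap At Bt) :=
    algebraMap_quot_injective (A := A) (B := B) E F π hπ hAs hAk hBk
  have hg0 : g ≠ 0 := by
    rintro rfl
    rw [map_zero] at hg
    exact not_squarefree_zero hg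
  have : FaithfulSMul At Bt := (faithfulSMul_iff_algebraMap_injective At Bt).mpr hinj
  have : Module.Finite At Bt := Module.Finite.of_basis bt
  have : Module.Free At Bt := Module.Free.of_basis bt
  have : Algebra.IsIntegral At Bt := inferInstance
  let btF : Basis (Fin m) kt Ft := bt.localizationLocalization kt At⁰ Ft
  have hbtF : ∀ i, btF i = algebraMap Bt Ft (bt i) :=
    fun i => Basis.localizationLocalization_apply kt At⁰ Ft bt i
  have hdF : Algebra.discr kt btF ≠ 0 := by
    rw [Algebra.discr_localizationLocalization At At⁰ Ft bt]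
    exact fun h => hd (IsFractionRing.injective At kt (by rw [h, map_zero]))
  have : Algebra.IsSeparable kt Ft := isSeparable_of_discr_ne_zero btF hdF
  have : FiniteDimensional kt Ft := Module.Finite.of_basis btF
  have htrF : ∀ x : Bt, Algebra.trace kt Ft (algebraMap Bt Ft x) =
      algebraMap At kt (Algebra.trace At Bt x) := fun x => Algebra.trace_localization At At⁰ x
  have hn : finrank E F ≠ 0 := (finrank_pos (R := E) (M := F)).ne'
  have hmain : ∀ yt : Ft,
      (∀ j, ∃ ct : At, Algebra.trace kt Ft (yt * btF j) = algebraMap At kt ct) →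
      IsIntegral At
        (yt ^ finrank E F * algebraMap At Ft (algebraMap A At g) ^ (finrank E F - 1)) := by
    intro yt hyt
    obtain ⟨w, hw⟩ := exists_eq_pow_mul_pow_of_reduction (A := A) (B := B) E F kt Ft π g hπB hAs
      hBk hinj b bF bt btF s hbF hbt hbtF hs hsB htr htrF hd (finrank E F)
      (fun Y hY => exists_pow_mul_eq_of_trace_mem E F π g hπ hg0 hAK hchar hunr Y hY) yt hyt
    rw [← hw]
    exact (Algebra.IsIntegral.isIntegral (R := At) w).algebraMap
  have : IsDedekindDomain (integralClosure At Ft) := integralClosure.isDedekindDomain At kt Ft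
  have : IsFractionRing (integralClosure At Ft) Ft :=
    integralClosure.isFractionRing_of_finite_extension kt Ft
  rw [isIntegrallyClosed_iff Ft]
  intro x hx
  have hx' : IsIntegral At x := isIntegral_trans x hx
  let N : Submodule At Ft := Subalgebra.toSubmodule (integralClosure At Ft)
  have hN : N ≤ Submodule.span At (Set.range btF) := by
    apply le_of_traceDual_le_traceDual At kt btF N
    intro yt hyt
    rw [Submodule.mem_traceDual] at hyt ⊢
    have h1 : yt ∈ Submodule.traceDual At kt (1 : Submodule (integralClosure At Ft) Ft) := by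
      apply mem_traceDual_of_isIntegral_pow_mul_pow At kt (algebraMap A At g)
        (squarefree_span_singleton _ hg) (finrank E F) hn yt
      apply hmain
      intro j
      obtain ⟨ct, hct⟩ := hyt (btF j) (Submodule.subset_span ⟨j, rfl⟩)
      exact ⟨ct, hct.symm⟩
    rw [Submodule.mem_traceDual] at h1
    intro a ha
    exact h1 a (by rw [Submodule.mem_one]; exact ⟨⟨a, ha⟩, rfl⟩)
  have hxN : x ∈ Submodule.span At (Set.range btF) := hN hx'
  rw [Basis.localizationLocalization_span] at hxN
  obtain ⟨y, hy⟩ := hxN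
  exact ⟨y, hy⟩


section GRC

variable {A B E F : Type*} [CommRing A] [IsDomain A] [IsNoetherianRing A] [IsIntegrallyClosed A]
  [Field E] [Algebra A E] [IsFractionRing A E]
  [Field F] [Algebra E F] [Algebra A F] [IsScalarTower A E F]
  [FiniteDimensional E F] [Algebra.IsSeparable E F]
  [CommRing B] [Algebra A B] [Algebra B F] [IsScalarTower A B F] [IsIntegralClosure B A F]

/-- GRC (good reduction criterion), abstract form. -/
theorem isIntegrallyClosed_quotient_of_unramified_outside
    (π g : A) (hπ : Prime π)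
    (hPID : IsPrincipalIdealRing (A ⧸ Ideal.span {π}))
    (hAK : IsDedekindDomain (Localization.Away π))
    (hchar : ∀ n : ℕ, n ≠ 0 → ∃ k : ℕ, (n : A) ∣ π ^ k)
    (hπB : Prime (algebraMap A B π))
    (hsep : ∀ y : B, (∀ z : B, ∃ a : A,
        Algebra.trace E F (algebraMap B F (y * z)) = algebraMap A E (π * a)) →
      algebraMap A B π ∣ y)
    (hg : Squarefree (Ideal.Quotient.mk (Ideal.span {π}) g))
    (hunr : ∀ P : Ideal B, P.IsPrime → P ≠ ⊥ → algebraMap A B π ∉ P → algebraMap A B g ∉ P →
      ∃ a : A, algebraMap A B a ∈ P ∧ ∀ y ∈ P, ∃ s : B, s ∉ P ∧ algebraMap A B a ∣ s * y) :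
    IsIntegrallyClosed (B ⧸ Ideal.span {algebraMap A B π}) := by
  have : (Ideal.span {π}).IsPrime := (Ideal.span_singleton_prime hπ.ne_zero).mpr hπ
  have : (Ideal.span {algebraMap A B π}).IsPrime :=
    (Ideal.span_singleton_prime hπB.ne_zero).mpr hπB
  have hle : Ideal.span {π} ≤ (Ideal.span {algebraMap A B π}).comap (algebraMap A B) := by
    rw [Ideal.span_singleton_le_iff_mem, Ideal.mem_comap]
    exact Ideal.mem_span_singleton_self _
  let _ : Algebra (A ⧸ Ideal.span {π}) (B ⧸ Ideal.span {algebraMap A B π}) :=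
    (Ideal.quotientMap _ (algebraMap A B) hle).toAlgebra
  have : IsScalarTower A (A ⧸ Ideal.span {π}) (B ⧸ Ideal.span {algebraMap A B π}) :=
    IsScalarTower.of_algebraMap_eq (fun a => rfl)
  have hAs : Function.Surjective (algebraMap A (A ⧸ Ideal.span {π})) :=
    Ideal.Quotient.mk_surjective
  have hBs : Function.Surjective (algebraMap B (B ⧸ Ideal.span {algebraMap A B π})) :=
    Ideal.Quotient.mk_surjective
  have hAk : ∀ a : A, algebraMap A (A ⧸ Ideal.span {π}) a = 0 ↔ π ∣ a := fun a => by
    rw [← Ideal.mem_span_singleton]; exact Ideal.Quotient.eq_zero_iff_mem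
  have hBk : ∀ b : B, algebraMap B (B ⧸ Ideal.span {algebraMap A B π}) b = 0 ↔
      algebraMap A B π ∣ b := fun a => by
    rw [← Ideal.mem_span_singleton]; exact Ideal.Quotient.eq_zero_iff_mem
  have hinj : Function.Injective
      (algebraMap (A ⧸ Ideal.span {π}) (B ⧸ Ideal.span {algebraMap A B π})) :=
    algebraMap_quot_injective (A := A) (B := B) E F π hπ.ne_zero hAs hAk hBk
  have : FaithfulSMul (A ⧸ Ideal.span {π}) (B ⧸ Ideal.span {algebraMap A B π}) :=
    (faithfulSMul_iff_algebraMap_injective _ _).mpr hinj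
  let _ : Algebra (FractionRing (A ⧸ Ideal.span {π}))
      (FractionRing (B ⧸ Ideal.span {algebraMap A B π})) := FractionRing.liftAlgebra _ _
  exact isIntegrallyClosed_of_reduction (A := A) (B := B) E F
    (FractionRing (A ⧸ Ideal.span {π})) (FractionRing (B ⧸ Ideal.span {algebraMap A B π}))
    π g hπ.ne_zero hAs hAk hBs hBk hAK hchar hπB hsep hg hunr

end GRC

end Fermat.Agent.GoodRed
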