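/-
The special fibre of a chart of the normal model is a Dedekind domain (application of the abstract
good reduction criterion to `A = O[x]`, `B = chart`).
-/
import Fermat.Agent.Lib.GoodRed.ChartGRCAux
import Fermat.Agent.Lib.GoodRed.ChartBase
import Fermat.Agent.Lib.GoodRed.ChartVal
import Fermat.Agent.Lib.GoodRed.GRC

set_option autoImplicit false

namespace Fermat.Agent.GoodRed

open Polynomial

variable {O K E F : Type*} [CommRing O] [IsDomain O] [IsDiscreteValuationRing O]
  [Field K] [CharZero K] [Algebra O K] [IsFractionRing O K]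
  [Field E] [Algebra K E] [Algebra O E] [IsScalarTower O K E]
  [Field F] [Algebra E F] [FiniteDimensional E F]

section ChartGRC
variable (K) (ϖ : O) (hϖ : Irreducible ϖ) (x : E) (hx : Transcendental K x)
  (hgen : IntermediateField.adjoin K {x} = ⊤) (𝒟 : ValuationSubring F) (hG : GaussData O ϖ 𝒟 x)

include K hx hgen hϖ hG in
theorem isDedekindDomain_chart_quotient (g : O[X])
    (hg : Squarefree (g.map (IsLocalRing.residue O)))
    (hU : UnramOutside K F x (g.map (algebraMap O K))) :
    IsDedekindDomain (chart O F x ⧸ Ideal.span {unifChart O F ϖ x}) := by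
  have _ : CharZero E := charZero_of_injective_algebraMap (algebraMap K E).injective
  have _ : IsNoetherianRing (polyRing O x) := isNoetherianRing_polyRing K x hx
  have _ : IsIntegrallyClosed (polyRing O x) := isIntegrallyClosed_polyRing K x hx
  have _ : IsFractionRing (polyRing O x) E := isFractionRing_polyRing K x hx hgen
  have _ : IsNoetherianRing (chart O F x) := isNoetherianRing_chart K x hx hgen
  have hπB : Prime (unifChart O F ϖ x) := prime_unifChart K ϖ hϖ x hx hgen 𝒟 hG
  have hprime : (Ideal.span {unifChart O F ϖ x}).IsPrime :=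
    (Ideal.span_singleton_prime hπB.ne_zero).mpr hπB
  have h1 : IsIntegrallyClosed (chart O F x ⧸ Ideal.span {unifChart O F ϖ x}) :=
    isIntegrallyClosed_quotient_of_unramified_outside (A := polyRing O x) (B := chart O F x)
      (E := E) (F := F) (unifPoly O ϖ x) (toPoly O x g) (prime_unifPoly K ϖ hϖ x hx)
      (isPrincipalIdealRing_polyRing_quotient K ϖ hϖ x hx)
      (isDedekindDomain_polyRing_away K ϖ hϖ x hx)
      (natCast_dvd_unifPoly_pow K ϖ hϖ x) hπB
      (chart_sep_of K ϖ x hx 𝒟 hG (fun y => (intO_iff_mem_chart x y).mp)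
        (fun _ hy => mem_of_mem_chart ϖ x 𝒟 hG hy)
        (fun y hy h => mem_chart_of_unif_pow_mul_mem K ϖ hϖ x hx hgen 𝒟 hG hy 1
          (by rwa [pow_one])))
      (squarefree_mk_toPoly K ϖ hϖ x hx g hg)
      (fun P hP hP0 hϖP hgP => chart_unr_of K x g hU P hP
        (exists_valuationSubring_of_prime K ϖ hϖ x hx hgen 𝒟 hG P hP hP0 hϖP) hgP)
  have h2 : Ring.DimensionLEOne (chart O F x ⧸ Ideal.span {unifChart O F ϖ x}) :=
    dimensionLEOne_quotient_span_of_isIntegral (A := polyRing O x) (B := chart O F x)
      (unifPoly O ϖ x) (prime_unifPoly K ϖ hϖ x hx)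
      (isPrincipalIdealRing_polyRing_quotient K ϖ hϖ x hx) hπB
  have h3 : IsDomain (chart O F x ⧸ Ideal.span {unifChart O F ϖ x}) := Ideal.Quotient.isDomain _
  have h4 : IsNoetherianRing (chart O F x ⧸ Ideal.span {unifChart O F ϖ x}) := inferInstance
  exact { toIsDomain := h3, toIsDedekindRing := { } }

end ChartGRC

end Fermat.Agent.GoodRed
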