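/-
Toolbox for the injectivity part of the good reduction package (task GR-I0):
the "module of sections" `{f | f ^ m * h ∈ chart}` and the calculus of congruences modulo `ϖ ^ n 𝒟`.
Owner: helper181.
-/
import Fermat.Agent.Lib.GoodRed.Chart

set_option autoImplicit false

namespace Fermat.Agent.GoodRed

open Polynomial

variable {O K E F : Type*} [CommRing O] [IsDomain O] [IsDiscreteValuationRing O]
  [Field K] [CharZero K] [Algebra O K] [IsFractionRing O K]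
  [Field E] [Algebra K E] [Algebra O E] [IsScalarTower O K E]
  [Field F] [Algebra E F] [FiniteDimensional E F]

section Sec

variable (x : E) (m : ℕ) (h : F)

omit [IsDomain O] [IsDiscreteValuationRing O] [FiniteDimensional E F] in
theorem mem_chart_of_pow_mem {y : F} {n : ℕ} (hn : n ≠ 0) (hy : y ^ n ∈ chart O F x) :
    y ∈ chart O F x :=
  IsIntegral.of_pow (Nat.pos_of_ne_zero hn) hy

omit [IsDomain O] [IsDiscreteValuationRing O] [FiniteDimensional E F] in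
theorem sec_add {f f' : F} (hm : m ≠ 0) (hf : f ^ m * h ∈ chart O F x)
    (hf' : f' ^ m * h ∈ chart O F x) : (f + f') ^ m * h ∈ chart O F x := by
  rw [add_pow, Finset.sum_mul]
  refine Subalgebra.sum_mem _ fun i hi => ?_
  have hi' : i ≤ m := Nat.lt_succ_iff.mp (Finset.mem_range.mp hi)
  have key : f ^ i * f' ^ (m - i) * h ∈ chart O F x := by
    refine mem_chart_of_pow_mem x hm ?_
    have : (f ^ i * f' ^ (m - i) * h) ^ m = (f ^ m * h) ^ i * (f' ^ m * h) ^ (m - i) := by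
      have hh : h ^ m = h ^ i * h ^ (m - i) := by rw [← pow_add, Nat.add_sub_cancel' hi']
      rw [mul_pow, mul_pow, mul_pow, mul_pow, hh, ← pow_mul, ← pow_mul, ← pow_mul, ← pow_mul,
        mul_comm i m, mul_comm (m - i) m]
      ring
    rw [this]
    exact Subalgebra.mul_mem _ (Subalgebra.pow_mem _ hf _) (Subalgebra.pow_mem _ hf' _)
  have : f ^ i * f' ^ (m - i) * (m.choose i : F) * h
      = (m.choose i : F) * (f ^ i * f' ^ (m - i) * h) := by ring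
  rw [this]
  exact Subalgebra.mul_mem _ (natCast_mem _ _) key

omit [IsDomain O] [IsDiscreteValuationRing O] [FiniteDimensional E F] in
theorem sec_mul {b f : F} (hb : b ∈ chart O F x) (hf : f ^ m * h ∈ chart O F x) :
    (b * f) ^ m * h ∈ chart O F x := by
  have : (b * f) ^ m * h = b ^ m * (f ^ m * h) := by ring
  rw [this]
  exact Subalgebra.mul_mem _ (Subalgebra.pow_mem _ hb _) hf

omit [IsDomain O] [IsDiscreteValuationRing O] [FiniteDimensional E F] in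
theorem sec_neg {f : F} (hf : f ^ m * h ∈ chart O F x) : (-f) ^ m * h ∈ chart O F x := by
  have := sec_mul x m h (b := -1) (Subalgebra.neg_mem _ (Subalgebra.one_mem _)) hf
  simpa using this

omit [IsDomain O] [IsDiscreteValuationRing O] [FiniteDimensional E F] in
theorem sec_zero (hm : m ≠ 0) : (0 : F) ^ m * h ∈ chart O F x := by
  rw [zero_pow hm, zero_mul]; exact Subalgebra.zero_mem _

omit [IsDomain O] [IsDiscreteValuationRing O] [FiniteDimensional E F] in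
theorem sec_sub {f f' : F} (hm : m ≠ 0) (hf : f ^ m * h ∈ chart O F x)
    (hf' : f' ^ m * h ∈ chart O F x) : (f - f') ^ m * h ∈ chart O F x := by
  rw [sub_eq_add_neg]
  exact sec_add x m h hm hf (sec_neg x m h hf')

end Sec

section Congr

variable {ϖ : O} {𝒟 : ValuationSubring F} {n : ℕ}

omit [IsDomain O] [IsDiscreteValuationRing O] [FiniteDimensional E F]

namespace CongrMod

theorem refl (y : F) : CongrMod (E := E) ϖ 𝒟 n y y :=
  ⟨0, 𝒟.zero_mem, by simp⟩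

theorem of_eq {y z : F} (h : y = z) : CongrMod (E := E) ϖ 𝒟 n y z := h ▸ refl y

theorem symm {y z : F} (h : CongrMod (E := E) ϖ 𝒟 n y z) : CongrMod (E := E) ϖ 𝒟 n z y := by
  obtain ⟨w, hw, e⟩ := h
  exact ⟨-w, 𝒟.neg_mem _ hw, by rw [mul_neg, ← e]; ring⟩

theorem trans {y z t : F} (h : CongrMod (E := E) ϖ 𝒟 n y z) (h' : CongrMod (E := E) ϖ 𝒟 n z t) :
    CongrMod (E := E) ϖ 𝒟 n y t := by
  obtain ⟨w, hw, e⟩ := h
  obtain ⟨w', hw', e'⟩ := h'
  exact ⟨w + w', 𝒟.add_mem _ _ hw hw', by rw [mul_add, ← e, ← e']; ring⟩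

theorem add {y z y' z' : F} (h : CongrMod (E := E) ϖ 𝒟 n y z)
    (h' : CongrMod (E := E) ϖ 𝒟 n y' z') : CongrMod (E := E) ϖ 𝒟 n (y + y') (z + z') := by
  obtain ⟨w, hw, e⟩ := h
  obtain ⟨w', hw', e'⟩ := h'
  exact ⟨w + w', 𝒟.add_mem _ _ hw hw', by rw [mul_add, ← e, ← e']; ring⟩

theorem neg {y z : F} (h : CongrMod (E := E) ϖ 𝒟 n y z) :
    CongrMod (E := E) ϖ 𝒟 n (-y) (-z) := by
  obtain ⟨w, hw, e⟩ := h
  exact ⟨-w, 𝒟.neg_mem _ hw, by rw [mul_neg, ← e]; ring⟩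

theorem sub {y z y' z' : F} (h : CongrMod (E := E) ϖ 𝒟 n y z)
    (h' : CongrMod (E := E) ϖ 𝒟 n y' z') : CongrMod (E := E) ϖ 𝒟 n (y - y') (z - z') := by
  rw [sub_eq_add_neg, sub_eq_add_neg]
  exact h.add h'.neg

theorem mul_left {y z a : F} (ha : a ∈ 𝒟) (h : CongrMod (E := E) ϖ 𝒟 n y z) :
    CongrMod (E := E) ϖ 𝒟 n (a * y) (a * z) := by
  obtain ⟨w, hw, e⟩ := h
  exact ⟨a * w, 𝒟.mul_mem _ _ ha hw, by rw [← mul_sub, e]; ring⟩

theorem mul_right {y z a : F} (ha : a ∈ 𝒟) (h : CongrMod (E := E) ϖ 𝒟 n y z) :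
    CongrMod (E := E) ϖ 𝒟 n (y * a) (z * a) := by
  rw [mul_comm y, mul_comm z]; exact h.mul_left ha

/-- Product of congruences; only `z` (right-hand side of the first) and `y'` (left-hand side of
the second) have to be integral. -/
theorem mul {y z y' z' : F} (h : CongrMod (E := E) ϖ 𝒟 n y z)
    (h' : CongrMod (E := E) ϖ 𝒟 n y' z') (hz : z ∈ 𝒟) (hy' : y' ∈ 𝒟) :
    CongrMod (E := E) ϖ 𝒟 n (y * y') (z * z') :=
  (h.mul_right hy').trans (h'.mul_left hz)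

theorem sum {ι : Type*} (s : Finset ι) {y z : ι → F}
    (h : ∀ i ∈ s, CongrMod (E := E) ϖ 𝒟 n (y i) (z i)) :
    CongrMod (E := E) ϖ 𝒟 n (∑ i ∈ s, y i) (∑ i ∈ s, z i) := by
  classical
  induction s using Finset.induction_on with
  | empty => simpa using refl (ϖ := ϖ) (𝒟 := 𝒟) (n := n) (E := E) (0 : F)
  | insert a s ha ih =>
    rw [Finset.sum_insert ha, Finset.sum_insert ha]
    exact (h a (Finset.mem_insert_self a s)).add
      (ih fun i hi => h i (Finset.mem_insert_of_mem hi))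

theorem pow {y z : F} (h : CongrMod (E := E) ϖ 𝒟 n y z) (hy : y ∈ 𝒟) (hz : z ∈ 𝒟) (k : ℕ) :
    CongrMod (E := E) ϖ 𝒟 n (y ^ k) (z ^ k) := by
  induction k with
  | zero => simpa using refl (ϖ := ϖ) (𝒟 := 𝒟) (n := n) (E := E) (1 : F)
  | succ k ih =>
    rw [pow_succ, pow_succ]
    exact ih.mul h (𝒟.pow_mem hz k) hy

/-- Multiplying a congruence mod `ϖ ^ n` by `ϖ` gives a congruence mod `ϖ ^ (n + 1)`. -/
theorem mul_unif {y z : F} (h : CongrMod (E := E) ϖ 𝒟 n y z) :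
    CongrMod (E := E) ϖ 𝒟 (n + 1) (algebraMap E F (algebraMap O E ϖ) * y)
      (algebraMap E F (algebraMap O E ϖ) * z) := by
  obtain ⟨w, hw, e⟩ := h
  exact ⟨w, hw, by rw [← mul_sub, e]; ring⟩

theorem mul_unif_pow {y z : F} (k : ℕ) (h : CongrMod (E := E) ϖ 𝒟 n y z) :
    CongrMod (E := E) ϖ 𝒟 (n + k) (algebraMap E F (algebraMap O E ϖ) ^ k * y)
      (algebraMap E F (algebraMap O E ϖ) ^ k * z) := by
  obtain ⟨w, hw, e⟩ := h
  exact ⟨w, hw, by rw [← mul_sub, e]; ring⟩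

/-- Monotonicity, with the integrality of `ϖ` as a hypothesis. -/
theorem mono' (hϖ : algebraMap E F (algebraMap O E ϖ) ∈ 𝒟) {n' : ℕ} (hn : n ≤ n') {y z : F}
    (h : CongrMod (E := E) ϖ 𝒟 n' y z) : CongrMod (E := E) ϖ 𝒟 n y z := by
  obtain ⟨w, hw, e⟩ := h
  refine ⟨algebraMap E F (algebraMap O E ϖ) ^ (n' - n) * w, 𝒟.mul_mem _ _ (𝒟.pow_mem hϖ _) hw, ?_⟩
  rw [e, ← mul_assoc, ← pow_add, Nat.add_sub_cancel' hn]

theorem mono {x : E} (hG : GaussData O ϖ 𝒟 x) {n' : ℕ} (hn : n ≤ n') {y z : F}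
    (h : CongrMod (E := E) ϖ 𝒟 n' y z) : CongrMod (E := E) ϖ 𝒟 n y z :=
  mono' (hG.algebraMap_mem ϖ) hn h

theorem mem' (hϖ : algebraMap E F (algebraMap O E ϖ) ∈ 𝒟) {y z : F}
    (h : CongrMod (E := E) ϖ 𝒟 n y z) (hz : z ∈ 𝒟) : y ∈ 𝒟 := by
  obtain ⟨w, hw, e⟩ := h
  have : y = z + algebraMap E F (algebraMap O E ϖ) ^ n * w := by rw [← e]; ring
  rw [this]
  exact 𝒟.add_mem _ _ hz (𝒟.mul_mem _ _ (𝒟.pow_mem hϖ _) hw)

theorem mem {x : E} (hG : GaussData O ϖ 𝒟 x) {y z : F}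
    (h : CongrMod (E := E) ϖ 𝒟 n y z) (hz : z ∈ 𝒟) : y ∈ 𝒟 :=
  mem' (hG.algebraMap_mem ϖ) h hz

end CongrMod

theorem congrMod_zero_iff {y z : F} : CongrMod (E := E) ϖ 𝒟 0 y z ↔ y - z ∈ 𝒟 := by
  constructor
  · rintro ⟨w, hw, e⟩
    rw [e]; simpa using hw
  · intro h
    exact ⟨y - z, h, by simp⟩

theorem congrMod_iff_sub {y z : F} :
    CongrMod (E := E) ϖ 𝒟 n y z ↔ CongrMod (E := E) ϖ 𝒟 n (y - z) 0 := by
  unfold CongrMod
  simp

variable {x : E}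

theorem unif_ne_zero (hG : GaussData O ϖ 𝒟 x) : algebraMap E F (algebraMap O E ϖ) ≠ 0 := by
  intro h0
  apply hG.inv_unif_notMem
  rw [h0, inv_zero]
  exact 𝒟.zero_mem

theorem unif_mul_ne_one (hG : GaussData O ϖ 𝒟 x) {w : F} (hw : w ∈ 𝒟) :
    algebraMap E F (algebraMap O E ϖ) * w ≠ 1 := by
  intro h
  apply hG.inv_unif_notMem
  rw [inv_eq_of_mul_eq_one_right h]
  exact hw

theorem ne_zero_of_congr_one (ϖ : O) (x : E) (𝒟 : ValuationSubring F) (hG : GaussData O ϖ 𝒟 x)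
    {f : F} (hf : CongrMod (E := E) ϖ 𝒟 1 f 1) : f ≠ 0 := by
  rintro rfl
  obtain ⟨w, hw, e⟩ := hf
  apply unif_mul_ne_one hG (𝒟.neg_mem _ hw)
  rw [pow_one] at e
  rw [mul_neg, ← e]
  ring

theorem mem_of_congr_one (hG : GaussData O ϖ 𝒟 x) {f : F}
    (hf : CongrMod (E := E) ϖ 𝒟 n f 1) : f ∈ 𝒟 :=
  hf.mem hG 𝒟.one_mem

theorem inv_mem_of_congr_one (hG : GaussData O ϖ 𝒟 x) {f : F}
    (hf : CongrMod (E := E) ϖ 𝒟 1 f 1) : f⁻¹ ∈ 𝒟 := by
  by_contra hinv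
  obtain ⟨z, hz, e⟩ := hG.unif f (mem_of_congr_one hG hf) hinv
  obtain ⟨w, hw, e'⟩ := hf
  apply unif_mul_ne_one hG (𝒟.sub_mem hz hw)
  rw [pow_one] at e'
  rw [mul_sub, ← e, ← e']
  ring

/-- Inverses of congruent units of `𝒟` are congruent. -/
theorem CongrMod.inv {y z : F} (h : CongrMod (E := E) ϖ 𝒟 n y z) (hy0 : y ≠ 0) (hz0 : z ≠ 0)
    (hy : y⁻¹ ∈ 𝒟) (hz : z⁻¹ ∈ 𝒟) : CongrMod (E := E) ϖ 𝒟 n y⁻¹ z⁻¹ := by
  obtain ⟨w, hw, e⟩ := h
  refine ⟨-(y⁻¹ * z⁻¹ * w), 𝒟.neg_mem _ (𝒟.mul_mem _ _ (𝒟.mul_mem _ _ hy hz) hw), ?_⟩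
  have : y⁻¹ - z⁻¹ = -(y⁻¹ * z⁻¹ * (y - z)) := by field_simp; ring
  rw [this, e]
  ring

theorem inv_congr_one (hG : GaussData O ϖ 𝒟 x) {f : F} (hn : n ≠ 0)
    (hf : CongrMod (E := E) ϖ 𝒟 n f 1) : CongrMod (E := E) ϖ 𝒟 n f⁻¹ 1 := by
  have hf1 : CongrMod (E := E) ϖ 𝒟 1 f 1 := hf.mono hG (Nat.one_le_iff_ne_zero.mpr hn)
  have := hf.inv (ne_zero_of_congr_one ϖ x 𝒟 hG hf1) one_ne_zero (inv_mem_of_congr_one hG hf1)
    (by rw [inv_one]; exact 𝒟.one_mem)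
  simpa using this

theorem mul_congr_one (hG : GaussData O ϖ 𝒟 x) {f g : F}
    (hf : CongrMod (E := E) ϖ 𝒟 n f 1) (hg : CongrMod (E := E) ϖ 𝒟 n g 1) :
    CongrMod (E := E) ϖ 𝒟 n (f * g) 1 := by
  simpa using hf.mul hg 𝒟.one_mem (mem_of_congr_one hG hg)

theorem pow_congr_one (hG : GaussData O ϖ 𝒟 x) {f : F}
    (hf : CongrMod (E := E) ϖ 𝒟 n f 1) (k : ℕ) : CongrMod (E := E) ϖ 𝒟 n (f ^ k) 1 := by
  simpa using hf.pow (mem_of_congr_one hG hf) 𝒟.one_mem k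

/-- The image in `F` of a unit of `O` is a unit of `𝒟`. -/
theorem inv_algebraMap_mem_of_isUnit (hG : GaussData O ϖ 𝒟 x) {a : O} (ha : IsUnit a) :
    (algebraMap E F (algebraMap O E a))⁻¹ ∈ 𝒟 := by
  obtain ⟨b, hb⟩ := ha.exists_right_inv
  have : algebraMap E F (algebraMap O E a) * algebraMap E F (algebraMap O E b) = 1 := by
    rw [← map_mul, ← map_mul, hb, map_one, map_one]
  rw [inv_eq_of_mul_eq_one_right this]
  exact hG.algebraMap_mem b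

/-- Extraction of `m`-th roots of congruences between principal units (`m` a unit of `O`). -/
theorem congr_of_pow_congr (ϖ : O) (x : E) (𝒟 : ValuationSubring F) (m : ℕ)
    (hG : GaussData O ϖ 𝒟 x) (hm : IsUnit (m : O)) {f g : F}
    {n : ℕ} (hf : CongrMod (E := E) ϖ 𝒟 1 f 1) (hg : CongrMod (E := E) ϖ 𝒟 1 g 1)
    (hfg : CongrMod (E := E) ϖ 𝒟 n (f ^ m) (g ^ m)) : CongrMod (E := E) ϖ 𝒟 n f g := by
  set S : F := ∑ i ∈ Finset.range m, f ^ i * g ^ (m - 1 - i) with hS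
  have hfD := mem_of_congr_one hG hf
  have hgD := mem_of_congr_one hG hg
  have hmF : algebraMap E F (algebraMap O E (m : O)) = (m : F) := by simp
  -- `S ≡ m mod ϖ`
  have hSm : CongrMod (E := E) ϖ 𝒟 1 S (m : F) := by
    have h1 : CongrMod (E := E) ϖ 𝒟 1 S (∑ _i ∈ Finset.range m, (1 : F)) := by
      refine CongrMod.sum _ fun i _ => ?_
      simpa using (pow_congr_one hG hf i).mul (pow_congr_one hG hg (m - 1 - i)) 𝒟.one_mem
        (𝒟.pow_mem hgD _)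
    simpa using h1
  have hminv : (m : F)⁻¹ ∈ 𝒟 := hmF ▸ inv_algebraMap_mem_of_isUnit hG hm
  have hm0 : (m : F) ≠ 0 := by
    intro h0
    obtain ⟨b, hb⟩ := hm.exists_right_inv
    have : algebraMap E F (algebraMap O E (m : O)) * algebraMap E F (algebraMap O E b) = 1 := by
      rw [← map_mul, ← map_mul, hb, map_one, map_one]
    rw [hmF, h0, zero_mul] at this
    exact zero_ne_one this
  have hS1 : CongrMod (E := E) ϖ 𝒟 1 ((m : F)⁻¹ * S) 1 := by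
    have := hSm.mul_left hminv
    rwa [inv_mul_cancel₀ hm0] at this
  have hSinv : S⁻¹ ∈ 𝒟 := by
    have h2 := inv_mem_of_congr_one hG hS1
    have : S⁻¹ = ((m : F)⁻¹ * S)⁻¹ * (m : F)⁻¹ := by
      rw [mul_inv, inv_inv]
      field_simp
    rw [this]
    exact 𝒟.mul_mem _ _ h2 hminv
  have hS0 : S ≠ 0 := by
    intro h0
    apply ne_zero_of_congr_one ϖ x 𝒟 hG hS1
    rw [h0, mul_zero]
  obtain ⟨w, hw, e⟩ := hfg
  refine ⟨S⁻¹ * w, 𝒟.mul_mem _ _ hSinv hw, ?_⟩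
  have hgeom : S * (f - g) = f ^ m - g ^ m := geom_sum₂_mul f g m
  have : f - g = S⁻¹ * (f ^ m - g ^ m) := by
    rw [← hgeom, ← mul_assoc, inv_mul_cancel₀ hS0, one_mul]
  rw [this, e]
  ring

end Congr

end Fermat.Agent.GoodRed
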