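/-
Abstract commutative algebra lemmas used in `Surj.lean`.  Owner: helper294.
-/
import Mathlib

set_option autoImplicit false

namespace Fermat.Agent.GoodRed

open Polynomial

/-- In an integrally closed domain, `a ^ m = c * s ^ m` forces `s ∣ a`. -/
theorem dvd_of_pow_eq_mul_pow {R : Type*} [CommRing R] [IsDomain R] [IsIntegrallyClosed R]
    {a s c : R} {m : ℕ} (hm : m ≠ 0) (hs : s ≠ 0) (h : a ^ m = c * s ^ m) : s ∣ a := by
  set Kf := FractionRing R
  have hs' : algebraMap R Kf s ≠ 0 := by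
    simpa using hs
  have hy : (algebraMap R Kf a / algebraMap R Kf s) ^ m = algebraMap R Kf c := by
    rw [div_pow, ← map_pow, ← map_pow, h, map_mul, mul_div_assoc, div_self, mul_one]
    rw [map_pow]
    exact pow_ne_zero _ hs'
  have hint : IsIntegral R (algebraMap R Kf a / algebraMap R Kf s) := by
    apply IsIntegral.of_pow (Nat.pos_of_ne_zero hm)
    rw [hy]
    exact isIntegral_algebraMap
  obtain ⟨b, hb⟩ := IsIntegrallyClosed.isIntegral_iff.mp hint
  refine ⟨b, ?_⟩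
  apply IsFractionRing.injective R Kf
  rw [map_mul, hb, mul_div_cancel₀ _ hs']

/-- A form of Nakayama's lemma (determinant trick). -/
theorem exists_smul_mem_of_smul_mem_sup {R M : Type*} [CommRing R] [AddCommGroup M] [Module R M]
    (L W : Submodule R M) (hL : L.FG) (I : Ideal R) (σ₀ : R)
    (h : ∀ f ∈ L, σ₀ • f ∈ W ⊔ I • L) :
    ∃ (r : ℕ) (σ : R), σ - σ₀ ^ r ∈ I ∧ ∀ f ∈ L, σ • f ∈ W := by
  classical
  have : Module.Finite R L := Module.Finite.iff_fg.mpr hL
  let Q := ↥L ⧸ W.submoduleOf L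
  let φ : Module.End R Q := algebraMap R (Module.End R Q) σ₀
  have hrange : LinearMap.range φ ≤ I • (⊤ : Submodule R Q) := by
    rintro _ ⟨q, rfl⟩
    obtain ⟨f, rfl⟩ := Submodule.Quotient.mk_surjective _ q
    obtain ⟨w, hw, y, hy, hwy⟩ := Submodule.mem_sup.mp (h f f.2)
    have hIL : I • L = Submodule.map L.subtype (I • (⊤ : Submodule R L)) := by
      rw [Submodule.map_smul'', Submodule.map_top, Submodule.range_subtype]
    rw [hIL] at hy
    obtain ⟨y', hy', rfl⟩ := hy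
    have h1 : φ (Submodule.Quotient.mk f) = (W.submoduleOf L).mkQ y' := by
      show σ₀ • (Submodule.Quotient.mk f : Q) = Submodule.Quotient.mk y'
      rw [← Submodule.Quotient.mk_smul, Submodule.Quotient.eq]
      show ((σ₀ • f - y' : L) : M) ∈ W
      have : ((σ₀ • f - y' : L) : M) = w := by
        simp only [Submodule.coe_sub, Submodule.coe_smul]
        rw [← hwy]
        simp
      rw [this]
      exact hw
    rw [h1]
    have h2 : (W.submoduleOf L).mkQ y' ∈ Submodule.map (W.submoduleOf L).mkQ (I • ⊤) :=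
      Submodule.mem_map_of_mem hy'
    rw [Submodule.map_smul''] at h2
    exact Submodule.smul_mono le_rfl le_top h2
  obtain ⟨p, hmonic, -, hcoeff, hp⟩ :=
    LinearMap.exists_monic_and_natDegree_eq_and_coeff_mem_pow_and_aeval_eq_zero R φ I hrange
  refine ⟨p.natDegree, p.eval σ₀, ?_, ?_⟩
  · rw [Polynomial.eval_eq_sum_range, Finset.sum_range_succ, hmonic.coeff_natDegree, one_mul,
      add_sub_cancel_right]
    refine Ideal.sum_mem _ (fun k hk => ?_)
    apply Ideal.mul_mem_right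
    have hk' : p.natDegree - k ≠ 0 := by
      have := Finset.mem_range.mp hk
      omega
    exact Ideal.pow_le_self hk' (hcoeff k)
  · intro f hf
    have h3 : Polynomial.aeval φ p = algebraMap R (Module.End R Q) (p.eval σ₀) :=
      Polynomial.aeval_algebraMap_apply_eq_algebraMap_eval σ₀ p
    rw [h3] at hp
    have h4 : (p.eval σ₀) • (Submodule.Quotient.mk (⟨f, hf⟩ : L) : Q) = 0 := by
      have := LinearMap.congr_fun hp (Submodule.Quotient.mk (⟨f, hf⟩ : L) : Q)
      simpa using this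
    rw [← Submodule.Quotient.mk_smul, Submodule.Quotient.mk_eq_zero] at h4
    exact h4

/-- A prime ideal containing `u`, contained in `𝔫`, and not containing the prime element `π`. -/
theorem exists_prime_mem_notMem_le {R : Type*} [CommRing R] [IsDomain R] {π u : R}
    (hπ : Prime π) (hu : ¬ π ∣ u) (𝔫 : Ideal R) [h𝔫 : 𝔫.IsPrime] (hun : u ∈ 𝔫) :
    ∃ 𝔮 : Ideal R, 𝔮.IsPrime ∧ u ∈ 𝔮 ∧ π ∉ 𝔮 ∧ 𝔮 ≤ 𝔫 := by
  have key : ∀ (k : ℕ) (τ c : R), π ^ k * τ = u * c → τ ∈ 𝔫 := by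
    intro k
    induction k with
    | zero =>
      intro τ c h
      rw [pow_zero, one_mul] at h
      rw [h]
      exact 𝔫.mul_mem_right _ hun
    | succ k ih =>
      intro τ c h
      have h1 : π ∣ u * c := ⟨π ^ k * τ, by rw [← h]; ring⟩
      obtain ⟨c', rfl⟩ := (hπ.dvd_or_dvd h1).resolve_left hu
      apply ih τ c'
      apply mul_left_cancel₀ hπ.ne_zero
      rw [← mul_assoc, ← pow_succ', h]
      ring
  let S : Submonoid R := Submonoid.powers π ⊔ 𝔫.primeCompl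
  have hdisj : Disjoint ((Ideal.span {u} : Ideal R) : Set R) (S : Set R) := by
    rw [Set.disjoint_left]
    intro y hy hyS
    obtain ⟨c, rfl⟩ := Ideal.mem_span_singleton'.mp hy
    obtain ⟨a, ⟨k, rfl⟩, τ, hτ, hc⟩ := Submonoid.mem_sup.mp hyS
    exact hτ (key k τ c (by rw [hc]; ring))
  obtain ⟨𝔮, h𝔮, hle, hd⟩ := Ideal.exists_le_prime_disjoint _ S hdisj
  rw [Set.disjoint_left] at hd
  refine ⟨𝔮, h𝔮, hle (Ideal.mem_span_singleton_self u), ?_, ?_⟩
  · intro h
    exact hd h (Submonoid.mem_sup_left (Submonoid.mem_powers π))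
  · intro y hy
    by_contra hyn
    exact hd hy (Submonoid.mem_sup_right hyn)

/-- In a Dedekind domain: local generator of a nonzero ideal at a maximal ideal. -/
theorem exists_local_generator {R : Type*} [CommRing R] [IsDedekindDomain R]
    (𝔞 𝔫 : Ideal R) (h𝔞 : 𝔞 ≠ ⊥) (h𝔫 : 𝔫 ≠ ⊤) :
    ∃ w ∈ 𝔞, w ≠ 0 ∧ ∃ σ, σ ∉ 𝔫 ∧ ∀ b ∈ 𝔞, ∃ c, σ * b = w * c := by
  have hlt : ¬ 𝔞 ≤ 𝔞 * 𝔫 := by
    intro hle
    have heq : 𝔞 * 𝔫 = 𝔞 * 1 := by
      rw [mul_one]
      exact le_antisymm Ideal.mul_le_left hle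
    have := mul_left_cancel₀ h𝔞 heq
    exact h𝔫 (by rw [this, Ideal.one_eq_top])
  obtain ⟨w, hw, hw'⟩ := SetLike.not_le_iff_exists.mp hlt
  have hw0 : w ≠ 0 := by
    rintro rfl
    exact hw' (Ideal.zero_mem _)
  have hdvd : 𝔞 ∣ Ideal.span {w} := by
    rw [Ideal.dvd_iff_le, Ideal.span_singleton_le_iff_mem]
    exact hw
  obtain ⟨𝔠, h𝔠⟩ := hdvd
  have h𝔠n : ¬ 𝔠 ≤ 𝔫 := by
    intro hle
    apply hw'
    have : w ∈ 𝔞 * 𝔠 := by rw [← h𝔠]; exact Ideal.mem_span_singleton_self w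
    exact Ideal.mul_mono_right hle this
  obtain ⟨σ, hσ, hσ'⟩ := SetLike.not_le_iff_exists.mp h𝔠n
  refine ⟨w, hw, hw0, σ, hσ', fun b hb => ?_⟩
  have : σ * b ∈ Ideal.span {w} := by
    rw [h𝔠, mul_comm σ b]
    exact Ideal.mul_mem_mul hb hσ
  obtain ⟨c, hc⟩ := Ideal.mem_span_singleton'.mp this
  exact ⟨c, by rw [← hc]; ring⟩

end Fermat.Agent.GoodRed
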