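/-
Good reduction, injectivity part: the section `1` of the reduction lifts, with the localisation
statement of `ChartVal.lean` taken as a hypothesis.  Owner: helper294.
-/
import Fermat.Agent.Lib.GoodRed.ChartBase
import Fermat.Agent.Lib.GoodRed.SecMod
import Fermat.Agent.Lib.GoodRed.SurjAbs

set_option autoImplicit false
set_option linter.unusedSectionVars false

namespace Fermat.Agent.GoodRed

open Polynomial

variable {O K E F : Type*} [CommRing O] [IsDomain O] [IsDiscreteValuationRing O]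
  [Field K] [CharZero K] [Algebra O K] [IsFractionRing O K]
  [Field E] [Algebra K E] [Algebra O E] [IsScalarTower O K E]
  [Field F] [Algebra E F] [FiniteDimensional E F]

namespace Surj

section Val

variable (ϖ : O) (x : E) (𝒟 : ValuationSubring F) (hG : GaussData O ϖ 𝒟 x)

include hG in
theorem valuation_unif_lt_one : 𝒟.valuation (algebraMap E F (algebraMap O E ϖ)) < 1 := by
  have h1 := hG.inv_unif_notMem
  rw [← 𝒟.valuation_le_one_iff, map_inv₀, not_le] at h1
  by_contra h2
  rw [not_lt] at h2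
  have h3 : (𝒟.valuation (algebraMap E F (algebraMap O E ϖ)))⁻¹ ≤ 1 := inv_le_one_of_one_le₀ h2
  exact absurd h1 (not_lt.mpr h3)

include hG in
theorem congrMod_one_iff (f g : F) :
    CongrMod (E := E) ϖ 𝒟 1 f g ↔ 𝒟.valuation (f - g) < 1 := by
  constructor
  · rintro ⟨w, hw, hfg⟩
    rw [hfg, pow_one, map_mul]
    have h1 := valuation_unif_lt_one ϖ x 𝒟 hG
    have h2 : 𝒟.valuation w ≤ 1 := (𝒟.valuation_le_one_iff w).mpr hw
    calc 𝒟.valuation (algebraMap E F (algebraMap O E ϖ)) * 𝒟.valuation w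
        ≤ 𝒟.valuation (algebraMap E F (algebraMap O E ϖ)) * 1 := mul_le_mul_right h2 _
      _ = 𝒟.valuation (algebraMap E F (algebraMap O E ϖ)) := mul_one _
      _ < 1 := h1
  · intro h
    by_cases h0 : f - g = 0
    · exact ⟨0, 𝒟.zero_mem, by rw [h0, mul_zero]⟩
    · have hmem : f - g ∈ 𝒟 := (𝒟.valuation_le_one_iff _).mp h.le
      have hinv : (f - g)⁻¹ ∉ 𝒟 := by
        rw [← 𝒟.valuation_le_one_iff, map_inv₀, not_le]
        exact (one_lt_inv₀ ((Valuation.pos_iff _).mpr h0)).mpr h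
      obtain ⟨z, hz, hz'⟩ := hG.unif _ hmem hinv
      exact ⟨z, hz, by rw [pow_one]; exact hz'⟩

end Val

theorem valuation_pow_sub_pow_lt_one {Γ : Type*} [LinearOrderedCommGroupWithZero Γ]
    (v : Valuation F Γ) {a b : F} (ha : v a ≤ 1) (hb : v b ≤ 1) (hab : v (a - b) < 1) (n : ℕ) :
    v (a ^ n - b ^ n) < 1 := by
  induction n with
  | zero => simp
  | succ n ih =>
    have h1 : a ^ (n + 1) - b ^ (n + 1) = a ^ n * (a - b) + (a ^ n - b ^ n) * b := by ring
    rw [h1]
    apply Valuation.map_add_lt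
    · rw [map_mul, map_pow]
      calc v a ^ n * v (a - b) ≤ 1 * v (a - b) := mul_le_mul_left (pow_le_one' ha n) _
        _ = v (a - b) := one_mul _
        _ < 1 := hab
    · rw [map_mul]
      calc v (a ^ n - b ^ n) * v b ≤ v (a ^ n - b ^ n) * 1 := mul_le_mul_right hb _
        _ = v (a ^ n - b ^ n) := mul_one _
        _ < 1 := ih

theorem valuation_mul_lt_one_left {Γ : Type*} [LinearOrderedCommGroupWithZero Γ]
    (v : Valuation F Γ) {a b : F} (ha : v a ≤ 1) (hb : v b < 1) : v (a * b) < 1 := by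
  rw [map_mul]
  calc v a * v b ≤ 1 * v b := mul_le_mul_left ha _
    _ = v b := one_mul _
    _ < 1 := hb

section Prim

variable (K) (ϖ : O) (x : E) (hx : Transcendental K x)

include K hx in
theorem aeval_ne_zero_of_isPrim (s : O[X]) (hs : IsPrim ϖ s) :
    algebraMap E F (aeval x s) ≠ 0 := by
  intro h0
  have h1 : aeval x s = 0 := by
    simpa using h0
  have h2 : aeval x (s.map (algebraMap O K)) = 0 := by
    rw [Polynomial.aeval_map_algebraMap]; exact h1
  have h3 : s.map (algebraMap O K) = 0 := by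
    by_contra hne
    exact hx ⟨_, hne, h2⟩
  have h4 : s = 0 :=
    Polynomial.map_injective _ (IsFractionRing.injective O K) (by rw [h3, Polynomial.map_zero])
  obtain ⟨i, hi⟩ := hs
  apply hi
  rw [h4]
  simp

end Prim

theorem aeval_mem_chart (x : E) (s : O[X]) : algebraMap E F (aeval x s) ∈ chart O F x :=
  Subalgebra.algebraMap_mem (chart O F x) (toPoly O x s)

end Surj

section Inj
variable (K) (ϖ : O) (hϖ : Irreducible ϖ) (x : E) (hx : Transcendental K x)
  (hgen : IntermediateField.adjoin K {x} = ⊤) (𝒟 : ValuationSubring F) (hG : GaussData O ϖ 𝒟 x)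
  (m : ℕ) (hm : IsUnit (m : O)) (h : F) (hh : h ≠ 0)

include K hx hgen hϖ hG hm hh in
/-- Surj: the section `1` of the reduction lifts (the localisations of the chart at primes away
from the uniformiser being valuation rings is the hypothesis `hVal`). -/
theorem Surj.exists_section_congr_one_of_val
    (hVal : ∀ (𝔮 : Ideal (chart O F x)), 𝔮.IsPrime → 𝔮 ≠ ⊥ → unifChart O F ϖ x ∉ 𝔮 →
      ∃ V : ValuationSubring F, ContainsConst K E V ∧ V ≠ ⊤ ∧
        ∀ y : F, y ∈ V ↔ ∃ a b : chart O F x, b ∉ 𝔮 ∧ y * (b : F) = (a : F))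
    (hN : IsDedekindDomain (chart O F x ⧸ Ideal.span {unifChart O F ϖ x}))
    (hM : DivisibleDiv K E m h) (h1 : CongrMod (E := E) ϖ 𝒟 1 h 1) :
    ∃ f : F, f ^ m * h ∈ chart O F x ∧ CongrMod (E := E) ϖ 𝒟 1 f 1 := by
  classical
  set π : chart O F x := unifChart O F ϖ x with hπdef
  set v := 𝒟.valuation with hv
  have hπcoe : (π : F) = algebraMap E F (algebraMap O E ϖ) := rfl
  have hm0 : m ≠ 0 := by
    rintro rfl
    simp at hm
  obtain ⟨k, rfl⟩ : ∃ k, m = k + 1 := ⟨m - 1, by omega⟩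
  have hπprime : Prime π := prime_unifChart K ϖ hϖ x hx hgen 𝒟 hG
  have hnoeth : IsNoetherianRing (chart O F x) := isNoetherianRing_chart K x hx hgen
  have hfrac : IsFractionRing (chart O F x) F := isFractionRing_chart K x hx hgen
  have hcongr := Surj.congrMod_one_iff ϖ x 𝒟 hG
  have hvπ : v (π : F) < 1 := Surj.valuation_unif_lt_one ϖ x 𝒟 hG
  have hB𝒟 : ∀ b : chart O F x, v (b : F) ≤ 1 := fun b =>
    (𝒟.valuation_le_one_iff _).mpr (mem_of_mem_chart ϖ x 𝒟 hG b.2)
  have hvh1 : v (h - 1) < 1 := (hcongr h 1).mp h1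
  have hvh : v h = 1 := by
    have := Valuation.map_eq_of_sub_lt v (x := 1) (y := h) (by rw [map_one]; exact hvh1)
    rw [this, map_one]
  -- divisibility by the uniformiser
  have hdvd : ∀ b : chart O F x, v (b : F) < 1 ↔ π ∣ b := by
    intro b
    constructor
    · intro hb
      have hb' : v ((b : F) - 0) < 1 := by rwa [sub_zero]
      obtain ⟨z, hz, hbz⟩ := (hcongr (b : F) 0).mpr hb'
      rw [sub_zero] at hbz
      have hzB : z ∈ chart O F x := by
        apply mem_chart_of_unif_pow_mul_mem K ϖ hϖ x hx hgen 𝒟 hG hz 1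
        rw [← hbz]
        exact b.2
      refine ⟨⟨z, hzB⟩, Subtype.ext ?_⟩
      rw [hbz, pow_one]
      rfl
    · rintro ⟨c, rfl⟩
      have : ((π * c : chart O F x) : F) = (c : F) * (π : F) := by
        rw [mul_comm]; rfl
      rw [this]
      exact Surj.valuation_mul_lt_one_left v (hB𝒟 c) hvπ
  have hmk : ∀ b : chart O F x, Ideal.Quotient.mk (Ideal.span {π}) b = 0 ↔ v (b : F) < 1 := by
    intro b
    rw [Ideal.Quotient.eq_zero_iff_mem, Ideal.mem_span_singleton, hdvd]
  -- the module of sections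
  let L : Submodule (chart O F x) F :=
    { carrier := {f | f ^ (k + 1) * h ∈ chart O F x}
      add_mem' := fun {a b} ha hb => sec_add x (k + 1) h hm0 ha hb
      zero_mem' := by
        show (0 : F) ^ (k + 1) * h ∈ chart O F x
        rw [zero_pow hm0, zero_mul]
        exact Subalgebra.zero_mem _
      smul_mem' := fun c f hf => sec_mul x (k + 1) h c.2 hf }
  have hLmem : ∀ f : F, f ∈ L ↔ f ^ (k + 1) * h ∈ chart O F x := fun f => Iff.rfl
  have hL𝒟 : ∀ f ∈ L, v f ≤ 1 := by
    intro f hf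
    have h2 : v (f ^ (k + 1) * h) ≤ 1 := hB𝒟 ⟨_, hf⟩
    rw [map_mul, hvh, mul_one, map_pow] at h2
    exact (pow_le_one_iff hm0).mp h2
  -- primitive polynomials
  have hprim : ∀ s : O[X], IsPrim ϖ s → v (algebraMap E F (aeval x s)) = 1 := by
    intro s hs
    have hne := Surj.aeval_ne_zero_of_isPrim (F := F) K ϖ x hx s hs
    obtain ⟨h2, h3⟩ := hG.gauss s hs
    rw [← 𝒟.valuation_le_one_iff] at h2 h3
    rw [map_inv₀] at h3
    apply le_antisymm h2
    exact (inv_le_one₀ ((Valuation.pos_iff _).mpr hne)).mp h3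
  -- every section is congruent to an element of the chart
  have hred : ∀ f ∈ L, ∃ b : chart O F x, v (f - b) < 1 := by
    intro f hf
    have hf𝒟 : f ∈ 𝒟 := (𝒟.valuation_le_one_iff _).mp (hL𝒟 f hf)
    obtain ⟨s, hs, hint⟩ := hG.integral f hf𝒟
    rw [intO_iff_mem_chart] at hint
    set sF : F := algebraMap E F (aeval x s) with hsF
    let a : chart O F x := ⟨sF * f, hint⟩
    let sB : chart O F x := ⟨sF, Surj.aeval_mem_chart x s⟩
    let c : chart O F x := ⟨f ^ (k + 1) * h, hf⟩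
    have hvs : v sF = 1 := hprim s hs
    have h2 : Ideal.Quotient.mk (Ideal.span {π}) a ^ (k + 1)
        = Ideal.Quotient.mk (Ideal.span {π}) c * Ideal.Quotient.mk (Ideal.span {π}) sB ^ (k + 1) := by
      rw [← map_pow, ← map_pow, ← map_mul, ← sub_eq_zero, ← map_sub, hmk]
      have h3 : ((a ^ (k + 1) - c * sB ^ (k + 1) : chart O F x) : F)
          = -((sF * f) ^ (k + 1)) * (h - 1) := by
        show (sF * f) ^ (k + 1) - f ^ (k + 1) * h * sF ^ (k + 1) = _
        ring
      rw [h3]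
      apply Surj.valuation_mul_lt_one_left v _ hvh1
      rw [Valuation.map_neg, map_pow]
      exact pow_le_one' (hB𝒟 a) _
    have h4 : Ideal.Quotient.mk (Ideal.span {π}) sB ≠ 0 := by
      rw [Ne, hmk, not_lt]
      exact hvs.ge
    obtain ⟨b', hb'⟩ := dvd_of_pow_eq_mul_pow (R := chart O F x ⧸ Ideal.span {π}) hm0 h4 h2
    obtain ⟨b, rfl⟩ := Ideal.Quotient.mk_surjective b'
    refine ⟨b, ?_⟩
    rw [← map_mul, ← sub_eq_zero, ← map_sub, hmk] at hb'
    have h5 : ((a - sB * b : chart O F x) : F) = sF * (f - b) := by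
      show sF * f - sF * b = _
      ring
    rw [h5, map_mul, hvs, one_mul] at hb'
    exact hb'
  -- the ideal of reductions
  let 𝔞B : Ideal (chart O F x) :=
    { carrier := {b | ∃ f ∈ L, v (f - b) < 1}
      add_mem' := by
        rintro a b ⟨f, hf, hfa⟩ ⟨g, hg, hgb⟩
        refine ⟨f + g, L.add_mem hf hg, ?_⟩
        have : f + g - ((a + b : chart O F x) : F) = (f - a) + (g - b) := by
          push_cast; ring
        rw [this]
        exact Valuation.map_add_lt v hfa hgb
      zero_mem' := ⟨0, L.zero_mem, by simp⟩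
      smul_mem' := by
        rintro c b ⟨f, hf, hfb⟩
        refine ⟨c • f, L.smul_mem c hf, ?_⟩
        have : c • f - ((c • b : chart O F x) : F) = (c : F) * (f - b) := by
          show (c : F) * f - (c : F) * (b : F) = _
          ring
        rw [this]
        exact Surj.valuation_mul_lt_one_left v (hB𝒟 c) hfb }
  have h𝔞Bmem : ∀ b, b ∈ 𝔞B ↔ ∃ f ∈ L, v (f - b) < 1 := fun b => Iff.rfl
  let 𝔞 : Ideal (chart O F x ⧸ Ideal.span {π}) := 𝔞B.map (Ideal.Quotient.mk (Ideal.span {π}))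
  have h𝔞mem : ∀ y, y ∈ 𝔞 ↔ ∃ b ∈ 𝔞B, Ideal.Quotient.mk (Ideal.span {π}) b = y := fun y =>
    Ideal.mem_map_iff_of_surjective _ Ideal.Quotient.mk_surjective
  -- the ideal is nonzero
  have h𝔞0 : 𝔞 ≠ ⊥ := by
    have hh𝒟 : h ∈ 𝒟 := (𝒟.valuation_le_one_iff _).mp hvh.le
    obtain ⟨s, hs, hint⟩ := hG.integral h hh𝒟
    rw [intO_iff_mem_chart] at hint
    set sF : F := algebraMap E F (aeval x s) with hsF
    let sB : chart O F x := ⟨sF, Surj.aeval_mem_chart x s⟩
    have hsL : sF ∈ L := by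
      rw [hLmem, pow_succ, mul_assoc]
      exact Subalgebra.mul_mem _ (Subalgebra.pow_mem _ sB.2 k) hint
    have hsa : sB ∈ 𝔞B := ⟨sF, hsL, by simp [sB]⟩
    intro hbot
    have h2 : Ideal.Quotient.mk (Ideal.span {π}) sB ∈ 𝔞 := (h𝔞mem _).mpr ⟨sB, hsa, rfl⟩
    rw [hbot, Ideal.mem_bot, hmk] at h2
    have h3 : v (sB : F) = 1 := hprim s hs
    rw [h3] at h2
    exact lt_irrefl _ h2
  by_cases htop : 𝔞 = ⊤
  · -- the good case
    have h2 : (1 : chart O F x ⧸ Ideal.span {π}) ∈ 𝔞 := by rw [htop]; trivial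
    obtain ⟨b, ⟨f, hf, hfb⟩, hb1⟩ := (h𝔞mem _).mp h2
    refine ⟨f, hf, (hcongr f 1).mpr ?_⟩
    rw [← map_one (Ideal.Quotient.mk (Ideal.span {π})), ← sub_eq_zero, ← map_sub, hmk] at hb1
    have : f - 1 = (f - b) + ((b - 1 : chart O F x) : F) := by
      push_cast; ring
    rw [this]
    exact Valuation.map_add_lt v hfb hb1
  · exfalso
    have hh𝒟 : h ∈ 𝒟 := (𝒟.valuation_le_one_iff _).mp hvh.le
    obtain ⟨𝔫t, hmax, hle⟩ := Ideal.exists_le_maximal 𝔞 htop
    obtain ⟨w', hw', hw'0, σ', hσ', hgenr⟩ := exists_local_generator (R := chart O F x ⧸ Ideal.span {π}) 𝔞 𝔫t h𝔞0 hmax.ne_top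
    obtain ⟨bw, ⟨w, hwL, hwb⟩, rfl⟩ := (h𝔞mem _).mp hw'
    obtain ⟨σ₀, rfl⟩ := Ideal.Quotient.mk_surjective σ'
    have h𝔫tprime : 𝔫t.IsPrime :=
      Ideal.IsMaximal.isPrime (α := chart O F x ⧸ Ideal.span {π}) hmax
    let 𝔫 : Ideal (chart O F x) := 𝔫t.comap (Ideal.Quotient.mk (Ideal.span {π}))
    have h𝔫prime : 𝔫.IsPrime := Ideal.comap_isPrime _ _
    have hπ𝔫 : π ∈ 𝔫 := by
      show Ideal.Quotient.mk _ π ∈ 𝔫t
      rw [Ideal.Quotient.eq_zero_iff_mem.mpr (Ideal.mem_span_singleton_self π)]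
      exact 𝔫t.zero_mem
    have hσ₀𝔫 : σ₀ ∉ 𝔫 := hσ'
    have hvbw : v (bw : F) = 1 := by
      apply le_antisymm (hB𝒟 bw)
      rw [← not_lt, ← hmk]
      exact hw'0
    have hvw : v w = 1 := by
      have := Valuation.map_eq_of_sub_lt v (x := (bw : F)) (y := w) (by rw [hvbw]; exact hwb)
      rw [this, hvbw]
    -- key inclusion
    have key : ∀ f ∈ L, σ₀ • f ∈ Submodule.span (chart O F x) {w} ⊔ (Ideal.span {π}) • L := by
      intro f hf
      obtain ⟨b, hb⟩ := hred f hf
      have hb𝔞 : Ideal.Quotient.mk (Ideal.span {π}) b ∈ 𝔞 := (h𝔞mem _).mpr ⟨b, ⟨f, hf, hb⟩, rfl⟩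
      obtain ⟨c', hc'⟩ := hgenr _ hb𝔞
      obtain ⟨c, rfl⟩ := Ideal.Quotient.mk_surjective c'
      rw [← map_mul, ← map_mul, ← sub_eq_zero, ← map_sub, hmk] at hc'
      set g : F := σ₀ • f - c • w with hg
      have hgL : g ∈ L := L.sub_mem (L.smul_mem _ hf) (L.smul_mem _ hwL)
      have hvg : v g < 1 := by
        have : g = (σ₀ : F) * (f - b) + ((σ₀ * b - bw * c : chart O F x) : F)
            + (c : F) * ((bw : F) - w) := by
          show (σ₀ : F) * f - (c : F) * w
            = (σ₀ : F) * (f - b) + ((σ₀ : F) * b - bw * c) + c * (bw - w)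
          ring
        rw [this]
        apply Valuation.map_add_lt v (Valuation.map_add_lt v _ hc') _
        · exact Surj.valuation_mul_lt_one_left v (hB𝒟 σ₀) hb
        · apply Surj.valuation_mul_lt_one_left v (hB𝒟 c)
          rw [← neg_sub, Valuation.map_neg]
          exact hwb
      obtain ⟨g', hg'𝒟, hgg'⟩ := (hcongr g 0).mpr (by rwa [sub_zero])
      rw [sub_zero, pow_one] at hgg'
      have hg'L : g' ∈ L := by
        rw [hLmem]
        apply mem_chart_of_unif_pow_mul_mem K ϖ hϖ x hx hgen 𝒟 hG _ (k + 1)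
        · have : algebraMap E F (algebraMap O E ϖ) ^ (k + 1) * (g' ^ (k + 1) * h)
              = g ^ (k + 1) * h := by
            rw [hgg']; ring
          rw [this]
          exact hgL
        · exact mul_mem (pow_mem hg'𝒟 _) hh𝒟
      refine Submodule.mem_sup.mpr ⟨c • w, Submodule.mem_span_singleton.mpr ⟨c, rfl⟩, π • g',
        Submodule.smul_mem_smul (Ideal.mem_span_singleton_self π) hg'L, ?_⟩
      show c • w + (π : F) * g' = σ₀ • f
      rw [hπcoe, ← hgg', hg]
      abel
    have hLfg : L.FG := by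
      obtain ⟨a, c, hc, hac⟩ := IsFractionRing.div_surjective (A := chart O F x) h⁻¹
      have hc0 : (c : F) ≠ 0 := by
        have := nonZeroDivisors.ne_zero hc
        intro h0
        exact this (Subtype.ext h0)
      have hac' : (a : F) = h⁻¹ * c := by
        have : (a : F) / (c : F) = h⁻¹ := hac
        rw [← this]
        field_simp
      have hmemB : ∀ f ∈ L, (c : F) * f ∈ chart O F x := by
        intro f hf
        apply mem_chart_of_pow_mem x hm0
        have : ((c : F) * f) ^ (k + 1) = (c : F) ^ k * a * (f ^ (k + 1) * h) := by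
          rw [hac']
          field_simp
          ring
        rw [this]
        exact Subalgebra.mul_mem _ (Subalgebra.mul_mem _ (Subalgebra.pow_mem _ c.2 k) a.2) hf
      let ψ : L →ₗ[chart O F x] chart O F x :=
        { toFun := fun f => ⟨(c : F) * f, hmemB f f.2⟩
          map_add' := fun f g => Subtype.ext (mul_add _ _ _)
          map_smul' := fun b f => Subtype.ext (by
            show (c : F) * ((b : F) * f) = (b : F) * ((c : F) * f)
            ring) }
      have hψ : Function.Injective ψ := by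
        intro f g hfg
        have := congrArg Subtype.val hfg
        exact Subtype.ext (mul_left_cancel₀ hc0 this)
      have : Module.Finite (chart O F x) L := Module.Finite.of_injective ψ hψ
      exact Module.Finite.iff_fg.mp this
    obtain ⟨r, σ, hσ, hσL⟩ := exists_smul_mem_of_smul_mem_sup L (Submodule.span _ {w}) hLfg
      (Ideal.span {π}) σ₀ key
    have hσ𝔫 : σ ∉ 𝔫 := by
      intro hσn
      have h2 : σ₀ ^ r ∈ 𝔫 := by
        have h3 : σ - σ₀ ^ r ∈ 𝔫 := (Ideal.span_singleton_le_iff_mem _).mpr hπ𝔫 hσ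
        have := 𝔫.sub_mem hσn h3
        simpa using this
      exact hσ₀𝔫 (h𝔫prime.mem_of_pow_mem r h2)
    let u : chart O F x := ⟨w ^ (k + 1) * h, hwL⟩
    have hvu : v (u : F) = 1 := by
      show v (w ^ (k + 1) * h) = 1
      rw [map_mul, map_pow, hvw, hvh]
      simp
    have hnd : ¬ π ∣ u := by
      rw [← hdvd, hvu]
      exact lt_irrefl _
    have hu𝔫 : u ∈ 𝔫 := by
      have h2 : Ideal.Quotient.mk (Ideal.span {π}) u
          = Ideal.Quotient.mk (Ideal.span {π}) bw ^ (k + 1) := by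
        rw [← map_pow, ← sub_eq_zero, ← map_sub, hmk]
        have : ((u - bw ^ (k + 1) : chart O F x) : F)
            = w ^ (k + 1) * (h - 1) + (w ^ (k + 1) - (bw : F) ^ (k + 1)) := by
          show w ^ (k + 1) * h - (bw : F) ^ (k + 1) = _
          ring
        rw [this]
        apply Valuation.map_add_lt v
        · apply Surj.valuation_mul_lt_one_left v _ hvh1
          rw [map_pow, hvw, one_pow]
        · exact Surj.valuation_pow_sub_pow_lt_one v hvw.le hvbw.le hwb _
      show Ideal.Quotient.mk _ u ∈ 𝔫t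
      rw [h2]
      exact Ideal.pow_mem_of_mem _ (hle hw') _ (Nat.succ_pos k)
    obtain ⟨𝔮, h𝔮, hu𝔮, hπ𝔮, h𝔮𝔫⟩ := exists_prime_mem_notMem_le hπprime hnd 𝔫 hu𝔫
    have h𝔮0 : 𝔮 ≠ ⊥ := by
      rintro rfl
      apply hnd
      rw [Ideal.mem_bot.mp hu𝔮]
      exact dvd_zero _
    obtain ⟨V, hVc, -, hV⟩ := hVal 𝔮 h𝔮 h𝔮0 hπ𝔮
    obtain ⟨t, ht0, ht1, ht2⟩ := hM V hVc
    obtain ⟨a1, b1, hb1, hab1⟩ := (hV _).mp ht1
    obtain ⟨a2, b2, hb2, hab2⟩ := (hV _).mp ht2
    have hε : h * t ^ (k + 1) ≠ 0 := mul_ne_zero hh (pow_ne_zero _ ht0)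
    have ha1 : a1 ∉ 𝔮 := by
      intro ha
      have h2 : a1 * a2 = b1 * b2 := by
        apply Subtype.ext
        show (a1 : F) * a2 = b1 * b2
        rw [← hab1, ← hab2]
        field_simp
      have h3 : b1 * b2 ∈ 𝔮 := by
        rw [← h2]
        exact 𝔮.mul_mem_right _ ha
      rcases h𝔮.mem_or_mem h3 with h4 | h4
      · exact hb1 h4
      · exact hb2 h4
    let z : chart O F x := b1 ^ k * a1
    have hz𝔮 : z ∉ 𝔮 := by
      intro hz
      rcases h𝔮.mem_or_mem hz with h4 | h4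
      · exact hb1 (h𝔮.mem_of_pow_mem k h4)
      · exact ha1 h4
    set f : F := (b1 : F) * t with hf
    have hfz : f ^ (k + 1) * h = (z : F) := by
      show _ = (b1 : F) ^ k * a1
      rw [← hab1, hf]
      ring
    have hfL : f ∈ L := by
      rw [hLmem, hfz]
      exact z.2
    obtain ⟨c, hc⟩ := Submodule.mem_span_singleton.mp (hσL f hfL)
    have h5 : σ ^ (k + 1) * z = u * c ^ (k + 1) := by
      apply Subtype.ext
      show (σ : F) ^ (k + 1) * (z : F) = (w ^ (k + 1) * h) * (c : F) ^ (k + 1)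
      have hc' : (c : F) * w = (σ : F) * f := hc
      rw [← hfz]
      calc (σ : F) ^ (k + 1) * (f ^ (k + 1) * h) = ((σ : F) * f) ^ (k + 1) * h := by ring
        _ = ((c : F) * w) ^ (k + 1) * h := by rw [hc']
        _ = _ := by ring
    have h6 : σ ^ (k + 1) * z ∈ 𝔮 := by
      rw [h5]
      exact 𝔮.mul_mem_right _ hu𝔮
    rcases h𝔮.mem_or_mem h6 with h7 | h7
    · exact hσ𝔫 (h𝔮𝔫 (h𝔮.mem_of_pow_mem _ h7))
    · exact hz𝔮 h7

end Inj

end Fermat.Agent.GoodRed
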