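/-
Good reduction, injectivity part: the section `1` of the reduction lifts.  Owner: helper294.
The proof is in `SurjAux.lean`; here the localisation statement of `ChartVal.lean` is plugged in.
-/
import Fermat.Agent.Lib.GoodRed.ChartVal
import Fermat.Agent.Lib.GoodRed.SurjAux

set_option autoImplicit false
set_option linter.unusedSectionVars false

namespace Fermat.Agent.GoodRed

open Polynomial

variable {O K E F : Type*} [CommRing O] [IsDomain O] [IsDiscreteValuationRing O]
  [Field K] [CharZero K] [Algebra O K] [IsFractionRing O K]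
  [Field E] [Algebra K E] [Algebra O E] [IsScalarTower O K E]
  [Field F] [Algebra E F] [FiniteDimensional E F]

section Inj
variable (K) (ϖ : O) (hϖ : Irreducible ϖ) (x : E) (hx : Transcendental K x)
  (hgen : IntermediateField.adjoin K {x} = ⊤) (𝒟 : ValuationSubring F) (hG : GaussData O ϖ 𝒟 x)
  (m : ℕ) (hm : IsUnit (m : O)) (h : F) (hh : h ≠ 0)

include K hx hgen hϖ hG hm hh in
/-- Surj: the section `1` of the reduction lifts. -/
theorem exists_section_congr_one
    (hN : IsDedekindDomain (chart O F x ⧸ Ideal.span {unifChart O F ϖ x}))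
    (hM : DivisibleDiv K E m h) (h1 : CongrMod (E := E) ϖ 𝒟 1 h 1) :
    ∃ f : F, f ^ m * h ∈ chart O F x ∧ CongrMod (E := E) ϖ 𝒟 1 f 1 :=
  Surj.exists_section_congr_one_of_val K ϖ hϖ x hx hgen 𝒟 hG m hm h hh
    (fun 𝔮 h𝔮 h0 hπ => exists_valuationSubring_of_prime K ϖ hϖ x hx hgen 𝒟 hG 𝔮 h𝔮 h0 hπ)
    hN hM h1

end Inj

end Fermat.Agent.GoodRed
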