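import Fermat.Agent.Lib.GoodRed.MainAux
import Fermat.Agent.Lib.GoodRed.ChartGRC
import Fermat.Agent.Lib.GoodRed.Surj

/-!
# Injectivity of reduction, abstract form: the consumer theorem
-/

set_option autoImplicit false
namespace Fermat.Agent.GoodRed
open Polynomial

theorem inj_main (K : Type*) {O E F : Type*} [CommRing O] [IsDomain O] [IsDiscreteValuationRing O]
    [Field K] [CharZero K] [Algebra O K] [IsFractionRing O K]
    [Field E] [Algebra K E] [Algebra O E] [IsScalarTower O K E]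
    [Field F] [Algebra E F] [FiniteDimensional E F]
    (ϖ : O) (hϖ : Irreducible ϖ) (x : E) (hx : Transcendental K x)
    (hgen : IntermediateField.adjoin K {x} = ⊤) (𝒟 : ValuationSubring F)
    (hG : GaussData O ϖ 𝒟 x)
    (g₀ g₁ : O[X]) (hg₀ : Squarefree (g₀.map (IsLocalRing.residue O)))
    (hg₁ : Squarefree (g₁.map (IsLocalRing.residue O)))
    (hU₀ : UnramOutside K F x (g₀.map (algebraMap O K)))
    (hU₁ : UnramOutside K F x⁻¹ (g₁.map (algebraMap O K)))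
    (m : ℕ) (hm : IsUnit (m : O)) (h : F) (hh : h ≠ 0)
    (hM : DivisibleDiv K E m h)
    (h1 : ∃ z ∈ 𝒟, h = 1 + algebraMap E F (algebraMap O E ϖ) * z) :
    ∃ s c : F, IsConst K E c ∧ h = c * s ^ m := by
  have hc1 : CongrMod (E := E) ϖ 𝒟 1 h 1 := by
    obtain ⟨z, hz, hhz⟩ := h1
    exact ⟨z, hz, by rw [hhz, pow_one]; ring⟩
  have hG' : GaussData O ϖ 𝒟 x⁻¹ := GaussData.inv K ϖ hϖ x hx hgen 𝒟 hG
  have hx' : Transcendental K x⁻¹ := transcendental_inv K x hx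
  have hgen' : IntermediateField.adjoin K {x⁻¹} = ⊤ := adjoin_inv_eq_top K x hgen
  have N0 := isDedekindDomain_chart_quotient K ϖ hϖ x hx hgen 𝒟 hG g₀ hg₀ hU₀
  have N1 := isDedekindDomain_chart_quotient K ϖ hϖ x⁻¹ hx' hgen' 𝒟 hG' g₁ hg₁ hU₁
  exact inj_main_of_sections K ϖ hϖ x hx hgen 𝒟 hG m hm h hh
    (exists_section_congr_one K ϖ hϖ x hx hgen 𝒟 hG m hm h hh N0 hM hc1)
    (exists_section_congr_one K ϖ hϖ x⁻¹ hx' hgen' 𝒟 hG' m hm h hh N1 hM hc1) h1

end Fermat.Agent.GoodRed
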