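/-
GR-C2 (architect helper160, proofs helper231): the chart at infinity.
`GaussData.inv`, gluing of the charts of `x` and `x⁻¹`, and chart(x) ∩ chart(x⁻¹) = constants.
-/
import Fermat.Agent.Lib.GoodRed.Chart

set_option autoImplicit false
set_option linter.unusedSectionVars false
set_option linter.style.haveILetI false

namespace Fermat.Agent.GoodRed

open Polynomial

namespace ChartInv

/-- transport of integrality along ring homs with comparable ranges -/
theorem isIntegralElem_of_range_le {R R' S : Type*} [CommRing R] [CommRing R'] [CommRing S]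
    (f : R →+* S) (g : R' →+* S) (h : ∀ r, ∃ r', g r' = f r) {y : S}
    (hy : f.IsIntegralElem y) : g.IsIntegralElem y := by
  obtain ⟨P, hP, hPy⟩ := hy
  have hl : P.map f ∈ lifts g := by
    rw [lifts_iff_coeff_lifts]
    intro n
    rw [coeff_map]
    exact h _
  obtain ⟨Q, hQ, -, hQm⟩ := lifts_and_natDegree_eq_and_monic hl (hP.map f)
  refine ⟨Q, hQm, ?_⟩
  rw [← eval_map, hQ, eval_map, hPy]

section
variable {R E : Type*} [CommRing R] [Field E] [Algebra R E]

theorem aeval_inv_eq (x : E) (hx0 : x ≠ 0) (N : ℕ) (f : R[X]) (hf : f.natDegree ≤ N) :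
    aeval x⁻¹ f = aeval x (reflect N f) * x⁻¹ ^ N := by
  let _ : Invertible x⁻¹ := invertibleOfNonzero (inv_ne_zero hx0)
  have := eval₂_reflect_mul_pow (algebraMap R E) x⁻¹ N f hf
  rw [invOf_eq_inv, inv_inv] at this
  exact this.symm

theorem aeval_eq_inv (x : E) (hx0 : x ≠ 0) (N : ℕ) (f : R[X]) (hf : f.natDegree ≤ N) :
    aeval x f = aeval x⁻¹ (reflect N f) * x ^ N := by
  have := aeval_inv_eq x⁻¹ (inv_ne_zero hx0) N f hf
  rwa [inv_inv] at this

theorem isPrim_reflect {ϖ : R} {p : R[X]} (hp : IsPrim ϖ p) (N : ℕ) : IsPrim ϖ (reflect N p) := by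
  obtain ⟨i, hi⟩ := hp
  refine ⟨revAt N i, ?_⟩
  rwa [coeff_reflect, revAt_invol]

theorem isPrim_X_pow_mul {ϖ : R} {p : R[X]} (hp : IsPrim ϖ p) (k : ℕ) : IsPrim ϖ (X ^ k * p) := by
  obtain ⟨i, hi⟩ := hp
  refine ⟨i + k, ?_⟩
  rwa [coeff_X_pow_mul]

/-- elements of `R[x]` land in `R[x⁻¹]` after multiplication by a high power of `x⁻¹` -/
theorem exists_forall_mul_inv_pow_mem (x : E) (hx0 : x ≠ 0) (c : E)
    (hc : c ∈ Algebra.adjoin R {x}) :
    ∃ N : ℕ, ∀ M, N ≤ M → c * x⁻¹ ^ M ∈ Algebra.adjoin R {x⁻¹} := by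
  rw [Algebra.adjoin_singleton_eq_range_aeval] at hc
  obtain ⟨p, rfl⟩ := hc
  refine ⟨p.natDegree, fun M hM => ?_⟩
  have h1 : (aeval x : R[X] →ₐ[R] E) p = aeval x⁻¹ (reflect M p) * x ^ M :=
    aeval_eq_inv x hx0 M p hM
  have h2 : (aeval x : R[X] →ₐ[R] E).toRingHom p = aeval x p := rfl
  rw [h2, h1, mul_assoc, ← mul_pow, mul_inv_cancel₀ hx0, one_pow, mul_one]
  exact aeval_mem_adjoin_singleton R x⁻¹

end

section
variable {O E F : Type*} [CommRing O] [Field E] [Algebra O E] [Field F] [Algebra E F]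

theorem intO_iff (x : E) (y : F) : IntO O x y ↔ y ∈ chart O F x := by
  rw [mem_integralClosure_iff]
  constructor
  · intro h
    refine isIntegralElem_of_range_le _ _ (fun p => ?_) h
    exact ⟨toPoly O x p, rfl⟩
  · intro h
    refine isIntegralElem_of_range_le _ _ (fun c => ?_) h
    have hc : (c : E) ∈ Algebra.adjoin O {x} := c.2
    rw [Algebra.adjoin_singleton_eq_range_aeval] at hc
    obtain ⟨p, hp⟩ := hc
    refine ⟨p, ?_⟩
    change algebraMap E F (aeval x p) = algebraMap E F (c : E)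
    rw [← hp]; rfl

/-- the gluing lemma, in a form where the exponent can be increased -/
theorem exists_forall_inv_pow_mul_mem (x : E) (hx0 : x ≠ 0) {y : F} (hy : y ∈ chart O F x) :
    ∃ k : ℕ, ∀ M, k ≤ M → algebraMap E F x⁻¹ ^ M * y ∈ chart O F x⁻¹ := by
  rw [mem_integralClosure_iff] at hy
  obtain ⟨P, hP, hPy⟩ := hy
  -- bounds for all coefficients
  have hN : ∀ i, ∃ N : ℕ, ∀ M, N ≤ M → ((P.coeff i : polyRing O x) : E) * x⁻¹ ^ M ∈
      Algebra.adjoin O {x⁻¹} := fun i =>
    exists_forall_mul_inv_pow_mem x hx0 _ (P.coeff i).2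
  choose N hN using hN
  refine ⟨(Finset.range (P.natDegree + 1)).sup N, fun M hM => ?_⟩
  set PE : E[X] := P.map (algebraMap (polyRing O x) E) with hPE
  have hPEm : PE.Monic := hP.map _
  have hPEdeg : PE.natDegree = P.natDegree := hP.natDegree_map _
  have hPEy : eval₂ (algebraMap E F) y PE = 0 := by
    rw [hPE, eval₂_map]
    exact hPy
  set s : E := x⁻¹ ^ M with hs
  have hroot := scaleRoots_eval₂_eq_zero (algebraMap E F) (s := s) hPEy
  have hmon : (scaleRoots PE s).Monic := (monic_scaleRoots_iff s).mpr hPEm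
  have hl : scaleRoots PE s ∈ lifts (algebraMap (polyRing O x⁻¹) E) := by
    rw [lifts_iff_coeff_lifts]
    intro i
    rw [coeff_scaleRoots, hPEdeg]
    rcases lt_trichotomy i P.natDegree with hi | hi | hi
    · have hle : N i ≤ M * (P.natDegree - i) := by
        have h1 : N i ≤ M := le_trans
          (Finset.le_sup (f := N) (Finset.mem_range.mpr (by omega))) hM
        have h2 : 1 ≤ P.natDegree - i := by omega
        calc N i ≤ M := h1
          _ = M * 1 := (mul_one M).symm
          _ ≤ M * (P.natDegree - i) := Nat.mul_le_mul_left M h2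
      have := hN i _ hle
      rw [hs, ← pow_mul, hPE, coeff_map]
      exact ⟨⟨_, this⟩, rfl⟩
    · subst hi
      rw [Nat.sub_self, pow_zero, mul_one, ← hPEdeg]
      have : PE.coeff PE.natDegree = 1 := hPEm
      rw [this]
      exact ⟨1, map_one _⟩
    · rw [coeff_eq_zero_of_natDegree_lt (by omega), zero_mul]
      exact ⟨0, map_zero _⟩
  obtain ⟨Q, hQ, -, hQm⟩ := lifts_and_natDegree_eq_and_monic hl hmon
  rw [mem_integralClosure_iff]
  refine ⟨Q, hQm, ?_⟩
  have : eval₂ (algebraMap (polyRing O x⁻¹) F) (algebraMap E F x⁻¹ ^ M * y) Q =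
      eval₂ (algebraMap E F) (algebraMap E F x⁻¹ ^ M * y) (Q.map (algebraMap (polyRing O x⁻¹) E)) := by
    rw [eval₂_map]; rfl
  rw [this, hQ, ← map_pow]
  exact hroot

end

section Const
variable {K E F : Type*} [Field K] [Field E] [Algebra K E] [Field F] [Algebra E F]

/-- coefficients of the minimal polynomial of an element integral over `K[x]` lie in `K[x]` -/
theorem coeff_minpoly_mem (x : E) (hx : Transcendental K x)
    (hgen : IntermediateField.adjoin K {x} = ⊤) (y : F) (hy : IntK K x y) (i : ℕ) :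
    ∃ p : K[X], (minpoly E y).coeff i = aeval x p := by
  letI : Algebra K[X] E := ((aeval x : K[X] →ₐ[K] E) : K[X] →+* E).toAlgebra
  letI : Algebra K[X] F :=
    ((algebraMap E F).comp ((aeval x : K[X] →ₐ[K] E) : K[X] →+* E)).toAlgebra
  haveI : IsScalarTower K[X] E F := IsScalarTower.of_algebraMap_eq (fun _ => rfl)
  haveI : FaithfulSMul K[X] E :=
    (faithfulSMul_iff_algebraMap_injective _ _).mpr (transcendental_iff_injective.mp hx)
  haveI : IsFractionRing K[X] E := IsFractionRing.of_field _ _ (fun z => by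
    have hz : z ∈ IntermediateField.adjoin K {x} := hgen ▸ IntermediateField.mem_top
    obtain ⟨r, s, h⟩ := (IntermediateField.mem_adjoin_simple_iff K z).mp hz
    exact ⟨r, s, h⟩)
  have hy' : IsIntegral K[X] y := hy
  have := minpoly.isIntegrallyClosed_eq_field_fractions' E hy'
  rw [this, coeff_map]
  exact ⟨_, rfl⟩

theorem const_of_aeval_eq (x : E) (hx : Transcendental K x) (p p' : K[X])
    (h : aeval x p = aeval x⁻¹ p') : ∃ c : K, aeval x p = algebraMap K E c := by
  have hx0 : x ≠ 0 := fun h0 => hx (h0 ▸ isAlgebraic_zero)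
  rcases eq_or_ne p 0 with rfl | hp
  · exact ⟨0, by simp⟩
  set N := p'.natDegree with hN
  have h1 := aeval_inv_eq x hx0 N p' le_rfl
  have h2 : aeval x (p * X ^ N) = aeval x (reflect N p') := by
    rw [map_mul, map_pow, aeval_X, h, h1, mul_assoc, ← mul_pow, inv_mul_cancel₀ hx0, one_pow,
      mul_one]
  have h3 : p * X ^ N = reflect N p' := transcendental_iff_injective.mp hx h2
  have h4 : (p * X ^ N).natDegree = p.natDegree + N := natDegree_mul_X_pow N hp
  have h5 : (reflect N p').natDegree ≤ N := by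
    have := natDegree_reflect_le (N := N) (p := p')
    rwa [← hN, max_self] at this
  have h6 : p.natDegree = 0 := by rw [h3] at h4; omega
  refine ⟨p.coeff 0, ?_⟩
  conv_lhs => rw [eq_C_of_natDegree_eq_zero h6]
  rw [aeval_C]

end Const

end ChartInv

open ChartInv

variable {O K E F : Type*} [CommRing O] [IsDomain O] [IsDiscreteValuationRing O]
  [Field K] [CharZero K] [Algebra O K] [IsFractionRing O K]
  [Field E] [Algebra K E] [Algebra O E] [IsScalarTower O K E]
  [Field F] [Algebra E F] [FiniteDimensional E F]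

section ChartBase
variable (K) (ϖ : O) (hϖ : Irreducible ϖ) (x : E) (hx : Transcendental K x)
  (hgen : IntermediateField.adjoin K {x} = ⊤) (𝒟 : ValuationSubring F) (hG : GaussData O ϖ 𝒟 x)

include K hx hgen hϖ hG in
/-- the Gauss data for `x` give Gauss data for `x⁻¹`. -/
theorem GaussData.inv : GaussData O ϖ 𝒟 x⁻¹ := by
  have hx0 : x ≠ 0 := fun h0 => hx (h0 ▸ isAlgebraic_zero)
  have hXprim : IsPrim ϖ (X : O[X]) := ⟨1, by
    rw [coeff_X_one]
    exact fun h => hϖ.not_isUnit (isUnit_of_dvd_one h)⟩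
  have hxu := hG.gauss X hXprim
  rw [aeval_X] at hxu
  refine ⟨hG.algebraMap_mem, hG.inv_unif_notMem, hG.unif, ?_, ?_, hG.sep⟩
  · intro p hp
    have h1 := aeval_inv_eq x hx0 p.natDegree p le_rfl
    have h2 := hG.gauss _ (isPrim_reflect hp p.natDegree)
    rw [h1, map_mul, map_pow, map_inv₀, mul_inv, ← inv_pow, inv_inv]
    exact ⟨𝒟.mul_mem _ _ h2.1 (𝒟.pow_mem hxu.2 _), 𝒟.mul_mem _ _ h2.2 (𝒟.pow_mem hxu.1 _)⟩
  · intro y hy
    obtain ⟨s, hs, hint⟩ := hG.integral y hy
    rw [intO_iff] at hint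
    obtain ⟨k, hk⟩ := exists_forall_inv_pow_mul_mem x hx0 hint
    set N := s.natDegree with hN
    refine ⟨X ^ k * reflect N s, isPrim_X_pow_mul (isPrim_reflect hs N) k, ?_⟩
    rw [intO_iff]
    have h1 := hk (k + N) (Nat.le_add_right k N)
    have h2 := aeval_eq_inv x hx0 N s le_rfl
    have h3 : algebraMap E F x⁻¹ ^ (k + N) * (algebraMap E F (aeval x s) * y) =
        algebraMap E F (aeval x⁻¹ (X ^ k * reflect N s)) * y := by
      rw [h2, map_mul (aeval x⁻¹), map_pow (aeval x⁻¹), aeval_X, ← mul_assoc, ← map_pow, ← map_mul]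
      congr 2
      rw [pow_add]
      have : x⁻¹ ^ N * x ^ N = 1 := by rw [← mul_pow, inv_mul_cancel₀ hx0, one_pow]
      calc x⁻¹ ^ k * x⁻¹ ^ N * (aeval x⁻¹ (reflect N s) * x ^ N)
          = x⁻¹ ^ k * aeval x⁻¹ (reflect N s) * (x⁻¹ ^ N * x ^ N) := by ring
        _ = x⁻¹ ^ k * aeval x⁻¹ (reflect N s) := by rw [this, mul_one]
    rwa [h3] at h1

include K hx in
theorem transcendental_inv : Transcendental K x⁻¹ := by
  intro h
  exact hx (by simpa using h.inv)

include K hgen in
theorem adjoin_inv_eq_top : IntermediateField.adjoin K {x⁻¹} = ⊤ := by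
  rw [eq_top_iff, ← hgen, IntermediateField.adjoin_simple_le_iff]
  have := (IntermediateField.adjoin K {x⁻¹}).inv_mem
    (IntermediateField.mem_adjoin_simple_self K x⁻¹)
  rwa [inv_inv] at this

include K hx hgen in
/-- gluing: an element of the chart of `x` becomes an element of the chart of `x⁻¹` after
multiplication by a power of `x⁻¹`. -/
theorem exists_inv_pow_mul_mem_chart {y : F} (hy : y ∈ chart O F x) :
    ∃ k : ℕ, algebraMap E F x⁻¹ ^ k * y ∈ chart O F x⁻¹ := by
  have hx0 : x ≠ 0 := fun h0 => hx (h0 ▸ isAlgebraic_zero)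
  obtain ⟨k, hk⟩ := exists_forall_inv_pow_mul_mem x hx0 hy
  exact ⟨k, hk k le_rfl⟩

include K hx hgen in
/-- global sections are constants. -/
theorem isConst_of_mem_chart_of_mem_chart_inv {y : F} (h₀ : y ∈ chart O F x)
    (h₁ : y ∈ chart O F x⁻¹) : IsConst K E y := by
  have key : ∀ (x' : E), y ∈ chart O F x' → IntK K x' y := by
    intro x' h
    rw [mem_integralClosure_iff] at h
    refine isIntegralElem_of_range_le _ _ (fun c => ?_) h
    have hc : (c : E) ∈ Algebra.adjoin O {x'} := c.2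
    rw [Algebra.adjoin_singleton_eq_range_aeval] at hc
    obtain ⟨p, hp⟩ := hc
    refine ⟨p.map (algebraMap O K), ?_⟩
    change algebraMap E F (aeval x' (p.map (algebraMap O K))) = algebraMap E F (c : E)
    rw [aeval_map_algebraMap, ← hp]; rfl
  have hl : minpoly E y ∈ lifts (algebraMap K E) := by
    rw [lifts_iff_coeff_lifts]
    intro i
    obtain ⟨p, hp⟩ := coeff_minpoly_mem x hx hgen y (key x h₀) i
    obtain ⟨p', hp'⟩ := coeff_minpoly_mem x⁻¹ (transcendental_inv K x hx)
      (adjoin_inv_eq_top K x hgen) y (key x⁻¹ h₁) i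
    obtain ⟨c, hc⟩ := const_of_aeval_eq x hx p p' (hp.symm.trans hp')
    exact ⟨c, by rw [hp, hc]⟩
  have hint : IsIntegral E y := Algebra.IsIntegral.isIntegral y
  obtain ⟨g, hg, -, hgm⟩ := lifts_and_natDegree_eq_and_monic hl (minpoly.monic hint)
  refine ⟨g, hgm, ?_⟩
  rw [← eval₂_map, hg]
  exact minpoly.aeval E y

end ChartBase

end Fermat.Agent.GoodRed
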