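import Mathlib

/-!
# GR-T: tame upper bound for the different (owner: helper270)

The fields `K`, `L` of the common header do not occur in the statements: separability of
`Frac B / Frac A` follows from `CharZero (A ⧸ p)`.
-/

set_option autoImplicit false
namespace Fermat.Agent.GoodRed
open Polynomial nonZeroDivisors Module
attribute [local instance] FractionRing.liftAlgebra FractionRing.isScalarTower_liftAlgebra Ideal.Quotient.field
variable (A K : Type*) {L B : Type*} [CommRing A] [Field K] [CommRing B] [Field L]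
  [Algebra A K] [Algebra B L] [Algebra A B] [Algebra K L] [Algebra A L]
  [IsScalarTower A K L] [IsScalarTower A B L]
  [IsDedekindDomain A] [IsFractionRing A K] [IsDedekindDomain B] [IsFractionRing B L]
  [FiniteDimensional K L] [Algebra.IsSeparable K L] [IsIntegralClosure B A L]

/-- separability of the extension of fraction rings in characteristic zero -/
theorem isSeparable_fractionRing_of_charZero [IsTorsionFree A B] [Module.Finite A B]
    [CharZero A] : Algebra.IsSeparable (FractionRing A) (FractionRing B) := by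
  have : CharZero (FractionRing A) :=
    charZero_of_injective_algebraMap (IsFractionRing.injective A (FractionRing A))
  have h1 : Algebra.IsAlgebraic A B := inferInstance
  have h2 : Algebra.IsAlgebraic A (FractionRing B) :=
    (IsFractionRing.isAlgebraic_iff' A B (FractionRing B)).mp h1
  have h3 : Algebra.IsAlgebraic (FractionRing A) (FractionRing B) :=
    IsFractionRing.comap_isAlgebraic_iff.mp h2
  infer_instance

/-- version for arbitrary coprime ideals `P'`, `Q` -/
theorem not_dvd_differentIdeal_of_charZero [IsTorsionFree A B] [Module.Finite A B]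
    (p : Ideal A) [p.IsMaximal] [CharZero (A ⧸ p)] (P' Q : Ideal B) (hP' : P' ≠ ⊤)
    (hPQ : IsCoprime P' Q) (h : P' * Q = p.map (algebraMap A B)) :
    ¬ P' ∣ differentIdeal A B := by
  have : CharZero A := (Ideal.Quotient.mk p).charZero
  have := isSeparable_fractionRing_of_charZero A (B := B)
  let _ : Algebra (A ⧸ p) (B ⧸ Q) := Ideal.Quotient.algebraQuotientOfLEComap (by
      rw [← Ideal.map_le_iff_le_comap, ← h]
      exact Ideal.mul_le_right)
  let _ : Algebra (A ⧸ p) (B ⧸ P') := Ideal.Quotient.algebraQuotientOfLEComap (by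
      rw [← Ideal.map_le_iff_le_comap, ← h]
      exact Ideal.mul_le_left)
  have : IsScalarTower A (A ⧸ p) (B ⧸ Q) := .of_algebraMap_eq' rfl
  have : IsScalarTower A (A ⧸ p) (B ⧸ P') := .of_algebraMap_eq' rfl
  have : Module.Finite (A ⧸ p) (B ⧸ Q) :=
    Module.Finite.of_restrictScalars_finite A (A ⧸ p) (B ⧸ Q)
  have : Module.Finite (A ⧸ p) (B ⧸ P') :=
    Module.Finite.of_restrictScalars_finite A (A ⧸ p) (B ⧸ P')
  have : Nontrivial (B ⧸ P') := Ideal.Quotient.nontrivial_iff.mpr hP'
  let e : (B ⧸ p.map (algebraMap A B)) ≃ₐ[A ⧸ p] ((B ⧸ P') × B ⧸ Q) :=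
    { __ := (Ideal.quotEquivOfEq h.symm).trans (Ideal.quotientMulEquivQuotientProd P' Q hPQ),
      commutes' := Quotient.ind fun _ ↦ rfl }
  obtain ⟨y, hy⟩ := Ideal.Quotient.mk_surjective (e.symm (1, 0))
  refine not_dvd_differentIdeal_of_intTrace_not_mem A P' Q h y ?_ ?_
  · have := congr((e $hy).2)
    simp at this
    simpa [e, Ideal.Quotient.eq_zero_iff_mem] using this
  · rw [← Ideal.Quotient.eq_zero_iff_mem, ← Algebra.trace_quotient_eq_of_isDedekindDomain,
      hy, Algebra.trace_eq_of_algEquiv, Algebra.trace_prod_apply]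
    simp only [map_zero, add_zero]
    rw [← map_one (algebraMap (A ⧸ p) (B ⧸ P')), Algebra.trace_algebraMap]
    have hpos : 0 < finrank (A ⧸ p) (B ⧸ P') := Module.finrank_pos
    simpa using hpos.ne'

theorem not_pow_dvd_differentIdeal_of_tame [IsTorsionFree A B] [Module.Finite A B]
    (p : Ideal A) [p.IsMaximal] [CharZero (A ⧸ p)] (P Q : Ideal B) [P.IsPrime] (e : ℕ) (he : e ≠ 0)
    (hPQ : IsCoprime (P ^ e) Q) (h : P ^ e * Q = p.map (algebraMap A B)) :
    ¬ P ^ e ∣ differentIdeal A B := by
  have hP : P ^ e ≠ ⊤ := by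
    intro htop
    have h1 : P = ⊤ := by
      rw [eq_top_iff, ← htop]
      exact Ideal.pow_le_self he
    exact (‹P.IsPrime›).ne_top h1
  exact not_dvd_differentIdeal_of_charZero A p (P ^ e) Q hP hPQ h

end Fermat.Agent.GoodRed
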