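/-
`GaussData` for a bigger rational base field: `E = K(x) ⊆ E' = K(x') ⊆ F`, `x = a(x') / b(x')`.
-/
import Fermat.Agent.Lib.GoodRed.Defs

set_option autoImplicit false

namespace Fermat.Agent.GoodRed

open Polynomial

namespace BaseChange

/-- transport of integrality along ring homs with comparable ranges -/
theorem isIntegralElem_of_range_le {R R' S : Type*} [CommRing R] [CommRing R'] [CommRing S]
    (f : R →+* S) (g : R' →+* S) (h : ∀ r, ∃ r', g r' = f r) {y : S}
    (hy : f.IsIntegralElem y) : g.IsIntegralElem y := by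
  obtain ⟨P, hP, hPy⟩ := hy
  have hl : P.map f ∈ lifts g := by
    rw [lifts_iff_coeff_lifts]
    intro n
    rw [coeff_map]
    exact h _
  obtain ⟨Q, hQ, -, hQm⟩ := lifts_and_natDegree_eq_and_monic hl (hP.map f)
  refine ⟨Q, hQm, ?_⟩
  rw [← eval_map, hQ, eval_map, hPy]

section Hom

variable {O F : Type*} [CommRing O] [Field F] {ϖ : O} {𝒟 : ValuationSubring F} (φ : O[X] →+* F)

theorem not_dvd_one (h1 : (φ (C ϖ))⁻¹ ∉ 𝒟) (h3 : ∀ a, φ (C a) ∈ 𝒟) : ¬ ϖ ∣ 1 := by
  rintro ⟨u, hu⟩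
  apply h1
  have : φ (C ϖ) * φ (C u) = 1 := by rw [← map_mul, ← C_mul, ← hu, C_1, map_one]
  rw [inv_eq_of_mul_eq_one_right this]
  exact h3 u

theorem ne_zero_of_isPrim (h1 : (φ (C ϖ))⁻¹ ∉ 𝒟)
    (h2 : ∀ p, IsPrim ϖ p → φ p ∈ 𝒟 ∧ (φ p)⁻¹ ∈ 𝒟) {p : O[X]} (hp : IsPrim ϖ p) : φ p ≠ 0 := by
  intro h0
  apply h1
  obtain ⟨i, hi⟩ := hp
  have hq : IsPrim ϖ (p * X + C ϖ) :=
    ⟨i + 1, by rwa [coeff_add, coeff_mul_X, coeff_C_succ, add_zero]⟩
  have := (h2 _ hq).2
  rwa [map_add, map_mul, h0, zero_mul, zero_add] at this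

theorem mem_of_gauss (h1 : (φ (C ϖ))⁻¹ ∉ 𝒟)
    (h2 : ∀ p, IsPrim ϖ p → φ p ∈ 𝒟 ∧ (φ p)⁻¹ ∈ 𝒟) (h3 : ∀ a, φ (C a) ∈ 𝒟) (T : O[X]) :
    φ T ∈ 𝒟 := by
  have hX : φ X ∈ 𝒟 := (h2 X ⟨1, by rw [coeff_X_one]; exact not_dvd_one φ h1 h3⟩).1
  induction T using Polynomial.induction_on' with
  | add p q hp hq => rw [map_add]; exact 𝒟.add_mem _ _ hp hq
  | monomial n a =>
    rw [← C_mul_X_pow_eq_monomial, map_mul, map_pow]
    exact 𝒟.mul_mem _ _ (h3 a) (pow_mem hX n)

theorem isPrim_of_inv_mem (h1 : (φ (C ϖ))⁻¹ ∉ 𝒟) (hmem : ∀ T, φ T ∈ 𝒟) {S : O[X]}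
    (h0 : φ S ≠ 0) (hinv : (φ S)⁻¹ ∈ 𝒟) : IsPrim ϖ S := by
  by_contra hS
  have hdvd : ∀ i, ϖ ∣ S.coeff i := by
    intro i
    by_contra h
    exact hS ⟨i, h⟩
  obtain ⟨T, rfl⟩ := (C_dvd_iff_dvd_coeff ϖ S).mpr hdvd
  apply h1
  rw [map_mul] at h0 hinv
  have hT0 : φ T ≠ 0 := right_ne_zero_of_mul h0
  have : (φ (C ϖ))⁻¹ = φ T * (φ (C ϖ) * φ T)⁻¹ := by
    rw [mul_inv, mul_comm (φ (C ϖ))⁻¹, mul_inv_cancel_left₀ hT0]
  rw [this]
  exact 𝒟.mul_mem _ _ (hmem T) hinv

end Hom

section Homog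

variable {O : Type*} [CommRing O]

/-- `b ^ d * c (a / b)` -/
noncomputable def homog (a b : O[X]) (d : ℕ) (c : O[X]) : O[X] :=
  ∑ i ∈ Finset.range (d + 1), C (c.coeff i) * a ^ i * b ^ (d - i)

theorem aeval_homog {R : Type*} [CommRing R] [Algebra O R] (x' x : R) (a b : O[X])
    (hx : x * aeval x' b = aeval x' a) (d : ℕ) (c : O[X]) (hd : c.natDegree ≤ d) :
    aeval x' (homog a b d c) = aeval x' b ^ d * aeval x c := by
  unfold homog
  rw [map_sum, aeval_eq_sum_range' (Nat.lt_succ_of_le hd) x, Finset.mul_sum]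
  refine Finset.sum_congr rfl fun i hi => ?_
  have hi' : i ≤ d := Nat.lt_succ_iff.mp (Finset.mem_range.mp hi)
  rw [map_mul, map_mul, map_pow, map_pow, aeval_C, ← hx, Algebra.smul_def, mul_pow]
  have : aeval x' b ^ d = aeval x' b ^ i * aeval x' b ^ (d - i) := by
    rw [← pow_add, Nat.add_sub_cancel' hi']
  rw [this]
  ring

end Homog

/-- clearing denominators in an integral equation -/
theorem isIntegralElem_scale {O F : Type*} [CommRing O] [Field F] (f f' : O[X] →+* F) (b : O[X])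
    (D : ℕ) (H : ∀ c : O[X], c.natDegree ≤ D → ∃ c', f' c' = f' b ^ D * f c)
    {z : F} (Q : O[X][X]) (hQ : Q.Monic) (hQz : eval₂ f z Q = 0)
    (hD : ∀ i, (Q.coeff i).natDegree ≤ D) : f'.IsIntegralElem (f' b ^ D * z) := by
  set QF : F[X] := Q.map f with hQF
  have hQFm : QF.Monic := hQ.map f
  have hdeg : QF.natDegree = Q.natDegree := hQ.natDegree_map f
  have hroot0 : eval₂ (RingHom.id F) z QF = 0 := by
    rw [hQF, eval₂_map, RingHom.id_comp]
    exact hQz
  set s : F := f' b ^ D with hs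
  have hroot := scaleRoots_eval₂_eq_zero (RingHom.id F) (s := s) hroot0
  have hmon : (scaleRoots QF s).Monic := (monic_scaleRoots_iff s).mpr hQFm
  have hl : scaleRoots QF s ∈ lifts f' := by
    rw [lifts_iff_coeff_lifts]
    intro i
    rw [coeff_scaleRoots, hdeg]
    rcases lt_trichotomy i Q.natDegree with hi | hi | hi
    · obtain ⟨c', hc'⟩ := H (Q.coeff i) (hD i)
      refine ⟨c' * b ^ (D * (Q.natDegree - i - 1)), ?_⟩
      rw [map_mul, hc', map_pow, hQF, coeff_map]
      have : s ^ (Q.natDegree - i) = s * f' b ^ (D * (Q.natDegree - i - 1)) := by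
        rw [pow_mul, ← hs, ← pow_succ']
        congr 1
        omega
      rw [this]
      ring
    · subst hi
      rw [Nat.sub_self, pow_zero, mul_one, ← hdeg]
      have : QF.coeff QF.natDegree = 1 := hQFm
      rw [this]
      exact ⟨1, map_one _⟩
    · rw [coeff_eq_zero_of_natDegree_lt (by omega), zero_mul]
      exact ⟨0, map_zero _⟩
  obtain ⟨Q', hQ', -, hQ'm⟩ := lifts_and_natDegree_eq_and_monic hl hmon
  refine ⟨Q', hQ'm, ?_⟩
  rw [← eval_map, hQ']
  simpa [eval₂_id] using hroot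

end BaseChange

open BaseChange in
/-- Change of the base coordinate.  `x = a(x') / b(x')` with `b` primitive, and primitive
polynomials in `x'` are units of `𝒟`. -/
theorem GaussData.changeBase {O E E' F : Type*} [CommRing O] [Field E] [Algebra O E]
    [Field E'] [Algebra O E'] [Algebra E E'] [IsScalarTower O E E']
    [Field F] [Algebra E F] [Algebra E' F] [IsScalarTower E E' F]
    [FiniteDimensional E F] {ϖ : O} {𝒟 : ValuationSubring F} {x : E} (x' : E')
    (hG : GaussData O ϖ 𝒟 x)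
    (hgauss : ∀ p : O[X], IsPrim ϖ p →
      algebraMap E' F (aeval x' p) ∈ 𝒟 ∧ (algebraMap E' F (aeval x' p))⁻¹ ∈ 𝒟)
    (a b : O[X]) (hb : IsPrim ϖ b) (hx : algebraMap E E' x * aeval x' b = aeval x' a) :
    GaussData O ϖ 𝒟 x' := by
  have hEF : ∀ e : E, algebraMap E' F (algebraMap E E' e) = algebraMap E F e := fun e =>
    (IsScalarTower.algebraMap_apply E E' F e).symm
  have hOE : ∀ a : O, algebraMap O E' a = algebraMap E E' (algebraMap O E a) :=
    IsScalarTower.algebraMap_apply O E E'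
  have hO : ∀ a : O, algebraMap E' F (algebraMap O E' a) = algebraMap E F (algebraMap O E a) :=
    fun a => by rw [hOE, hEF]
  let f : O[X] →+* F := (algebraMap E F).comp ((aeval x : O[X] →ₐ[O] E) : O[X] →+* E)
  let f' : O[X] →+* F := (algebraMap E' F).comp ((aeval x' : O[X] →ₐ[O] E') : O[X] →+* E')
  have hf : ∀ p, f p = algebraMap E F (aeval x p) := fun _ => rfl
  have hf' : ∀ p, f' p = algebraMap E' F (aeval x' p) := fun _ => rfl
  have hfC : ∀ a, f (C a) = algebraMap E F (algebraMap O E a) := fun a => by rw [hf, aeval_C]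
  have hf'C : ∀ a, f' (C a) = algebraMap E F (algebraMap O E a) := fun a => by
    rw [hf', aeval_C, hO]
  have h1 : (f (C ϖ))⁻¹ ∉ 𝒟 := by rw [hfC]; exact hG.inv_unif_notMem
  have h1' : (f' (C ϖ))⁻¹ ∉ 𝒟 := by rw [hf'C]; exact hG.inv_unif_notMem
  have h2 : ∀ p, IsPrim ϖ p → f p ∈ 𝒟 ∧ (f p)⁻¹ ∈ 𝒟 := hG.gauss
  have h2' : ∀ p, IsPrim ϖ p → f' p ∈ 𝒟 ∧ (f' p)⁻¹ ∈ 𝒟 := hgauss
  have h3 : ∀ a, f (C a) ∈ 𝒟 := fun a => by rw [hfC]; exact hG.algebraMap_mem a
  have h3' : ∀ a, f' (C a) ∈ 𝒟 := fun a => by rw [hf'C]; exact hG.algebraMap_mem a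
  have hmem : ∀ T, f T ∈ 𝒟 := mem_of_gauss f h1 h2 h3
  have hmem' : ∀ T, f' T ∈ 𝒟 := mem_of_gauss f' h1' h2' h3'
  have hH : ∀ (d : ℕ) (c : O[X]), c.natDegree ≤ d → f' (homog a b d c) = f' b ^ d * f c := by
    intro d c hd
    rw [hf' (homog a b d c), hf' b, hf c, aeval_homog x' (algebraMap E E' x) a b hx d c hd,
      map_mul, map_pow, aeval_algebraMap_apply, hEF]
  have : FiniteDimensional E E' := FiniteDimensional.left E E' F
  have : FiniteDimensional E' F := FiniteDimensional.right E E' F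
  -- the trace from `E'` to `E` preserves integrality with respect to `𝒟`
  have key : ∀ w' : E', algebraMap E' F w' ∈ 𝒟 →
      algebraMap E F (Algebra.trace E E' w') ∈ 𝒟 := by
    intro w' hw'
    let R : ValuationSubring E := 𝒟.comap (algebraMap E F)
    obtain ⟨s, hs, Q, hQ, hQz⟩ := hG.integral _ hw'
    set u : E' := algebraMap E E' (aeval x s) * w' with hu
    have hu' : algebraMap E F (aeval x s) * algebraMap E' F w' = algebraMap E' F u := by
      rw [hu, map_mul, hEF]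
    rw [hu'] at hQz
    let g : O[X] →+* E' := (algebraMap E E').comp ((aeval x : O[X] →ₐ[O] E) : O[X] →+* E)
    have hfg : (algebraMap E F).comp ((aeval x : O[X] →ₐ[O] E) : O[X] →+* E) =
        (algebraMap E' F).comp g := RingHom.ext fun p => (hEF _).symm
    have hgu : g.IsIntegralElem u := by
      refine ⟨Q, hQ, (algebraMap E' F).injective ?_⟩
      rw [map_zero, hom_eval₂, ← hfg]
      exact hQz
    have hRu : IsIntegral R u := by
      refine isIntegralElem_of_range_le g (algebraMap R E') (fun T => ?_) hgu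
      exact ⟨⟨aeval x T, hmem T⟩, rfl⟩
    have hs0 : aeval x s ≠ 0 := by
      intro h
      apply ne_zero_of_isPrim f h1 h2 hs
      rw [hf, h, map_zero]
    have hsinv : (aeval x s)⁻¹ ∈ R := by
      show algebraMap E F (aeval x s)⁻¹ ∈ 𝒟
      rw [map_inv₀]
      exact (h2 s hs).2
    have hRw : IsIntegral R w' := by
      have h4 : IsIntegral R (algebraMap R E' ⟨(aeval x s)⁻¹, hsinv⟩ * u) :=
        isIntegral_algebraMap.mul hRu
      have h5 : algebraMap R E' ⟨(aeval x s)⁻¹, hsinv⟩ * u = w' := by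
        show algebraMap E E' (aeval x s)⁻¹ * u = w'
        rw [hu, map_inv₀, inv_mul_cancel_left₀]
        simpa using hs0
      rwa [h5] at h4
    have hRt : IsIntegral R (Algebra.trace E E' w') := Algebra.isIntegral_trace hRw
    obtain ⟨r, hr⟩ := IsIntegrallyClosed.isIntegral_iff.mp hRt
    rw [← hr]
    exact r.2
  refine ⟨fun a => ?_, ?_, ?_, hgauss, ?_, ?_⟩
  · rw [hO]; exact hG.algebraMap_mem a
  · rw [hO]; exact hG.inv_unif_notMem
  · rw [hO]; exact hG.unif
  · intro y hy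
    obtain ⟨s, hs, Q, hQ, hQz⟩ := hG.integral y hy
    set D := max ((Finset.range (Q.natDegree + 1)).sup fun i => (Q.coeff i).natDegree)
      s.natDegree with hDdef
    have hD : ∀ i, (Q.coeff i).natDegree ≤ D := by
      intro i
      by_cases hi : i ≤ Q.natDegree
      · exact le_trans (Finset.le_sup (f := fun i => (Q.coeff i).natDegree)
          (Finset.mem_range.mpr (Nat.lt_succ_of_le hi))) (le_max_left _ _)
      · rw [coeff_eq_zero_of_natDegree_lt (not_le.mp hi), natDegree_zero]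
        exact Nat.zero_le _
    have hsD : s.natDegree ≤ D := le_max_right _ _
    have hint := isIntegralElem_scale f f' b D (fun c hc => ⟨homog a b D c, hH D c hc⟩) Q hQ hQz hD
    refine ⟨homog a b D s, ?_, ?_⟩
    · apply isPrim_of_inv_mem f' h1' hmem'
      · rw [hH D s hsD]
        exact mul_ne_zero (pow_ne_zero _ (ne_zero_of_isPrim f' h1' h2' hb))
          (ne_zero_of_isPrim f h1 h2 hs)
      · rw [hH D s hsD, mul_inv, ← inv_pow]
        exact 𝒟.mul_mem _ _ (pow_mem (h2' b hb).2 D) (h2 s hs).2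
    · show f'.IsIntegralElem (f' (homog a b D s) * y)
      rw [hH D s hsD, mul_assoc]
      exact hint
  · intro y hy hyz
    rw [hO]
    apply hG.sep y hy
    intro z hz
    obtain ⟨w, hw, hw'⟩ := hyz z hz
    rw [hO] at hw'
    set p : E := algebraMap O E ϖ with hp
    have hp0 : algebraMap E F p ≠ 0 := by
      intro h
      apply hG.inv_unif_notMem
      rw [h, inv_zero]
      exact 𝒟.zero_mem
    have hp0' : algebraMap E E' p ≠ 0 := by
      intro h
      apply hp0
      rw [← hEF, h, map_zero]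
    set t : E' := Algebra.trace E' F (y * z) with ht
    set w' : E' := (algebraMap E E' p)⁻¹ * t with hw'def
    have hw'' : algebraMap E' F w' = w := by
      rw [hw'def, map_mul, map_inv₀, hEF, hw', inv_mul_cancel_left₀ hp0]
    have ht' : t = p • w' := by
      rw [Algebra.smul_def, hw'def, mul_inv_cancel_left₀ hp0']
    refine ⟨algebraMap E F (Algebra.trace E E' w'), key w' (hw'' ▸ hw), ?_⟩
    rw [← Algebra.trace_trace (S := E'), ← map_mul, ← ht, ht', map_smul, smul_eq_mul]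

end Fermat.Agent.GoodRed
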