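/-
GR-I3: bounded torsion of the first Cech cohomology group of the sheaf `{f | f ^ m * h regular}`
on the two charts of the normal model.  Owner: helper182.
-/
import Fermat.Agent.Lib.GoodRed.ChartBase
import Fermat.Agent.Lib.GoodRed.ChartInv

set_option autoImplicit false
namespace Fermat.Agent.GoodRed
open Polynomial

namespace H1

section Abstract

variable {R M : Type*} [CommRing R] [IsNoetherianRing R] [AddCommGroup M] [Module R M]

/-- Bounded `ϖ`-power torsion in `(P ⊔ T) / P` for a finitely generated `T`. -/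
theorem exists_bound_of_fg (ϖ : R) (P T : Submodule R M) (hT : T.FG) :
    ∃ c : ℕ, ∀ (k : ℕ) (η : M), η ∈ P ⊔ T → ϖ ^ k • η ∈ P → ϖ ^ c • η ∈ P := by
  have : IsNoetherian R T := isNoetherian_of_fg_of_noetherian T hT
  let f : ℕ →o Submodule R T :=
    { toFun := fun k => (P.comap ((ϖ ^ k) • (LinearMap.id : M →ₗ[R] M))).comap T.subtype
      monotone' := by
        intro a b hab t ht
        simp only [Submodule.mem_comap, Submodule.subtype_apply, LinearMap.smul_apply,
          LinearMap.id_coe, id_eq] at ht ⊢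
        obtain ⟨d, rfl⟩ := Nat.exists_eq_add_of_le hab
        rw [pow_add, mul_comm, mul_smul]
        exact P.smul_mem _ ht }
  obtain ⟨c, hc⟩ := monotone_stabilizes_iff_noetherian.mpr ‹IsNoetherian R T› f
  refine ⟨c, fun k η hη hk => ?_⟩
  obtain ⟨p, hp, t, ht, rfl⟩ := Submodule.mem_sup.mp hη
  have h1 : ϖ ^ k • t ∈ P := by
    have := P.sub_mem hk (P.smul_mem (ϖ ^ k) hp)
    rwa [smul_add, add_sub_cancel_left] at this
  have hmem : ∀ j : ℕ, (⟨t, ht⟩ : T) ∈ f j ↔ ϖ ^ j • t ∈ P := fun j => Iff.rfl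
  have h2 : (⟨t, ht⟩ : T) ∈ f k := (hmem k).mpr h1
  have h3 : (⟨t, ht⟩ : T) ∈ f c := by
    rcases le_total c k with h | h
    · rw [hc k h]; exact h2
    · exact f.monotone h h2
  have h4 : ϖ ^ c • t ∈ P := (hmem c).mp h3
  rw [smul_add]
  exact P.add_mem (P.smul_mem _ hp) h4

end Abstract

section Sec

variable {O E F : Type*} [CommRing O] [Field E] [Algebra O E] [Field F] [Algebra E F]

theorem algebraMap_mem_chart (x : E) {r : E} (hr : r ∈ polyRing O x) :
    algebraMap E F r ∈ chart O F x :=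
  (chart O F x).algebraMap_mem ⟨r, hr⟩

theorem const_mem_chart (x : E) (a : O) : algebraMap E F (algebraMap O E a) ∈ chart O F x :=
  algebraMap_mem_chart x ((polyRing O x).algebraMap_mem a)

theorem var_mem_chart (x : E) : algebraMap E F x ∈ chart O F x :=
  algebraMap_mem_chart x (Algebra.self_mem_adjoin_singleton O x)

theorem mem_chart_of_pow {x : E} {y : F} {n : ℕ} (hn : n ≠ 0) (hy : y ^ n ∈ chart O F x) :
    y ∈ chart O F x :=
  IsIntegral.of_pow (Nat.pos_of_ne_zero hn) hy

theorem smul_sec {x : E} {m : ℕ} {h b f : F} (hb : b ∈ chart O F x)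
    (hf : f ^ m * h ∈ chart O F x) : (b * f) ^ m * h ∈ chart O F x := by
  rw [mul_pow, mul_assoc]
  exact (chart O F x).mul_mem ((chart O F x).pow_mem hb m) hf

theorem add_sec {x : E} {m : ℕ} {h f f' : F} (hm : m ≠ 0) (hf : f ^ m * h ∈ chart O F x)
    (hf' : f' ^ m * h ∈ chart O F x) : (f + f') ^ m * h ∈ chart O F x := by
  rw [add_pow, Finset.sum_mul]
  refine (chart O F x).sum_mem fun i hi => ?_
  have hi' : i ≤ m := Nat.lt_succ_iff.mp (Finset.mem_range.mp hi)
  have h1 : f ^ i * f' ^ (m - i) * h ∈ chart O F x := by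
    apply mem_chart_of_pow hm
    have : (f ^ i * f' ^ (m - i) * h) ^ m = (f ^ m * h) ^ i * (f' ^ m * h) ^ (m - i) := by
      have hh : h ^ m = h ^ i * h ^ (m - i) := by rw [← pow_add, Nat.add_sub_cancel' hi']
      rw [mul_pow, mul_pow, mul_pow, mul_pow, hh, ← pow_mul, ← pow_mul, ← pow_mul, ← pow_mul,
        mul_comm i m, mul_comm (m - i) m]
      ring
    rw [this]
    exact (chart O F x).mul_mem ((chart O F x).pow_mem hf _) ((chart O F x).pow_mem hf' _)
  have h2 : f ^ i * f' ^ (m - i) * (m.choose i : F) * h =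
      (m.choose i : F) * (f ^ i * f' ^ (m - i) * h) := by ring
  rw [h2]
  exact (chart O F x).mul_mem (natCast_mem _ _) h1

theorem neg_sec {x : E} {m : ℕ} {h f : F} (hf : f ^ m * h ∈ chart O F x) :
    (-f) ^ m * h ∈ chart O F x := by
  have : (-f) = (-1 : F) * f := by ring
  rw [this]
  exact smul_sec ((chart O F x).neg_mem (chart O F x).one_mem) hf

end Sec

section Concrete

variable {O K E F : Type*} [CommRing O] [IsDomain O] [IsDiscreteValuationRing O]
  [Field K] [CharZero K] [Algebra O K] [IsFractionRing O K]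
  [Field E] [Algebra K E] [Algebra O E] [IsScalarTower O K E]
  [Field F] [Algebra E F] [FiniteDimensional E F]

/-- A section on the chart of `x` becomes a section on the chart of `x⁻¹` after multiplication by
a high power of `x⁻¹`. -/
theorem exists_shift (K : Type*) [Field K] [CharZero K] [Algebra O K] [IsFractionRing O K]
    [Algebra K E] [IsScalarTower O K E] (x : E) (hx : Transcendental K x)
    (hgen : IntermediateField.adjoin K {x} = ⊤) {m : ℕ} (hm : m ≠ 0) {h l : F}
    (hl : l ^ m * h ∈ chart O F x) :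
    ∃ N : ℕ, ∀ j, N ≤ j → (algebraMap E F x⁻¹ ^ j * l) ^ m * h ∈ chart O F x⁻¹ := by
  obtain ⟨k, hk⟩ := exists_inv_pow_mul_mem_chart K x hx hgen hl
  refine ⟨k, fun j hj => ?_⟩
  have hkj : k ≤ j * m := hj.trans (Nat.le_mul_of_pos_right j (Nat.pos_of_ne_zero hm))
  have : (algebraMap E F x⁻¹ ^ j * l) ^ m * h =
      algebraMap E F x⁻¹ ^ (j * m - k) * (algebraMap E F x⁻¹ ^ k * (l ^ m * h)) := by
    rw [← mul_assoc, ← pow_add, Nat.sub_add_cancel hkj, mul_pow, ← pow_mul, mul_assoc]
  rw [this]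
  exact (chart O F x⁻¹).mul_mem ((chart O F x⁻¹).pow_mem (var_mem_chart x⁻¹) _) hk

/-- The module of sections on one chart is finitely generated over `O[x]`. -/
theorem exists_finset_span (K : Type*) [Field K] [CharZero K] [Algebra O K] [IsFractionRing O K]
    [Algebra K E] [IsScalarTower O K E] (x : E) (hx : Transcendental K x)
    (hgen : IntermediateField.adjoin K {x} = ⊤) {m : ℕ} (hm : m ≠ 0) {h : F} (hh : h ≠ 0) :
    ∃ s : Finset F, (∀ l ∈ s, l ^ m * h ∈ chart O F x) ∧
      ∀ f : F, f ^ m * h ∈ chart O F x → f ∈ Submodule.span (polyRing O x) (s : Set F) := by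
  classical
  let L : Submodule (polyRing O x) F :=
    { carrier := {f | f ^ m * h ∈ chart O F x}
      add_mem' := fun hf hf' => add_sec hm hf hf'
      zero_mem' := by
        show (0 : F) ^ m * h ∈ chart O F x
        rw [zero_pow hm, zero_mul]; exact (chart O F x).zero_mem
      smul_mem' := fun r f hf => by
        show (r • f) ^ m * h ∈ chart O F x
        rw [Algebra.smul_def]
        exact smul_sec ((chart O F x).algebraMap_mem r) hf }
  have hfrac : IsFractionRing (chart O F x) F := isFractionRing_chart K x hx hgen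
  obtain ⟨a, b, hb, hab⟩ := IsFractionRing.div_surjective (A := chart O F x) h
  have ha0 : (a : F) ≠ 0 := by
    intro h0
    apply hh
    rw [← hab]
    have : algebraMap (chart O F x) F a = 0 := h0
    rw [this, zero_div]
  have hb0 : (b : F) ≠ 0 := by
    intro h0
    have : algebraMap (chart O F x) F b = 0 := h0
    have h1 : b = 0 := (IsFractionRing.injective (chart O F x) F) (by rw [this, map_zero])
    exact (nonZeroDivisors.ne_zero hb) h1
  have hab' : h = (a : F) / (b : F) := hab.symm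
  -- multiplication by `a` maps `L` into the chart
  let μ : F →ₗ[polyRing O x] F := LinearMap.mulLeft (polyRing O x) (a : F)
  have hμinj : Function.Injective μ := fun y z hyz => mul_left_cancel₀ ha0 hyz
  have hle : L.map μ ≤ Subalgebra.toSubmodule (chart O F x) := by
    rintro _ ⟨f, hf, rfl⟩
    show (a : F) * f ∈ chart O F x
    apply mem_chart_of_pow hm
    obtain ⟨m', rfl⟩ := Nat.exists_eq_succ_of_ne_zero hm
    have : ((a : F) * f) ^ (m' + 1) = (a : F) ^ m' * (b : F) * (f ^ (m' + 1) * h) := by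
      rw [hab']
      field_simp
      ring
    rw [this]
    exact (chart O F x).mul_mem ((chart O F x).mul_mem ((chart O F x).pow_mem a.2 _) b.2) hf
  have hN1 : IsNoetherianRing (polyRing O x) := isNoetherianRing_polyRing K x hx
  have hN2 : Module.Finite (polyRing O x) (chart O F x) := finite_chart K x hx hgen
  have hN3 : IsNoetherian (polyRing O x) (Subalgebra.toSubmodule (chart O F x)) :=
    isNoetherian_of_isNoetherianRing_of_finite (polyRing O x) (chart O F x)
  have hN4 : IsNoetherian (polyRing O x) (L.map μ) := isNoetherian_of_le hle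
  have hfg : (L.map μ).FG := (Submodule.fg_top _).mp (IsNoetherian.noetherian ⊤)
  have hfg' : L.FG := Submodule.fg_of_fg_map_injective μ hμinj hfg
  obtain ⟨s, hs⟩ := hfg'
  refine ⟨s, fun l hl => ?_, fun f hf => ?_⟩
  · have : l ∈ L := hs ▸ Submodule.subset_span hl
    exact this
  · rw [hs]; exact hf

omit [IsDomain O] [IsDiscreteValuationRing O] [FiniteDimensional E F] in
theorem coe_unifChart (ϖ : O) (x : E) :
    ((unifChart O F ϖ x : chart O F x) : F) = algebraMap E F (algebraMap O E ϖ) := rfl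

/-- `𝒟` is a discrete valuation ring with uniformiser `ϖ`: every element of `F` can be moved into
`𝒟` by a power of `ϖ`. -/
theorem exists_unif_pow_mul_mem (K : Type*) [Field K] [CharZero K] [Algebra O K]
    [IsFractionRing O K] [Algebra K E] [IsScalarTower O K E] (ϖ : O) (hϖ : Irreducible ϖ) (x : E)
    (hx : Transcendental K x) (hgen : IntermediateField.adjoin K {x} = ⊤)
    (𝒟 : ValuationSubring F) (hG : GaussData O ϖ 𝒟 x) (y : F) :
    ∃ k : ℕ, algebraMap E F (algebraMap O E ϖ) ^ k * y ∈ 𝒟 := by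
  have hfrac : IsFractionRing (chart O F x) F := isFractionRing_chart K x hx hgen
  have hnoeth : IsNoetherianRing (chart O F x) := isNoetherianRing_chart K x hx hgen
  obtain ⟨a, b, hb, hab⟩ := IsFractionRing.div_surjective (A := chart O F x) y
  have hb0 : b ≠ 0 := nonZeroDivisors.ne_zero hb
  have hab' : y = (a : F) / (b : F) := hab.symm
  set p : F := algebraMap E F (algebraMap O E ϖ) with hp
  have hp0 : p ≠ 0 := by
    intro h0
    apply hG.inv_unif_notMem
    rw [← hp, h0, inv_zero]
    exact 𝒟.zero_mem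
  by_contra hcon
  push Not at hcon
  -- then `b` is divisible by all powers of `ϖ` in the chart
  have hdiv : ∀ k : ℕ, b ∈ (Ideal.span {unifChart O F ϖ x}) ^ k := by
    intro k
    have h1 : p ^ k / (b : F) ∉ 𝒟 := by
      intro h2
      apply hcon k
      have : p ^ k * y = (a : F) * (p ^ k / (b : F)) := by rw [hab']; ring
      rw [this]
      exact 𝒟.mul_mem _ _ (mem_of_mem_chart ϖ x 𝒟 hG a.2) h2
    have h2 : (b : F) / p ^ k ∈ 𝒟 := by
      have := (𝒟.mem_or_inv_mem (p ^ k / (b : F))).resolve_left h1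
      rwa [inv_div] at this
    have h3 : (b : F) / p ^ k ∈ chart O F x := by
      apply mem_chart_of_unif_pow_mul_mem K ϖ hϖ x hx hgen 𝒟 hG h2 k
      rw [← hp, mul_div_cancel₀ _ (pow_ne_zero k hp0)]
      exact b.2
    rw [Ideal.span_singleton_pow, Ideal.mem_span_singleton]
    refine ⟨⟨_, h3⟩, ?_⟩
    apply Subtype.ext
    show (b : F) = ((unifChart O F ϖ x : chart O F x) : F) ^ k * ((b : F) / p ^ k)
    rw [coe_unifChart, ← hp, mul_div_cancel₀ _ (pow_ne_zero k hp0)]
  have hne : Ideal.span {unifChart O F ϖ x} ≠ ⊤ := by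
    rw [Ne, Ideal.span_singleton_eq_top]
    exact (prime_unifChart K ϖ hϖ x hx hgen 𝒟 hG).not_isUnit
  have hbot := Ideal.iInf_pow_eq_bot_of_isDomain (Ideal.span {unifChart O F ϖ x}) hne
  have : b ∈ (⨅ i : ℕ, (Ideal.span {unifChart O F ϖ x}) ^ i) := by
    rw [Ideal.mem_iInf]; exact hdiv
  rw [hbot] at this
  exact hb0 this

end Concrete

end H1

variable {O K E F : Type*} [CommRing O] [IsDomain O] [IsDiscreteValuationRing O]
  [Field K] [CharZero K] [Algebra O K] [IsFractionRing O K]
  [Field E] [Algebra K E] [Algebra O E] [IsScalarTower O K E]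
  [Field F] [Algebra E F] [FiniteDimensional E F]

section Inj
variable (K) (ϖ : O) (hϖ : Irreducible ϖ) (x : E) (hx : Transcendental K x)
  (hgen : IntermediateField.adjoin K {x} = ⊤) (𝒟 : ValuationSubring F) (hG : GaussData O ϖ 𝒟 x)
  (m : ℕ) (hm : IsUnit (m : O)) (h : F) (hh : h ≠ 0)

include K hx hgen hϖ hG hm hh in
/-- H1: bounded torsion of the first Cech cohomology group. -/
theorem exists_bound_torsion :
    ∃ c : ℕ, ∀ (n : ℕ) (f g : F), f ^ m * h ∈ chart O F x → g ^ m * h ∈ chart O F x⁻¹ →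
      CongrMod (E := E) ϖ 𝒟 (n + c) f g →
      ∃ a b : F, a ^ m * h ∈ chart O F x ∧ b ^ m * h ∈ chart O F x⁻¹ ∧
        f - g = algebraMap E F (algebraMap O E ϖ) ^ n * (a - b) := by
  classical
  have hm0 : m ≠ 0 := by
    rintro rfl
    simp at hm
  let _ : Module O F := Module.compHom F ((algebraMap E F).comp (algebraMap O E))
  have hsmul : ∀ (a : O) (y : F), a • y = algebraMap E F (algebraMap O E a) * y := fun _ _ => rfl
  set p : F := algebraMap E F (algebraMap O E ϖ) with hp
  set X : F := algebraMap E F x with hX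
  set Y : F := algebraMap E F x⁻¹ with hY
  have hx0 : x ≠ 0 := by
    rintro rfl
    exact hx (isAlgebraic_zero)
  have hXY : X * Y = 1 := by
    rw [hX, hY, ← map_mul, mul_inv_cancel₀ hx0, map_one]
  have hXYk : ∀ k : ℕ, X ^ k * Y ^ k = 1 := fun k => by rw [← mul_pow, hXY, one_pow]
  let L0 : Submodule O F :=
    { carrier := {f | f ^ m * h ∈ chart O F x}
      add_mem' := fun hf hf' => H1.add_sec hm0 hf hf'
      zero_mem' := by
        show (0 : F) ^ m * h ∈ chart O F x
        rw [zero_pow hm0, zero_mul]; exact (chart O F x).zero_mem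
      smul_mem' := fun r f hf => H1.smul_sec (H1.const_mem_chart x r) hf }
  let L1 : Submodule O F :=
    { carrier := {f | f ^ m * h ∈ chart O F x⁻¹}
      add_mem' := fun hf hf' => H1.add_sec hm0 hf hf'
      zero_mem' := by
        show (0 : F) ^ m * h ∈ chart O F x⁻¹
        rw [zero_pow hm0, zero_mul]; exact (chart O F x⁻¹).zero_mem
      smul_mem' := fun r f hf => H1.smul_sec (H1.const_mem_chart x⁻¹ r) hf }
  have hL0 : ∀ f : F, f ∈ L0 ↔ f ^ m * h ∈ chart O F x := fun _ => Iff.rfl
  have hL1 : ∀ f : F, f ∈ L1 ↔ f ^ m * h ∈ chart O F x⁻¹ := fun _ => Iff.rfl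
  obtain ⟨s, hs1, hs2⟩ := H1.exists_finset_span (O := O) K x hx hgen hm0 hh
  have hN : ∃ N : ℕ, ∀ l ∈ s, ∀ j, N ≤ j → (Y ^ j * l) ^ m * h ∈ chart O F x⁻¹ := by
    choose! Nf hNf using fun l (hl : l ∈ s) => H1.exists_shift (O := O) K x hx hgen hm0 (hs1 l hl)
    exact ⟨s.sup Nf, fun l hl j hj => hNf l hl j ((Finset.le_sup hl).trans hj)⟩
  obtain ⟨N, hN⟩ := hN
  let T : Submodule O F := Submodule.span O
    ((fun q : F × ℕ => Y ^ q.2 * q.1) '' ((s ×ˢ Finset.range N : Finset (F × ℕ)) : Set (F × ℕ)))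
  have hT : T.FG := Submodule.fg_span ((Finset.finite_toSet _).image _)
  obtain ⟨c1, hc1⟩ := H1.exists_bound_of_fg ϖ (L0 ⊔ L1) T hT
  obtain ⟨c0, hc0⟩ := H1.exists_unif_pow_mul_mem K ϖ hϖ x hx hgen 𝒟 hG h
  have key : ∀ y ∈ Submodule.span (polyRing O x) (s : Set F), ∀ e k : ℕ,
      X ^ e * Y ^ k * y ∈ (L0 ⊔ L1) ⊔ T := by
    intro y hy
    induction hy using Submodule.span_induction with
    | mem l hl =>
      intro e k
      by_cases hke : k ≤ e
      · obtain ⟨d, rfl⟩ := Nat.exists_eq_add_of_le hke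
        have : X ^ (k + d) * Y ^ k * l = X ^ d * l := by
          rw [pow_add, mul_comm (X ^ k), mul_assoc (X ^ d), hXYk, mul_one]
        rw [this]
        refine Submodule.mem_sup_left (Submodule.mem_sup_left ?_)
        exact H1.smul_sec ((chart O F x).pow_mem (H1.var_mem_chart x) d) (hs1 l hl)
      · obtain ⟨d, rfl⟩ := Nat.exists_eq_add_of_le (not_le.mp hke).le
        have : X ^ e * Y ^ (e + d) * l = Y ^ d * l := by
          rw [pow_add, ← mul_assoc, hXYk, one_mul]
        rw [this]
        by_cases hd : N ≤ d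
        · exact Submodule.mem_sup_left (Submodule.mem_sup_right (hN l hl d hd))
        · refine Submodule.mem_sup_right (Submodule.subset_span ⟨(l, d), ?_, rfl⟩)
          simp only [Finset.coe_product, Set.mem_prod, Finset.mem_coe, Finset.mem_range]
          exact ⟨hl, not_le.mp hd⟩
    | zero =>
      intro e k
      rw [mul_zero]; exact Submodule.zero_mem _
    | add y z _ _ hy hz =>
      intro e k
      rw [mul_add]; exact Submodule.add_mem _ (hy e k) (hz e k)
    | smul r y _ hy =>
      intro e k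
      have hr : (r : E) ∈ (aeval x : O[X] →ₐ[O] E).range := by
        rw [← Algebra.adjoin_singleton_eq_range_aeval]; exact r.2
      obtain ⟨q, hq⟩ := hr
      have h1 : r • y = algebraMap E F (r : E) * y := by
        rw [Algebra.smul_def]; rfl
      have h2 : algebraMap E F (r : E) =
          ∑ i ∈ Finset.range (q.natDegree + 1), algebraMap E F (algebraMap O E (q.coeff i)) * X ^ i := by
        have hq' : (aeval x) q = (r : E) := hq
        rw [← hq', Polynomial.aeval_eq_sum_range, map_sum]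
        refine Finset.sum_congr rfl fun i _ => ?_
        rw [Algebra.smul_def, map_mul, map_pow]
      rw [h1, h2, Finset.sum_mul, Finset.mul_sum]
      refine Submodule.sum_mem _ fun i _ => ?_
      have h3 : X ^ e * Y ^ k * (algebraMap E F (algebraMap O E (q.coeff i)) * X ^ i * y) =
          (q.coeff i) • (X ^ (e + i) * Y ^ k * y) := by
        rw [hsmul, pow_add]; ring
      rw [h3]
      exact Submodule.smul_mem _ _ (hy (e + i) k)
  refine ⟨c0 + c1, fun n f g hf hg hfg => ?_⟩
  obtain ⟨w, hw, hfgw⟩ := hfg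
  rw [← hp] at hfgw
  obtain ⟨k, hk⟩ : ∃ k : ℕ, (X ^ k * g) ^ m * h ∈ chart O F x := by
    obtain ⟨k, hk⟩ := H1.exists_shift (O := O) K x⁻¹ (transcendental_inv K x hx)
      (adjoin_inv_eq_top K x hgen) hm0 hg
    have := hk k le_rfl
    rw [inv_inv] at this
    exact ⟨k, this⟩
  have hpD : p ∈ 𝒟 := hG.algebraMap_mem ϖ
  have hXD : X ∈ 𝒟 := mem_of_mem_chart ϖ x 𝒟 hG (H1.var_mem_chart x)
  set w' : F := p ^ c0 * w with hw'
  have hfgw' : f - g = p ^ (n + c1) * w' := by
    rw [hfgw, hw']; ring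
  -- `X ^ k * w'` is a section on the first chart
  have hu : (X ^ k * w') ^ m * h ∈ chart O F x := by
    have hD : (X ^ k * w') ^ m * h ∈ 𝒟 := by
      obtain ⟨m', rfl⟩ := Nat.exists_eq_succ_of_ne_zero hm0
      have : (X ^ k * w') ^ (m' + 1) * h =
          (X ^ k * w) ^ (m' + 1) * (p ^ c0) ^ m' * (p ^ c0 * h) := by
        rw [hw']; ring
      rw [this]
      exact 𝒟.mul_mem _ _ (𝒟.mul_mem _ _ (𝒟.pow_mem (𝒟.mul_mem _ _ (𝒟.pow_mem hXD _) hw) _)
        (𝒟.pow_mem (𝒟.pow_mem hpD _) _)) hc0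
    apply mem_chart_of_unif_pow_mul_mem K ϖ hϖ x hx hgen 𝒟 hG hD ((n + c1) * m)
    have h1 : p ^ ((n + c1) * m) * ((X ^ k * w') ^ m * h) = (X ^ k * f + -(X ^ k * g)) ^ m * h := by
      have : X ^ k * f + -(X ^ k * g) = X ^ k * (f - g) := by ring
      rw [this, hfgw', pow_mul]; ring
    rw [← hp, h1]
    exact H1.add_sec hm0 (H1.smul_sec ((chart O F x).pow_mem (H1.var_mem_chart x) k) hf)
      (H1.neg_sec hk)
  have hQ : w' ∈ (L0 ⊔ L1) ⊔ T := by
    have := key _ (hs2 _ hu) 0 k
    have h2 : X ^ 0 * Y ^ k * (X ^ k * w') = w' := by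
      rw [pow_zero, one_mul, ← mul_assoc, mul_comm (Y ^ k), hXYk, one_mul]
    rwa [h2] at this
  have hpow : ∀ (j : ℕ) (y : F), ϖ ^ j • y = p ^ j * y := fun j y => by
    rw [hsmul, map_pow, map_pow]
  have hP : ϖ ^ (n + c1) • w' ∈ L0 ⊔ L1 := by
    rw [hpow, ← hfgw', sub_eq_add_neg]
    exact Submodule.add_mem_sup hf (H1.neg_sec hg)
  have hfin := hc1 (n + c1) w' hQ hP
  obtain ⟨a, ha, b, hb, hab⟩ := Submodule.mem_sup.mp hfin
  refine ⟨a, -b, ha, H1.neg_sec hb, ?_⟩
  rw [sub_neg_eq_add, hab, hpow, hfgw', pow_add]; ring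

end Inj

end Fermat.Agent.GoodRed
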