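import Fermat.Agent.Lib.GoodRed.SecMod
import Fermat.Agent.Lib.GoodRed.ChartBase

set_option autoImplicit false

namespace Fermat.Agent.GoodRed

open Polynomial

/-! ### abstract Newton step -/

/-- second order Taylor expansion of `X ^ m`. -/
theorem Newton.exists_add_pow_eq {R : Type*} [CommRing R] (f t : R) (m : ℕ) :
    ∃ k : R, (f + t) ^ m = f ^ m + (m : R) * f ^ (m - 1) * t + k * t ^ 2 := by
  obtain ⟨k, hk⟩ := Polynomial.binomExpansion (X ^ m : R[X]) f t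
  refine ⟨k, ?_⟩
  simpa [Polynomial.derivative_X_pow] using hk

theorem Newton.dvd_mul_sub_one {R : Type*} [CommRing R] {π a b : R} (ha : π ∣ a - 1) (hb : π ∣ b - 1) :
    π ∣ a * b - 1 := by
  have : a * b - 1 = (a - 1) * b + (b - 1) := by ring
  rw [this]
  exact dvd_add (ha.mul_right b) hb

theorem Newton.dvd_pow_sub_one {R : Type*} [CommRing R] {π a : R} (ha : π ∣ a - 1) (k : ℕ) :
    π ∣ a ^ k - 1 := by
  induction k with
  | zero => simp
  | succ k ih =>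
    rw [pow_succ]
    exact Newton.dvd_mul_sub_one ih ha

/-- one Newton step, in an arbitrary commutative ring. -/
theorem Newton.newton_step {R : Type*} [CommRing R] (π f f₁ h e μ : R) (m n : ℕ) (hn : 1 ≤ n)
    (hμ : (m : R) * μ = 1) (hf : π ∣ f - 1) (hf₁ : π ∣ f₁ - 1) (hh : π ∣ h - 1)
    (he : f ^ m * h - 1 = π ^ n * e) :
    π ^ (n + 1) ∣ (f + π ^ n * (-μ * e * f₁)) ^ m * h - 1 := by
  obtain ⟨k, hk⟩ := Newton.exists_add_pow_eq f (π ^ n * (-μ * e * f₁)) m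
  have h1 : π ∣ f ^ (m - 1) * f₁ * h - 1 :=
    Newton.dvd_mul_sub_one (Newton.dvd_mul_sub_one (Newton.dvd_pow_sub_one hf _) hf₁) hh
  obtain ⟨c, hc⟩ := h1
  obtain ⟨j, rfl⟩ : ∃ j, n = j + 1 := ⟨n - 1, by omega⟩
  refine ⟨-(e * c) + π ^ j * (k * (-μ * e * f₁) ^ 2 * h), ?_⟩
  have key : (f + π ^ (j + 1) * (-μ * e * f₁)) ^ m * h - 1 =
      (f ^ m * h - 1) - ((m : R) * μ) * π ^ (j + 1) * e * (f ^ (m - 1) * f₁ * h - 1 + 1)
        + k * (π ^ (j + 1) * (-μ * e * f₁)) ^ 2 * h := by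
    rw [hk]; ring
  rw [key, he, hμ, hc]
  ring

variable {O K E F : Type*} [CommRing O] [IsDomain O] [IsDiscreteValuationRing O]
  [Field K] [CharZero K] [Algebra O K] [IsFractionRing O K]
  [Field E] [Algebra K E] [Algebra O E] [IsScalarTower O K E]
  [Field F] [Algebra E F] [FiniteDimensional E F]

/-! ### translation between `CongrMod` and divisibility in the ring `𝒟` -/

section Transl

variable (ϖ : O) (𝒟 : ValuationSubring F)

omit [IsDomain O] [IsDiscreteValuationRing O] [FiniteDimensional E F] in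
theorem Newton.congrMod_iff_dvd (hπ : algebraMap E F (algebraMap O E ϖ) ∈ 𝒟) (n : ℕ) (y z : 𝒟) :
    CongrMod (E := E) ϖ 𝒟 n (y : F) (z : F) ↔
      (⟨algebraMap E F (algebraMap O E ϖ), hπ⟩ : 𝒟) ^ n ∣ y - z := by
  constructor
  · rintro ⟨w, hw, h⟩
    exact ⟨⟨w, hw⟩, Subtype.ext (by simpa using h)⟩
  · rintro ⟨w, h⟩
    exact ⟨w, w.2, by simpa using congrArg Subtype.val h⟩

omit [IsDomain O] [IsDiscreteValuationRing O] [FiniteDimensional E F] in
theorem Newton.mem_of_congrMod_one (hπ : algebraMap E F (algebraMap O E ϖ) ∈ 𝒟) {n : ℕ} {y : F}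
    (h : CongrMod (E := E) ϖ 𝒟 n y 1) : y ∈ 𝒟 := by
  obtain ⟨w, hw, h⟩ := h
  have : y = 1 + algebraMap E F (algebraMap O E ϖ) ^ n * w := by rw [← h]; ring
  rw [this]
  exact add_mem (one_mem _) (mul_mem (pow_mem hπ n) hw)

end Transl

section Inj
variable (K) (ϖ : O) (hϖ : Irreducible ϖ) (x : E) (hx : Transcendental K x)
  (hgen : IntermediateField.adjoin K {x} = ⊤) (𝒟 : ValuationSubring F) (hG : GaussData O ϖ 𝒟 x)
  (m : ℕ) (hm : IsUnit (m : O)) (h : F) (hh : h ≠ 0)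

omit [IsDomain O] [IsDiscreteValuationRing O] [FiniteDimensional E F] in
theorem Newton.algebraMap_mem_chart (a : O) : algebraMap E F (algebraMap O E a) ∈ chart O F x := by
  have : algebraMap E F (algebraMap O E a) =
      algebraMap (polyRing O x) F (algebraMap O (polyRing O x) a) := rfl
  rw [this]
  exact Subalgebra.algebraMap_mem _ _

include K hx hgen hϖ hG hm hh in
/-- Newton: approximate `m`-th roots of `h⁻¹` inside the module `{f | f ^ m * h ∈ chart}`. -/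
theorem exists_section_pow_congr
    (f₁ : F) (hf₁ : f₁ ^ m * h ∈ chart O F x) (hf₁' : CongrMod (E := E) ϖ 𝒟 1 f₁ 1)
    (h1 : CongrMod (E := E) ϖ 𝒟 1 h 1) (n : ℕ) :
    ∃ f : F, f ^ m * h ∈ chart O F x ∧ CongrMod (E := E) ϖ 𝒟 1 f 1 ∧
      CongrMod (E := E) ϖ 𝒟 n (f ^ m * h) 1 := by
  have hπ : algebraMap E F (algebraMap O E ϖ) ∈ 𝒟 := hG.algebraMap_mem ϖ
  set π : 𝒟 := ⟨algebraMap E F (algebraMap O E ϖ), hπ⟩ with hπdef
  have hm0 : m ≠ 0 := by
    rintro rfl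
    simp at hm
  obtain ⟨μ, hμ⟩ : ∃ μ : O, (m : O) * μ = 1 := ⟨_, hm.mul_val_inv⟩
  have hf₁D : f₁ ∈ 𝒟 := Newton.mem_of_congrMod_one ϖ 𝒟 hπ hf₁'
  have hhD : h ∈ 𝒟 := Newton.mem_of_congrMod_one ϖ 𝒟 hπ h1
  have d₁ : π ∣ (⟨f₁, hf₁D⟩ : 𝒟) - 1 := by
    have := (Newton.congrMod_iff_dvd ϖ 𝒟 hπ 1 ⟨f₁, hf₁D⟩ 1).1 (by simpa using hf₁')
    simpa using this
  have dh : π ∣ (⟨h, hhD⟩ : 𝒟) - 1 := by
    have := (Newton.congrMod_iff_dvd ϖ 𝒟 hπ 1 ⟨h, hhD⟩ 1).1 (by simpa using h1)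
    simpa using this
  -- the statement for `n + 1`
  have main : ∀ n : ℕ, ∃ f : F, f ^ m * h ∈ chart O F x ∧ CongrMod (E := E) ϖ 𝒟 1 f 1 ∧
      CongrMod (E := E) ϖ 𝒟 (n + 1) (f ^ m * h) 1 := by
    intro n
    induction n with
    | zero =>
      refine ⟨f₁, hf₁, hf₁', ?_⟩
      have : π ^ (0 + 1) ∣ (⟨f₁, hf₁D⟩ : 𝒟) ^ m * ⟨h, hhD⟩ - 1 := by
        simpa using Newton.dvd_mul_sub_one (Newton.dvd_pow_sub_one d₁ m) dh
      have := (Newton.congrMod_iff_dvd ϖ 𝒟 hπ (0 + 1) ((⟨f₁, hf₁D⟩ : 𝒟) ^ m * ⟨h, hhD⟩) 1).2 this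
      simpa using this
    | succ n ih =>
      obtain ⟨f, hf, hf1, e, he, hfe⟩ := ih
      have hfD : f ∈ 𝒟 := Newton.mem_of_congrMod_one ϖ 𝒟 hπ hf1
      have df : π ∣ (⟨f, hfD⟩ : 𝒟) - 1 := by
        have := (Newton.congrMod_iff_dvd ϖ 𝒟 hπ 1 ⟨f, hfD⟩ 1).1 (by simpa using hf1)
        simpa using this
      -- `e` lies in the chart by saturation
      have heC : e ∈ chart O F x := by
        refine mem_chart_of_unif_pow_mul_mem K ϖ hϖ x hx hgen 𝒟 hG he (n + 1) ?_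
        rw [← hfe]
        exact Subalgebra.sub_mem _ hf (Subalgebra.one_mem _)
      have hμC : algebraMap E F (algebraMap O E μ) ∈ chart O F x := Newton.algebraMap_mem_chart x μ
      have hμD : algebraMap E F (algebraMap O E μ) ∈ 𝒟 := hG.algebraMap_mem μ
      have hπC : algebraMap E F (algebraMap O E ϖ) ∈ chart O F x := Newton.algebraMap_mem_chart x ϖ
      set a : F := -algebraMap E F (algebraMap O E μ) * e * f₁ with ha
      have haC : a ^ m * h ∈ chart O F x :=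
        sec_mul x m h (Subalgebra.mul_mem _ (Subalgebra.neg_mem _ hμC) heC) hf₁
      have hstep := Newton.newton_step π ⟨f, hfD⟩ ⟨f₁, hf₁D⟩ ⟨h, hhD⟩ ⟨e, he⟩
        ⟨algebraMap E F (algebraMap O E μ), hμD⟩ m (n + 1) (by omega)
        (Subtype.ext (by
          have := congrArg (fun t => algebraMap E F (algebraMap O E t)) hμ
          simpa using this)) df d₁ dh
        (Subtype.ext (by simpa using hfe))
      refine ⟨f + algebraMap E F (algebraMap O E ϖ) ^ (n + 1) * a, ?_, ?_, ?_⟩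
      · exact sec_add x m h hm0 hf (sec_mul x m h (Subalgebra.pow_mem _ hπC _) haC)
      · obtain ⟨w, hw, hfw⟩ := hf1
        refine ⟨w + algebraMap E F (algebraMap O E ϖ) ^ n * a, ?_, ?_⟩
        · exact add_mem hw (mul_mem (pow_mem hπ n)
            (mul_mem (mul_mem (neg_mem hμD) he) hf₁D))
        · have : f + algebraMap E F (algebraMap O E ϖ) ^ (n + 1) * a - 1 =
              (f - 1) + algebraMap E F (algebraMap O E ϖ) ^ (n + 1) * a := by ring
          rw [this, hfw]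
          ring
      · have := (Newton.congrMod_iff_dvd ϖ 𝒟 hπ (n + 1 + 1) _ 1).2 hstep
        simpa [ha] using this
  cases n with
  | zero =>
    refine ⟨f₁, hf₁, hf₁', f₁ ^ m * h - 1, ?_, by simp⟩
    exact sub_mem (mem_of_mem_chart ϖ x 𝒟 hG hf₁) (one_mem _)
  | succ n => exact main n

end Inj

end Fermat.Agent.GoodRed
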