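import Fermat.Agent.Lib.GoodRed.H1
import Fermat.Agent.Lib.GoodRed.Newton

/-!
# Injectivity of reduction, abstract form: assembly from the two lifted sections
-/

set_option autoImplicit false
namespace Fermat.Agent.GoodRed
open Polynomial

namespace Main

variable {O E F : Type*} [CommRing O] [Field E] [Algebra O E] [Field F] [Algebra E F]

/-- the uniformiser lies in every chart. -/
theorem unif_mem_chart (ϖ : O) (x : E) : algebraMap E F (algebraMap O E ϖ) ∈ chart O F x :=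
  (unifChart O F ϖ x).2

/-- an element congruent to `1` is a unit of `𝒟`. -/
theorem mem_and_inv_mem_of_congr_one {ϖ : O} {𝒟 : ValuationSubring F} {x : E}
    (hG : GaussData O ϖ 𝒟 x) {f : F} (hf : CongrMod (E := E) ϖ 𝒟 1 f 1) : f ∈ 𝒟 ∧ f⁻¹ ∈ 𝒟 := by
  obtain ⟨w, hw, hfw⟩ := hf
  rw [pow_one] at hfw
  have hπ : algebraMap E F (algebraMap O E ϖ) ∈ 𝒟 := hG.algebraMap_mem ϖ
  have hfeq : f = 1 + algebraMap E F (algebraMap O E ϖ) * w := by rw [← hfw]; ring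
  have hfmem : f ∈ 𝒟 := by
    rw [hfeq]
    exact add_mem (one_mem 𝒟) (mul_mem hπ hw)
  refine ⟨hfmem, ?_⟩
  by_contra hinv
  obtain ⟨z, hz, hfz⟩ := hG.unif f hfmem hinv
  apply hG.inv_unif_notMem
  have h1 : algebraMap E F (algebraMap O E ϖ) * (z - w) = 1 := by
    rw [mul_sub, ← hfz, hfeq]; ring
  have : (algebraMap E F (algebraMap O E ϖ))⁻¹ = z - w := inv_eq_of_mul_eq_one_right h1
  rw [this]
  exact sub_mem hz hw

/-- valuation rings are closed under extraction of roots. -/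
theorem mem_of_pow_mem {𝒟 : ValuationSubring F} {a : F} {m : ℕ} (hm : m ≠ 0) (ha : a ^ m ∈ 𝒟) :
    a ∈ 𝒟 := by
  rcases 𝒟.mem_or_inv_mem a with h | h
  · exact h
  · by_cases h0 : a = 0
    · rw [h0]; exact zero_mem 𝒟
    have : a = a ^ m * a⁻¹ ^ (m - 1) := by
      obtain ⟨k, rfl⟩ := Nat.exists_eq_succ_of_ne_zero hm
      rw [Nat.succ_sub_one, pow_succ, inv_pow]
      field_simp
    rw [this]
    exact mul_mem ha (pow_mem h _)

end Main

open Main in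
/-- the assembly, given lifts of the section `1` on the two charts. -/
theorem inj_main_of_sections (K : Type*) {O E F : Type*} [CommRing O] [IsDomain O]
    [IsDiscreteValuationRing O]
    [Field K] [CharZero K] [Algebra O K] [IsFractionRing O K]
    [Field E] [Algebra K E] [Algebra O E] [IsScalarTower O K E]
    [Field F] [Algebra E F] [FiniteDimensional E F]
    (ϖ : O) (hϖ : Irreducible ϖ) (x : E) (hx : Transcendental K x)
    (hgen : IntermediateField.adjoin K {x} = ⊤) (𝒟 : ValuationSubring F)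
    (hG : GaussData O ϖ 𝒟 x)
    (m : ℕ) (hm : IsUnit (m : O)) (h : F) (hh : h ≠ 0)
    (hS₀ : ∃ f : F, f ^ m * h ∈ chart O F x ∧ CongrMod (E := E) ϖ 𝒟 1 f 1)
    (hS₁ : ∃ f : F, f ^ m * h ∈ chart O F x⁻¹ ∧ CongrMod (E := E) ϖ 𝒟 1 f 1)
    (h1 : ∃ z ∈ 𝒟, h = 1 + algebraMap E F (algebraMap O E ϖ) * z) :
    ∃ s c : F, IsConst K E c ∧ h = c * s ^ m := by
  set π : F := algebraMap E F (algebraMap O E ϖ) with hπdef
  have hm0 : m ≠ 0 := by
    rintro rfl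
    rw [Nat.cast_zero] at hm
    exact not_isUnit_zero hm
  have hc1 : CongrMod (E := E) ϖ 𝒟 1 h 1 := by
    obtain ⟨z, hz, hhz⟩ := h1
    exact ⟨z, hz, by rw [hhz, pow_one]; ring⟩
  have hG' : GaussData O ϖ 𝒟 x⁻¹ := GaussData.inv K ϖ hϖ x hx hgen 𝒟 hG
  have hx' : Transcendental K x⁻¹ := transcendental_inv K x hx
  have hgen' : IntermediateField.adjoin K {x⁻¹} = ⊤ := adjoin_inv_eq_top K x hgen
  obtain ⟨f₁, hf₁, hf₁'⟩ := hS₀
  obtain ⟨e₁, he₁, he₁'⟩ := hS₁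
  obtain ⟨c, hc⟩ := exists_bound_torsion K ϖ hϖ x hx hgen 𝒟 hG m hm h hh
  obtain ⟨f, hf, hf1, hfn⟩ :=
    exists_section_pow_congr K ϖ hϖ x hx hgen 𝒟 hG m hm h hh f₁ hf₁ hf₁' hc1 (1 + c)
  obtain ⟨g, hg, hg1, hgn⟩ :=
    exists_section_pow_congr K ϖ hϖ x⁻¹ hx' hgen' 𝒟 hG' m hm h hh e₁ he₁ he₁' hc1 (1 + c)
  obtain ⟨hh𝒟, hhinv⟩ := mem_and_inv_mem_of_congr_one hG hc1
  -- `f ^ m ≡ g ^ m`
  have hfg : CongrMod (E := E) ϖ 𝒟 (1 + c) (f ^ m) (g ^ m) := by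
    obtain ⟨w, hw, hfw⟩ := hfn
    obtain ⟨w', hw', hgw⟩ := hgn
    refine ⟨(w - w') * h⁻¹, mul_mem (sub_mem hw hw') hhinv, ?_⟩
    have : (f ^ m - g ^ m) * h = algebraMap E F (algebraMap O E ϖ) ^ (1 + c) * (w - w') := by
      rw [mul_sub, ← hfw, ← hgw]; ring
    rw [← mul_assoc, ← this, mul_assoc, mul_inv_cancel₀ hh, mul_one]
  have hfg' : CongrMod (E := E) ϖ 𝒟 (1 + c) f g := congr_of_pow_congr ϖ x 𝒟 m hG hm hf1 hg1 hfg
  obtain ⟨a, b, ha, hb, hab⟩ := hc 1 f g hf hg hfg'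
  rw [pow_one] at hab
  have ha𝒟 : a ∈ 𝒟 := by
    apply mem_of_pow_mem hm0
    have h2 : a ^ m = a ^ m * h * h⁻¹ := by rw [mul_assoc, mul_inv_cancel₀ hh, mul_one]
    rw [h2]
    exact mul_mem (mem_of_mem_chart ϖ x 𝒟 hG ha) hhinv
  -- the global section
  have hs0 : (f + -(π * a)) ^ m * h ∈ chart O F x :=
    sec_add x m h hm0 hf (sec_neg x m h (sec_mul x m h (unif_mem_chart ϖ x) ha))
  have hs1 : (g + -(π * b)) ^ m * h ∈ chart O F x⁻¹ :=
    sec_add x⁻¹ m h hm0 hg (sec_neg x⁻¹ m h (sec_mul x⁻¹ m h (unif_mem_chart ϖ x⁻¹) hb))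
  have hseq : g + -(π * b) = f + -(π * a) := by
    have : f - g = π * (a - b) := hab
    linear_combination -this
  rw [hseq] at hs1
  have hs_one : CongrMod (E := E) ϖ 𝒟 1 (f + -(π * a)) 1 := by
    obtain ⟨w, hw, hfw⟩ := hf1
    refine ⟨w - a, sub_mem hw ha𝒟, ?_⟩
    rw [pow_one] at hfw ⊢
    rw [mul_sub, ← hfw]
    ring
  have hsne : f + -(π * a) ≠ 0 := ne_zero_of_congr_one ϖ x 𝒟 hG hs_one
  refine ⟨(f + -(π * a))⁻¹, (f + -(π * a)) ^ m * h,
    isConst_of_mem_chart_of_mem_chart_inv K x hx hgen hs0 hs1, ?_⟩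
  rw [inv_pow]
  field_simp

end Fermat.Agent.GoodRed
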