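/-
`GaussData` passes to intermediate fields `E ⊆ F ⊆ F'` (restriction of the valuation ring).
-/
import Fermat.Agent.Lib.GoodRed.Defs

set_option autoImplicit false

namespace Fermat.Agent.GoodRed

open Polynomial

section Aux

variable {O E F : Type*} [CommRing O] [Field E] [Algebra O E] [Field F] [Algebra E F]
  {ϖ : O} {𝒟 : ValuationSubring F} {x : E}

/-- The uniformiser is nonzero in `F`. -/
private theorem GaussData.tower_unif_ne_zero (hG : GaussData O ϖ 𝒟 x) :
    algebraMap E F (algebraMap O E ϖ) ≠ 0 := by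
  intro h
  apply hG.inv_unif_notMem
  rw [h, inv_zero]
  exact 𝒟.zero_mem

/-- The uniformiser is not a unit of `O`. -/
private theorem GaussData.tower_not_dvd_one (hG : GaussData O ϖ 𝒟 x) : ¬ ϖ ∣ 1 := by
  rintro ⟨u, hu⟩
  apply hG.inv_unif_notMem
  have h1 : algebraMap E F (algebraMap O E ϖ) * algebraMap E F (algebraMap O E u) = 1 := by
    rw [← map_mul, ← map_mul, ← hu, map_one, map_one]
  rw [inv_eq_of_mul_eq_one_right h1]
  exact hG.algebraMap_mem u

/-- Every polynomial in `x` over `O` lies in `𝒟`. -/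
private theorem GaussData.tower_aeval_mem (hG : GaussData O ϖ 𝒟 x) (q : O[X]) :
    algebraMap E F (aeval x q) ∈ 𝒟 := by
  have hx : algebraMap E F x ∈ 𝒟 := by
    have := (hG.gauss X ⟨1, by rw [coeff_X_one]; exact hG.tower_not_dvd_one⟩).1
    rwa [aeval_X] at this
  induction q using Polynomial.induction_on' with
  | add p q hp hq =>
    rw [map_add, map_add]
    exact 𝒟.add_mem _ _ hp hq
  | monomial n a =>
    rw [aeval_monomial, map_mul, map_pow]
    exact 𝒟.mul_mem _ _ (hG.algebraMap_mem a) (pow_mem hx n)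

/-- A primitive polynomial does not vanish at `x`. -/
private theorem GaussData.tower_prim_ne_zero (hG : GaussData O ϖ 𝒟 x) {s : O[X]}
    (hs : IsPrim ϖ s) : algebraMap E F (aeval x s) ≠ 0 := by
  intro h0
  obtain ⟨j, hj⟩ := hs
  have hp : IsPrim ϖ (s + C ϖ) := by
    refine ⟨j, fun hd => hj ?_⟩
    rw [coeff_add, coeff_C] at hd
    split_ifs at hd with hj0
    · exact (dvd_add_left (dvd_refl ϖ)).1 hd
    · rwa [add_zero] at hd
  have := (hG.gauss _ hp).2
  rw [map_add, map_add, h0, zero_add, aeval_C] at this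
  exact hG.inv_unif_notMem this

end Aux

/-- Elements of `𝒟'` are integral over `𝒟' ∩ F`. -/
private theorem GaussData.tower_integral {O E F F' : Type*} [CommRing O] [Field E] [Algebra O E]
    [Field F] [Algebra E F] [Field F'] [Algebra E F'] [Algebra F F'] [IsScalarTower E F F']
    {ϖ : O} {𝒟' : ValuationSubring F'} {x : E}
    (hG : GaussData O ϖ 𝒟' x) {z : F'} (hz : z ∈ 𝒟') :
    ((algebraMap F F').comp (𝒟'.comap (algebraMap F F')).subtype).IsIntegralElem z := by
  have hE : ∀ e : E, algebraMap F F' (algebraMap E F e) = algebraMap E F' e :=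
    fun e => (IsScalarTower.algebraMap_apply E F F' e).symm
  obtain ⟨s, hs, hint⟩ := hG.integral z hz
  have hmem : ∀ q : O[X], ((algebraMap E F).comp ((aeval x : O[X] →ₐ[O] E) : O[X] →+* E)) q ∈
      𝒟'.comap (algebraMap F F') := by
    intro q
    rw [ValuationSubring.mem_comap]
    simp only [RingHom.comp_apply, RingHom.coe_coe]
    rw [hE]
    exact hG.tower_aeval_mem q
  let g : O[X] →+* (𝒟'.comap (algebraMap F F')) :=
    ((algebraMap E F).comp ((aeval x : O[X] →ₐ[O] E) : O[X] →+* E)).codRestrict _ hmem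
  have hfac : ((algebraMap E F').comp ((aeval x : O[X] →ₐ[O] E) : O[X] →+* E)) =
      ((algebraMap F F').comp (𝒟'.comap (algebraMap F F')).subtype).comp g := by
    refine RingHom.ext fun q => ?_
    change algebraMap E F' (aeval x q) = algebraMap F F' (algebraMap E F (aeval x q))
    rw [hE]
  have h1 : ((algebraMap F F').comp (𝒟'.comap (algebraMap F F')).subtype).IsIntegralElem
      (algebraMap E F' (aeval x s) * z) := by
    unfold IntO at hint
    rw [hfac] at hint
    exact hint.of_comp
  have hS0 := hG.tower_prim_ne_zero hs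
  have hSinv : (algebraMap E F (aeval x s))⁻¹ ∈ 𝒟'.comap (algebraMap F F') := by
    rw [ValuationSubring.mem_comap, map_inv₀, hE]
    exact (hG.gauss s hs).2
  have h2 : ((algebraMap F F').comp (𝒟'.comap (algebraMap F F')).subtype).IsIntegralElem
      (algebraMap E F' (aeval x s))⁻¹ := by
    have := RingHom.isIntegralElem_map
      ((algebraMap F F').comp (𝒟'.comap (algebraMap F F')).subtype)
      (x := (⟨_, hSinv⟩ : 𝒟'.comap (algebraMap F F')))
    simpa [hE] using this
  have h3 := RingHom.IsIntegralElem.mul _ h2 h1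
  rwa [inv_mul_cancel_left₀ hS0] at h3

/-- The trace from `F'` to `F` maps `𝒟'` to `𝒟' ∩ F`. -/
private theorem GaussData.tower_trace_mem {O E F F' : Type*} [CommRing O] [Field E] [Algebra O E]
    [Field F] [Algebra E F] [Field F'] [Algebra E F'] [Algebra F F'] [IsScalarTower E F F']
    [FiniteDimensional F F'] {ϖ : O} {𝒟' : ValuationSubring F'} {x : E}
    (hG : GaussData O ϖ 𝒟' x) {z : F'} (hz : z ∈ 𝒟') :
    Algebra.trace F F' z ∈ 𝒟'.comap (algebraMap F F') := by
  have hint := hG.tower_integral (F := F) hz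
  let _ : Algebra (𝒟'.comap (algebraMap F F')) F' :=
    ((algebraMap F F').comp (𝒟'.comap (algebraMap F F')).subtype).toAlgebra
  have : IsScalarTower (𝒟'.comap (algebraMap F F')) F F' :=
    IsScalarTower.of_algebraMap_eq (fun _ => rfl)
  have h1 : IsIntegral (𝒟'.comap (algebraMap F F')) z := hint
  have h2 : IsIntegral (𝒟'.comap (algebraMap F F')) (Algebra.trace F F' z) :=
    Algebra.isIntegral_trace h1
  obtain ⟨y, hy⟩ := IsIntegrallyClosed.isIntegral_iff.1 h2
  rw [← hy]
  exact y.2

/-- If `𝒟'` is Gauss data on `F' ⊇ F ⊇ E` then `𝒟' ∩ F` is Gauss data on `F`. -/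
theorem GaussData.comap {O E F F' : Type*} [CommRing O] [Field E] [Algebra O E]
    [Field F] [Algebra E F] [Field F'] [Algebra E F'] [Algebra F F'] [IsScalarTower E F F']
    [FiniteDimensional E F'] {ϖ : O} {𝒟' : ValuationSubring F'} {x : E}
    (hG : GaussData O ϖ 𝒟' x) : GaussData O ϖ (𝒟'.comap (algebraMap F F')) x := by
  have hE : ∀ e : E, algebraMap F F' (algebraMap E F e) = algebraMap E F' e :=
    fun e => (IsScalarTower.algebraMap_apply E F F' e).symm
  have hinj : Function.Injective (algebraMap F F') := (algebraMap F F').injective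
  have : FiniteDimensional E F := FiniteDimensional.left E F F'
  have : FiniteDimensional F F' := FiniteDimensional.right E F F'
  have hπ' := hG.tower_unif_ne_zero
  have hπ : algebraMap E F (algebraMap O E ϖ) ≠ 0 := by
    intro h
    apply hπ'
    rw [← hE, h, map_zero]
  -- divisibility by the uniformiser descends
  have hdesc : ∀ y : F, (∃ w ∈ 𝒟', algebraMap F F' y = algebraMap E F' (algebraMap O E ϖ) * w) →
      ∃ w ∈ 𝒟'.comap (algebraMap F F'), y = algebraMap E F (algebraMap O E ϖ) * w := by
    rintro y ⟨w, hw, hyw⟩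
    refine ⟨(algebraMap E F (algebraMap O E ϖ))⁻¹ * y, ?_, ?_⟩
    · rw [ValuationSubring.mem_comap, map_mul, map_inv₀, hE, hyw, inv_mul_cancel_left₀ hπ']
      exact hw
    · rw [mul_inv_cancel_left₀ hπ]
  refine ⟨?_, ?_, ?_, ?_, ?_, ?_⟩
  · intro a
    rw [ValuationSubring.mem_comap, hE]
    exact hG.algebraMap_mem a
  · rw [ValuationSubring.mem_comap, map_inv₀, hE]
    exact hG.inv_unif_notMem
  · intro y hy hy'
    rw [ValuationSubring.mem_comap] at hy
    rw [ValuationSubring.mem_comap, map_inv₀] at hy'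
    exact hdesc y (hG.unif _ hy hy')
  · intro p hp
    rw [ValuationSubring.mem_comap, ValuationSubring.mem_comap, map_inv₀, hE]
    exact hG.gauss p hp
  · intro y hy
    rw [ValuationSubring.mem_comap] at hy
    obtain ⟨s, hs, p, hpm, hp⟩ := hG.integral _ hy
    refine ⟨s, hs, p, hpm, ?_⟩
    apply hinj
    rw [map_zero, Polynomial.hom_eval₂, map_mul, hE]
    have : (algebraMap F F').comp
        ((algebraMap E F).comp ((aeval x : O[X] →ₐ[O] E) : O[X] →+* E)) =
        (algebraMap E F').comp ((aeval x : O[X] →ₐ[O] E) : O[X] →+* E) := by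
      rw [← RingHom.comp_assoc, ← IsScalarTower.algebraMap_eq]
    rw [this]
    exact hp
  · intro y hy hyp
    rw [ValuationSubring.mem_comap] at hy
    apply hdesc
    apply hG.sep _ hy
    intro z hz
    have ht := hG.tower_trace_mem (F := F) hz
    obtain ⟨w, hw, hyw⟩ := hyp _ ht
    refine ⟨algebraMap F F' w, hw, ?_⟩
    have htr : Algebra.trace E F' (algebraMap F F' y * z) =
        Algebra.trace E F (y * Algebra.trace F F' z) := by
      rw [← Algebra.trace_trace (S := F), ← Algebra.smul_def, map_smul, smul_eq_mul]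
    rw [htr, ← hE, hyw, map_mul, hE]

end Fermat.Agent.GoodRed
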